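import Fermat.Agent.LT.Sp.DKer

set_option autoImplicit false

/-!
# Killing data

A finite family of places at which the space `D` is unramified, together with an element `x` of the
field whose divisor is supported on these places and which is a local square root of unity (in the
level) elsewhere: the product of the local translations by uniformisers is the global translation
by `diag(x, 1)`, modulo unipotent matrices.
-/

namespace Fermat.Agent.LT.Kill

open Fermat.Agent.LT Fermat.Agent.LT.Sp
open scoped MatrixGroups

/-- **Killing data.**  `Q` is the quotient of `D` by unipotent matrices, `H` is the (commutative)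
diagonal group acting on it. -/
structure KillRel (F D H Q ι : Type*) [Field F] [NumberField F] [MulAction (GL (Fin 2) F) D]
    [CommGroup H] [MulAction H Q] [Fintype ι] where
  q : ι → ℕ
  q_pos : ∀ i, 0 < q i
  k : ι → ℕ
  x : Fˣ
  norm_eq : |Algebra.norm ℚ (x : F)| = ∏ i, (q i : ℚ) ^ k i
  T : ι → DKer F D
  pr : D → Q
  pr_surj : Function.Surjective pr
  pr_eq : ∀ d d', pr d = pr d' → ∃ t : F, d' = nMat t • d
  t : ι → H
  sum_T : ∀ i (f : Q → ℂ) (d : D), ∑ᶠ d', (T i).κ d d' * f (pr d') =
    q i * f (t i • pr d) + f ((t i)⁻¹ • pr d)
  rel : ∀ d : D, (∏ i, t i ^ k i) • pr d = pr (aMat x • d)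

end Fermat.Agent.LT.Kill
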