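import Fermat.Agent.LT.Kill.Poly

set_option autoImplicit false

/-!
# The killing identity, algebraic part
-/

namespace Fermat.Agent.LT.Kill

open MvPolynomial

section Lists

variable {σ : Type*}

/-- a monomial as a list of variables -/
noncomputable def lst (m : σ →₀ ℕ) : List σ := (Finsupp.toMultiset m).toList

theorem prod_map_lst [Fintype σ] {B : Type*} [CommRing B] (m : σ →₀ ℕ) (b : σ → B) :
    ((lst m).map b).prod = ∏ i, b i ^ m i := by
  classical
  rw [lst, Multiset.prod_map_toList, Finsupp.toMultiset_map, Finsupp.prod_toMultiset,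
    Finsupp.prod_mapDomain_index (fun _ => pow_zero _) (fun _ _ _ => pow_add _ _ _),
    Finsupp.prod_fintype _ _ fun _ => pow_zero _]

end Lists

section Main

variable {σ : Type*} [Fintype σ] [DecidableEq σ] {B : Type*} [CommRing B] [Algebra ℂ B]
  {V : Type*} [AddCommGroup V] [Module ℂ V] (ρ : B →ₐ[ℂ] Module.End ℂ V)

theorem rho_list (b : σ → B) (s : σ → ℂ) (c : List σ → V) (R : List σ → Prop)
    (hR : ∀ v l, R (v :: l) → R l)
    (hstep : ∀ v l, R (v :: l) → ρ (b v) (c l) = s v • c (v :: l)) (l : List σ) (hl : R l) :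
    ρ ((l.map b).prod) (c []) = (l.map s).prod • c l := by
  induction l with
  | nil => simp
  | cons v l ih =>
    rw [List.map_cons, List.prod_cons, map_mul, Module.End.mul_apply, ih (hR v l hl), map_smul,
      hstep v l hl, smul_smul, List.map_cons, List.prod_cons, mul_comm]

/-- **The killing identity.** -/
theorem kill_alg (k : σ → ℕ) (x : σ → Bˣ) (s : σ → ℂ) (c : List σ → V) (R : List σ → Prop)
    (hR : ∀ v l, R (v :: l) → R l)
    (hstep : ∀ v l, R (v :: l) →
      ρ ((x v : B) + (((x v)⁻¹ : Bˣ) : B)) (c l) = s v • c (v :: l))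
    (hsupp : ∀ m ∈ (killPoly k).support, R (lst m))
    (hrel : ρ (∏ v, (x v : B) ^ k v) (c []) = c []) :
    ∑ m ∈ (killPoly k).support, ((((killPoly k).coeff m : ℤ) : ℂ) * ((lst m).map s).prod) • c (lst m) =
      0 := by
  set b : σ → B := fun v => (x v : B) + (((x v)⁻¹ : Bˣ) : B) with hb
  have h1 : ∀ m ∈ (killPoly k).support,
      ((((killPoly k).coeff m : ℤ) : ℂ) * ((lst m).map s).prod) • c (lst m) =
      ρ ((((killPoly k).coeff m : ℤ) : B) * ∏ i, b i ^ m i) (c []) := by
    intro m hm
    rw [← prod_map_lst, map_mul, Module.End.mul_apply,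
      rho_list ρ b s c R hR hstep _ (hsupp m hm), mul_smul]
    have h2 : (((killPoly k).coeff m : ℤ) : B) =
        algebraMap ℂ B (((killPoly k).coeff m : ℤ) : ℂ) := by
      rw [map_intCast]
    rw [h2, AlgHom.commutes, Module.algebraMap_end_apply]
  rw [Finset.sum_congr rfl h1, ← LinearMap.sum_apply, ← map_sum]
  have h3 : ∑ m ∈ (killPoly k).support, (((killPoly k).coeff m : ℤ) : B) * ∏ i, b i ^ m i =
      aeval b (killPoly k) := by
    rw [aeval_def, eval₂_eq']
    refine Finset.sum_congr rfl fun m _ => ?_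
    rw [algebraMap_int_eq, eq_intCast]
  rw [h3]
  obtain ⟨S, hS⟩ := dvd_aeval_killPoly k x
  rw [hS, mul_comm, map_mul, Module.End.mul_apply, map_sub, map_one, LinearMap.sub_apply,
    Module.End.one_apply, hrel, sub_self, map_zero]

end Main

section Group

variable (H Q W : Type*) [CommGroup H] [MulAction H Q] [AddCommGroup W]

/-- the action of the group on functions -/
noncomputable def mv : (H × Multiplicative W) →* Module.End ℂ (Q × W → ℂ) where
  toFun g :=
    { toFun := fun f z => f (g.1 • z.1, z.2 + Multiplicative.toAdd g.2)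
      map_add' := fun _ _ => rfl
      map_smul' := fun _ _ => rfl }
  map_one' := by
    ext f z
    simp
  map_mul' g h := by
    ext f z
    show f ((g.1 * h.1) • z.1, z.2 + (Multiplicative.toAdd g.2 + Multiplicative.toAdd h.2)) =
      f (h.1 • g.1 • z.1, z.2 + Multiplicative.toAdd g.2 + Multiplicative.toAdd h.2)
    rw [mul_comm g.1 h.1, mul_smul, add_assoc]

/-- the representation of the group algebra -/
noncomputable def rep : MonoidAlgebra ℂ (H × Multiplicative W) →ₐ[ℂ] Module.End ℂ (Q × W → ℂ) :=
  MonoidAlgebra.lift ℂ _ _ (mv H Q W)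

variable {H Q W}

theorem rep_single (g : H × Multiplicative W) (a : ℂ) (f : Q × W → ℂ) (z : Q × W) :
    rep H Q W (MonoidAlgebra.single g a) f z =
      a * f (g.1 • z.1, z.2 + Multiplicative.toAdd g.2) := by
  rw [rep, MonoidAlgebra.lift_single]
  rfl

/-- units of the group algebra -/
noncomputable def unt (g : H × Multiplicative W) (a : ℂ) (ha : a ≠ 0) :
    (MonoidAlgebra ℂ (H × Multiplicative W))ˣ where
  val := MonoidAlgebra.single g a
  inv := MonoidAlgebra.single g⁻¹ a⁻¹
  val_inv := by
    rw [MonoidAlgebra.single_mul_single, mul_inv_cancel, mul_inv_cancel₀ ha]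
    rfl
  inv_val := by
    rw [MonoidAlgebra.single_mul_single, inv_mul_cancel, inv_mul_cancel₀ ha]
    rfl

theorem prod_single {G ι : Type*} [CommGroup G] (s : Finset ι) (g : ι → G) (a : ι → ℂ) :
    ∏ i ∈ s, (MonoidAlgebra.single (g i) (a i) : MonoidAlgebra ℂ G) =
      MonoidAlgebra.single (∏ i ∈ s, g i) (∏ i ∈ s, a i) := by
  classical
  induction s using Finset.induction_on with
  | empty => rfl
  | insert i s hi ih =>
    rw [Finset.prod_insert hi, Finset.prod_insert hi, Finset.prod_insert hi, ih,
      MonoidAlgebra.single_mul_single]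

end Group

end Fermat.Agent.LT.Kill
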