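import Fermat.Agent.LT.Kill.Const
import Fermat.Agent.LT.Kill.Def

set_option autoImplicit false

/-!
# Constant terms of invariant functions
-/

namespace Fermat.Agent.LT.Kill

open MeasureTheory Module NumberField Matrix
open Fermat.Agent.LT Fermat.Agent.LT.Sp Fermat.Agent.LT.Bd
open scoped MatrixGroups ContDiff

variable {F : Type*} [Field F] [NumberField F]

/-- the point with coordinates `(0, exp u)` -/
noncomputable def pt (u : InfinitePlace F → ℝ) : HF F := fun w => ⟨0, Real.exp (u w), Real.exp_pos _⟩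

omit [NumberField F] in
theorem trF_pt (p : HF F) (v : InfinitePlace F → ℂ) :
    trF v p = trF (v + fun w => (p w).z) (pt fun w => Real.log (p w).y) := by
  funext w
  apply H3.ext
  · show (p w).z + v w = 0 + (v w + (p w).z)
    ring
  · show (p w).y = Real.exp (Real.log (p w).y)
    rw [Real.exp_log (p w).pos]

section Diag

theorem aMat_smul_z (a : Fˣ) (x : HF F) (w : InfinitePlace F) :
    ((aMat a • x) w).z = w.embedding a * (x w).z := by
  rw [smul_HF_apply, H3.smul_z]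
  have e1 : (embGL w (aMat a)) 0 0 = w.embedding a := by rw [embGL_apply, aMat_coe]; simp
  have e2 : (embGL w (aMat a)) 0 1 = 0 := by rw [embGL_apply, aMat_coe]; simp
  have e3 : (embGL w (aMat a)) 1 0 = 0 := by rw [embGL_apply, aMat_coe]; simp
  have e4 : (embGL w (aMat a)) 1 1 = 1 := by rw [embGL_apply, aMat_coe]; simp
  rw [e1, e2, e3, e4]
  simp [H3.num, H3.den]

theorem aMat_smul_y (a : Fˣ) (x : HF F) (w : InfinitePlace F) :
    ((aMat a • x) w).y = ‖w.embedding (a : F)‖ * (x w).y := by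
  rw [smul_HF_apply, H3.smul_y, det_embGL]
  have e3 : (embGL w (aMat a)) 1 0 = 0 := by rw [embGL_apply, aMat_coe]; simp
  have e4 : (embGL w (aMat a)) 1 1 = 1 := by rw [embGL_apply, aMat_coe]; simp
  rw [e3, e4, aMat_coe]
  simp [H3.den]

/-- logarithms of absolute values -/
noncomputable def logv (a : Fˣ) : InfinitePlace F → ℝ := fun w => Real.log ‖w.embedding (a : F)‖

omit [NumberField F] in
theorem norm_emb_pos (a : Fˣ) (w : InfinitePlace F) : 0 < ‖w.embedding (a : F)‖ := by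
  rw [norm_pos_iff, map_ne_zero]
  exact a.ne_zero

theorem aMat_smul_trF (a : Fˣ) (v : InfinitePlace F → ℂ) (u : InfinitePlace F → ℝ) :
    aMat a • trF v (pt u) = trF (Fou.emb (a : F) * v) (pt (u + logv a)) := by
  funext w
  apply H3.ext
  · rw [aMat_smul_z]
    show w.embedding (a : F) * (0 + v w) = 0 + w.embedding (a : F) * v w
    ring
  · rw [aMat_smul_y]
    show ‖w.embedding (a : F)‖ * Real.exp (u w) = Real.exp (u w + Real.log ‖w.embedding (a : F)‖)
    rw [Real.exp_add, Real.exp_log (norm_emb_pos a w), mul_comm]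

end Diag

variable {D : Type*} [MulAction (GL (Fin 2) F) D] [FinPart F D]

/-- invariant functions, continuous along the unipotent directions -/
structure Good (Ψ : HF F × D → ℂ) : Prop where
  inv : ∀ (g : GL (Fin 2) F) (x : HF F × D), Ψ (g • x.1, g • x.2) = Ψ x
  cont : ∀ (p : HF F) (d : D), Continuous fun v : InfinitePlace F → ℂ => Ψ (trF v p, d)

section CT

variable [IsTotallyComplex F]

theorem Good.per {Ψ : HF F × D → ℂ} (h : Good Ψ) (p : HF F) {d : D} {N : ℕ}
    (hN : ∀ a : 𝓞 F, (N : F) * a ∈ trans F d) :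
    Fou.Per N fun v : InfinitePlace F → ℂ => Ψ (trF v p, d) := by
  refine ⟨h.cont p d, fun a v => ?_⟩
  rw [add_comm, trF_add, trF_emb]
  have h1 := h.inv (nMat ((N : F) * a)) (trF v p, d)
  rw [mem_trans.mp (hN a)] at h1
  exact h1

/-- the normalised constant term -/
noncomputable def ct (Ψ : HF F × D → ℂ) (d : D) (u : InfinitePlace F → ℝ) : ℂ :=
  (∏ w, ((Real.exp (u w) : ℝ) : ℂ))⁻¹ * Fou.fc (fun v => Ψ (trF v (pt u), d)) 0

theorem fc_zero {N : ℕ} (hN : N ≠ 0) {f : (InfinitePlace F → ℂ) → ℂ} (hf : Fou.Per N f) :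
    Fou.fc f 0 = Fou.mn N f := by
  rw [Fou.fc_eq hN hf (Fou.IsDual.zero N)]
  congr 1
  funext v
  rw [neg_zero, Fou.ev_zero, mul_one]

theorem fc_zero_trans {N : ℕ} (hN : N ≠ 0) {f : (InfinitePlace F → ℂ) → ℂ} (hf : Fou.Per N f)
    (u : InfinitePlace F → ℂ) : Fou.fc (fun v => f (v + u)) 0 = Fou.fc f 0 := by
  rw [Fou.fc_trans hN hf u 0, Fou.ev_zero, one_mul]

/-- the constant term at a general point -/
theorem Good.fc_eq {Ψ : HF F × D → ℂ} (h : Good Ψ) (p : HF F) (d : D) :
    Fou.fc (fun v => Ψ (trF v p, d)) 0 =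
      (∏ w, (((p w).y : ℝ) : ℂ)) * ct Ψ d fun w => Real.log (p w).y := by
  obtain ⟨N, hN0, hN⟩ := exists_mul_mem_trans (F := F) d
  have h1 : (fun v => Ψ (trF v p, d)) = fun v => (fun v' : InfinitePlace F → ℂ =>
      Ψ (trF v' (pt fun w => Real.log (p w).y), d)) (v + fun w => (p w).z) := by
    funext v
    simp only []
    rw [← trF_pt]
  rw [h1, fc_zero_trans hN0 (h.per _ hN), ct, ← mul_assoc]
  have h2 : (∏ w, (((p w).y : ℝ) : ℂ)) * (∏ w, ((Real.exp (Real.log (p w).y) : ℝ) : ℂ))⁻¹ = 1 := by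
    have h3 : ∀ w, Real.exp (Real.log (p w).y) = (p w).y := fun w => Real.exp_log (p w).pos
    simp_rw [h3]
    refine mul_inv_cancel₀ ?_
    rw [Finset.prod_ne_zero_iff]
    intro w _
    exact_mod_cast (p w).pos.ne'
  rw [h2, one_mul]

/-- invariance under unipotent matrices -/
theorem Good.ct_nMat {Ψ : HF F × D → ℂ} (h : Good Ψ) (t : F) (d : D)
    (u : InfinitePlace F → ℝ) : ct Ψ (nMat t • d) u = ct Ψ d u := by
  obtain ⟨N, hN0, hN⟩ := exists_mul_mem_trans (F := F) d
  rw [ct, ct]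
  congr 1
  have h1 : (fun v => Ψ (trF v (pt u), nMat t • d)) = fun v => (fun v' : InfinitePlace F → ℂ =>
      Ψ (trF v' (pt u), d)) (v + -Fou.emb t) := by
    funext v
    simp only []
    have h2 := h.inv (nMat t) (trF (v + -Fou.emb t) (pt u), d)
    rw [← h2]
    congr 2
    show trF v (pt u) = nMat t • trF (v + -Fou.emb t) (pt u)
    rw [← trF_emb, ← trF_add]
    congr 1
    abel
  rw [h1, fc_zero_trans hN0 (h.per _ hN)]

/-- invariance under diagonal matrices -/
theorem Good.ct_aMat {Ψ : HF F × D → ℂ} (h : Good Ψ) (a : Fˣ) (d : D)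
    (u : InfinitePlace F → ℝ) :
    (∏ w : InfinitePlace F, ((‖w.embedding (a : F)‖ : ℝ) : ℂ)) * ct Ψ (aMat a • d) (u + logv a) =
      ct Ψ d u := by
  obtain ⟨N, hN0, hN⟩ := exists_mul_mem_trans (F := F) (aMat a • d)
  have h0 : (∏ w : InfinitePlace F, ((‖w.embedding (a : F)‖ : ℝ) : ℂ)) *
      (∏ w : InfinitePlace F, ((Real.exp ((u + logv a) w) : ℝ) : ℂ))⁻¹ =
      (∏ w : InfinitePlace F, ((Real.exp (u w) : ℝ) : ℂ))⁻¹ := by
    rw [← Finset.prod_inv_distrib, ← Finset.prod_inv_distrib, ← Finset.prod_mul_distrib]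
    refine Finset.prod_congr rfl fun w _ => ?_
    have h1 : Real.exp ((u + logv a) w) = Real.exp (u w) * ‖w.embedding (a : F)‖ := by
      rw [Pi.add_apply, Real.exp_add, logv, Real.exp_log (norm_emb_pos a w)]
    rw [h1]
    have h2 : ((‖w.embedding (a : F)‖ : ℝ) : ℂ) ≠ 0 := by
      exact_mod_cast (norm_emb_pos a w).ne'
    have h3 : ((Real.exp (u w) : ℝ) : ℂ) ≠ 0 := by
      exact_mod_cast (Real.exp_pos (u w)).ne'
    push_cast
    push_cast at h3
    field_simp
  rw [ct, ct, ← mul_assoc, h0]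
  congr 1
  have h1 : (fun v => Ψ (trF v (pt u), d)) = fun v => (fun v' : InfinitePlace F → ℂ =>
      Ψ (trF v' (pt (u + logv a)), aMat a • d)) (Fou.emb (a : F) * v) := by
    funext v
    simp only []
    rw [← aMat_smul_trF]
    exact (h.inv (aMat a) (trF v (pt u), d)).symm
  rw [h1]
  have h2 := Fou.fc_scale hN0 (h.per (pt (u + logv a)) hN) a.ne_zero 0
  rw [mul_zero] at h2
  exact h2.symm

theorem Good.finsum {ι' : Type*} (s : Finset ι') {Ψ : ι' → HF F × D → ℂ} (h : ∀ i ∈ s, Good (Ψ i))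
    (c : ι' → ℂ) : Good fun x => ∑ i ∈ s, c i * Ψ i x := by
  constructor
  · intro g x
    exact Finset.sum_congr rfl fun i hi => by rw [(h i hi).inv]
  · intro p d
    exact continuous_finsetSum _ fun i hi => continuous_const.mul ((h i hi).cont p d)

/-- linearity -/
theorem ct_finsum {ι' : Type*} (s : Finset ι') {Ψ : ι' → HF F × D → ℂ} (h : ∀ i ∈ s, Good (Ψ i))
    (c : ι' → ℂ) (d : D) (u : InfinitePlace F → ℝ) :
    ct (fun x => ∑ i ∈ s, c i * Ψ i x) d u = ∑ i ∈ s, c i * ct (Ψ i) d u := by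
  obtain ⟨N, hN0, hN⟩ := exists_mul_mem_trans (F := F) d
  rw [ct, Fou.fc_sum hN0 s (fun i v => c i * Ψ i (trF v (pt u), d))
    (fun i hi => ((h i hi).per (pt u) hN).const_mul (c i)), Finset.mul_sum]
  refine Finset.sum_congr rfl fun i hi => ?_
  rw [Fou.fc_const_mul hN0 ((h i hi).per (pt u) hN), ct]
  ring

end CT

end Fermat.Agent.LT.Kill
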