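import Fermat.Agent.LT.Kill.KSide
import Fermat.Agent.LT.Spec.Side
import Fermat.Agent.LT.Spec.Top
import Fermat.Agent.LT.Brg.Pt5

set_option autoImplicit false
set_option linter.unusedSectionVars false

/-!
# The killing operator as a combination of matched pairs
-/

namespace Fermat.Agent.LT.Kill

open MeasureTheory Module NumberField Matrix MvPolynomial
open Fermat.Agent.LT Fermat.Agent.LT.Sp Fermat.Agent.LT.Bd Fermat.Agent.LT.Op
open Fermat.Agent.LT.Spec Fermat.Agent.LT.FA
open scoped MatrixGroups ContDiff ENNReal NNReal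

section Defs

variable {S ι J : Type*} [Monoid S]

/-- products of symbols -/
def symL (T : ι → S) : List (ι ⊕ J) → S
  | [] => 1
  | Sum.inl i :: l => T i * symL T l
  | Sum.inr _ :: l => symL T l

theorem symL_nil (T : ι → S) : symL (J := J) T [] = 1 := rfl
theorem symL_inl (T : ι → S) (i : ι) (l : List (ι ⊕ J)) :
    symL T (Sum.inl i :: l) = T i * symL T l := rfl
theorem symL_inr (T : ι → S) (j : J) (l : List (ι ⊕ J)) :
    symL T (Sum.inr j :: l) = symL T l := rfl

variable [Fintype ι] [DecidableEq ι] [Fintype J] [DecidableEq J]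

/-- the killing polynomial for the exponents `c` and `1` -/
noncomputable abbrev kp (c : ι → ℕ) (J : Type*) [Fintype J] [DecidableEq J] :
    MvPolynomial (ι ⊕ J) ℤ := killPoly (Sum.elim c fun _ : J => 1)

/-- the scalars -/
noncomputable def scq (q : ι → ℕ) (J : Type*) : ι ⊕ J → ℝ :=
  Sum.elim (fun i => (√(q i : ℝ))⁻¹) fun _ => 1

/-- the coefficients of the killing operator -/
noncomputable def coefC (c q : ι → ℕ) (J : Type*) [Fintype J] [DecidableEq J]
    (m : (ι ⊕ J) →₀ ℕ) : ℝ :=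
  (((kp c J).coeff m : ℤ) : ℝ) * ((lst m).map (scq q J)).prod

/-- **the killing operator** as a formal combination -/
noncomputable def comb (c q : ι → ℕ) (L : J → ℝ) (φ : J → ℝ → ℝ) (T : ι → S) :
    ((J → IKer) × S) →₀ ℂ :=
  ∑ m : {m // m ∈ (kp c J).support}, Finsupp.single
    ((fun w => mkI (φL id L φ (lst m.1) w)), symL T (lst m.1)) ((coefC c q J m.1 : ℝ) : ℂ)

variable {F D H Q : Type*} [Field F] [NumberField F] [MulAction (GL (Fin 2) F) D]
  [CommGroup H] [MulAction H Q]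

theorem killC_eq (K : KillRel F D H Q ι) (m : (ι ⊕ J) →₀ ℕ) :
    killC K J m = ((coefC K.k K.q J m : ℝ) : ℂ) := by
  rw [killC, coefC]
  push_cast
  congr 1
  rw [← Complex.coe_algebraMap, map_list_prod, List.map_map]
  congr 1
  refine List.map_congr_left fun v _ => ?_
  cases v with
  | inl i =>
    show (((√(K.q i : ℝ) : ℝ) : ℂ))⁻¹ = ((((√(K.q i : ℝ))⁻¹ : ℝ)) : ℂ)
    rw [Complex.ofReal_inv]
  | inr j =>
    show (1 : ℂ) = ((1 : ℝ) : ℂ)
    rw [Complex.ofReal_one]

theorem map_symL (mm : S → DKer F D) (h1 : mm 1 = DKer.one F D)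
    (hmul : ∀ a b, mm (a * b) = (mm a).comp (mm b)) {T : ι → S} {κ : ι → DKer F D}
    (hT : ∀ i, mm (T i) = κ i) (l : List (ι ⊕ J)) : mm (symL T l) = κL κ (DKer.one F D) l := by
  induction l with
  | nil => exact h1
  | cons v l ih =>
    cases v with
    | inl i => rw [symL_inl, hmul, ih, hT]; rfl
    | inr j => rw [symL_inr, ih]; rfl

end Defs

section Bdd

variable {S ι : Type*} [Monoid S] [Fintype ι] [DecidableEq ι]
  {F D H Q : Type*} [Field F] [NumberField F] [MulAction (GL (Fin 2) F) D]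
  [CommGroup H] [MulAction H Q] [FinPart F D] [IsTotallyComplex F]
  [MeasurableSpace D] [DiscreteMeasurableSpace D] [Countable D]
  {T : ι → S} {A : ℝ}

/-- **boundedness, for the large field** -/
theorem bdd_comb_E [DecidableEq (InfinitePlace F)] (K : KillRel F D H Q ι)
    {L : InfinitePlace F → ℝ} {φ : InfinitePlace F → ℝ → ℝ}
    (hφ : ∀ w, Pl A (φ w))
    (hwt : ∀ m ∈ (kp K.k (InfinitePlace F)).support, wt L (lst m) < A) (hA : 0 < A)
    (hL : ∀ w, L w = logv K.x w) (SF : FSym F D ((InfinitePlace F → IKer) × S))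
    (harch : ∀ p, SF.arch p = p.1) (mm : S → DKer F D) (hm : ∀ p, SF.m p = mm p.2)
    (h1 : mm 1 = DKer.one F D) (hmul : ∀ a b, mm (a * b) = (mm a).comp (mm b))
    (hT : ∀ i, mm (T i) = K.T i) :
    ∃ C : ℝ, ∀ x y, ‖perK PGL(2, F) (lk SF.kO (comb K.k K.q L φ T)) x y‖ ≤ C := by
  classical
  obtain ⟨C, hC⟩ := bounded_kill_pk K id L hφ (DKer.one F D) hwt hA (fun w => by
    rw [← hL w, Finset.sum_eq_single w]
    · exact if_pos rfl
    · intro j _ hj
      exact if_neg hj
    · intro h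
      exact absurd (Finset.mem_univ w) h)
  refine ⟨C, fun x y => le_trans (le_of_eq ?_) (hC x y)⟩
  congr 2
  funext x y
  rw [comb, lk_sum_single]
  refine Finset.sum_congr rfl fun m _ => ?_
  rw [killC_eq K m.1, FSym.kO, harch, hm, map_symL mm h1 hmul hT]
  rfl

/-- **boundedness, for the small field** -/
theorem bdd_comb_K {J : Type*} [Fintype J] [DecidableEq J] (K : KillRel F D H Q ι)
    {bw : J → InfinitePlace F} {pl : Fin 3 → InfinitePlace F → J} (he : ∀ v i, bw (pl i v) = v)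
    (hinj : Function.Injective fun p : Fin 3 × InfinitePlace F => pl p.1 p.2)
    (hsurj : ∀ j, ∃ i, pl i (bw j) = j) {L : J → ℝ}
    {φ : J → ℝ → ℝ} (hφ : ∀ j, Pl A (φ j))
    (hwt : ∀ m ∈ (kp K.k J).support, wt L (lst m) < A) (hA : 0 < A)
    (hL : ∀ v, ∑ i, L (pl i v) = logv K.x v) (SF : FSym F D ((J → IKer) × S))
    (harch : ∀ p, SF.arch p = kk3 pl p.1) (mm : S → DKer F D) (hm : ∀ p, SF.m p = mm p.2)
    (h1 : mm 1 = DKer.one F D) (hmul : ∀ a b, mm (a * b) = (mm a).comp (mm b))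
    (hT : ∀ i, mm (T i) = K.T i) :
    ∃ C : ℝ, ∀ x y, ‖perK PGL(2, F) (lk SF.kO (comb K.k K.q L φ T)) x y‖ ≤ C := by
  obtain ⟨C, hC⟩ := bounded_kside K (pl := bw) (e := fun v i => pl i v) he
    (fun v i i' h => (Prod.ext_iff.1 (hinj (a₁ := (i, v)) (a₂ := (i', v)) h)).1) hsurj L hφ
    (DKer.one F D) hwt hA hL
    (fun m => kk3 pl fun w => mkI (φL id L φ (lst m.1) w)) (fun m v p p' => rfl)
  refine ⟨C, fun x y => le_trans (le_of_eq ?_) (hC x y)⟩
  congr 2
  funext x y
  rw [comb, lk_sum_single]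
  refine Finset.sum_congr rfl fun m _ => ?_
  rw [killC_eq K m.1, FSym.kO, harch, hm, map_symL mm h1 hmul hT]
  rfl

end Bdd

section Adj

variable {S ι : Type*} [Monoid S] [Fintype ι] [DecidableEq ι]
  {F D : Type*} [Field F] [NumberField F] [MulAction (GL (Fin 2) F) D]
  [FinPart F D] [IsTotallyComplex F]
  [MeasurableSpace D] [DiscreteMeasurableSpace D] [Countable D]
  {T : ι → S} {wf : HF F × D → ℝ≥0} [IsFiniteMeasure (wtM (muY F D) wf)]

theorem adj_one : (DKer.one F D).adj = DKer.one F D := by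
  classical
  refine DKer.ext' fun d d' => ?_
  show (starRingEnd ℂ) ((DKer.one F D).κ d' d) = (DKer.one F D).κ d d'
  have h1 : ∀ a b : D, (DKer.one F D).κ a b = if a = b then 1 else 0 := fun a b => by
    by_cases h : a = b
    · rw [if_pos h]; exact if_pos h
    · rw [if_neg h]; exact if_neg h
  rw [h1, h1]
  by_cases h : d = d'
  · rw [if_pos h.symm, if_pos h, map_one]
  · rw [if_neg (Ne.symm h), if_neg h, map_zero]

theorem adj_symL {J : Type*} (mm : S → DKer F D) (h1 : mm 1 = DKer.one F D)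
    (hmul : ∀ a b, mm (a * b) = (mm a).comp (mm b))
    (hcomm : ∀ a b, (mm a).comp (mm b) = (mm b).comp (mm a))
    (hT : ∀ i, (mm (T i)).adj = mm (T i)) (l : List (ι ⊕ J)) :
    (mm (symL T l)).adj = mm (symL T l) := by
  induction l with
  | nil => rw [symL_nil, h1, adj_one]
  | cons v l ih =>
    cases v with
    | inl i => rw [symL_inl, hmul, adj_comp, ih, hT, hcomm]
    | inr j => exact ih

theorem lcO_comb {J : Type*} [Fintype J] [DecidableEq J] {H : Type*} [NormedAddCommGroup H]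
    [InnerProductSpace ℂ H] (O : ((J → IKer) × S) → H →L[ℂ] H) (c q : ι → ℕ) (L : J → ℝ)
    (φ : J → ℝ → ℝ) (T : ι → S) : lcO O (comb c q L φ T) =
      ∑ m : {m // m ∈ (kp c J).support}, ((coefC c q J m.1 : ℝ) : ℂ) •
        O ((fun w => mkI (φL id L φ (lst m.1) w)), symL T (lst m.1)) := by
  rw [lcO, comb, map_sum]
  refine Finset.sum_congr rfl fun m _ => ?_
  rw [Finsupp.linearCombination_single]

/-- **self-adjointness** -/
theorem adjoint_comb {J : Type*} [Fintype J] [DecidableEq J]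
    (hw : IsWt PGL(2, F) (muY F D) wf) (SF : FSym F D ((J → IKer) × S)) (mm : S → DKer F D)
    (hm : ∀ p, SF.m p = mm p.2) (h1 : mm 1 = DKer.one F D)
    (hmul : ∀ a b, mm (a * b) = (mm a).comp (mm b))
    (hcomm : ∀ a b, (mm a).comp (mm b) = (mm b).comp (mm a))
    (hT : ∀ i, (mm (T i)).adj = mm (T i)) (c q : ι → ℕ) (L : J → ℝ) (φ : J → ℝ → ℝ) :
    ContinuousLinearMap.adjoint (lcO (SF.O hw) (comb c q L φ T)) =
      lcO (SF.O hw) (comb c q L φ T) := by
  rw [lcO_comb, map_sum]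
  refine Finset.sum_congr rfl fun m _ => ?_
  rw [map_smulₛₗ, Complex.conj_ofReal]
  congr 1
  rw [FSym.O, opK_adj, hm, adj_symL mm h1 hmul hcomm hT]

end Adj

end Fermat.Agent.LT.Kill
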