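import Fermat.Agent.LT.Kill.CombI
import Fermat.Agent.LT.Mp.Fam
import Fermat.Agent.LT.Brg.IK
import Fermat.Agent.LT.Op.Eig

set_option autoImplicit false
set_option linter.unusedSectionVars false
set_option linter.unusedVariables false

/-!
# The eigenvalue of the killing combination for the concrete context
-/

namespace Fermat.Agent.LT.Kill

open MeasureTheory Module NumberField Matrix MvPolynomial
open Fermat.Agent.LT Fermat.Agent.LT.Sp Fermat.Agent.LT.Bd Fermat.Agent.LT.Op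
open Fermat.Agent.LT.Spec Fermat.Agent.LT.FA
open scoped MatrixGroups ContDiff ENNReal NNReal

section Val

variable {S ι : Type*} [Monoid S] [Fintype ι] [DecidableEq ι]
  {F D : Type*} [Field F] [NumberField F] [MulAction (GL (Fin 2) F) D]
  [FinPart F D] [IsTotallyComplex F]
  [MeasurableSpace D] [DiscreteMeasurableSpace D] [Countable D]
  {T : ι → S} {wf : HF F × D → ℝ≥0} [IsFiniteMeasure (wtM (muY F D) wf)]

/-- **the eigenvalue of the killing operator**, from the eigenvalues of the factors -/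
theorem comb_eigen_of [DecidableEq (InfinitePlace F)] (hw : IsWt PGL(2, F) (muY F D) wf)
    (SF : FSym F D ((InfinitePlace F → IKer) × S)) (harch : ∀ p, SF.arch p = p.1)
    (mm : S → DKer F D) (hm : ∀ p, SF.m p = mm p.2) (h1 : mm 1 = DKer.one F D)
    (hmul : ∀ a b, mm (a * b) = (mm a).comp (mm b))
    {f : HA PGL(2, F) (muY F D)}
    (hop : ∀ (κs : InfinitePlace F → IKer) (s : InfinitePlace F → ℂ) (κf : DKer F D) (c : ℂ),
      (∀ j, opA hw j (κs j) f = s j • f) → opD hw κf f = c • f →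
      opK hw κs κf f = ((∏ j, s j) * c) • f)
    (hA : ∀ (w : InfinitePlace F) (k : ℝ → ℝ) (hk : Continuous k) (hs : HasCompactSupport k),
      opA hw w (H3.kerOf hk hs) f = (H3.khat k : ℂ) • f)
    (c q : ι → ℕ) (hq : ∀ i, 0 < q i) {lam : ι → ℝ}
    (hT : ∀ i, opD hw (mm (T i)) f = ((√(q i : ℝ) * lam i : ℝ) : ℂ) • f)
    {L : InfinitePlace F → ℝ} {φ : InfinitePlace F → ℝ → ℝ} {A : ℝ} (hφ : ∀ w, Pl A (φ w))
    (hwt : ∀ m ∈ (kp c (InfinitePlace F)).support, wt L (lst m) < A) :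
    lcO (SF.O hw) (comb c q L φ T) f =
      ((aeval (Sum.elim lam fun _ => (2 : ℝ)) (kp c (InfinitePlace F)) *
        ∏ w, H3.khat (φ w) : ℝ) : ℂ) • f := by
  rw [lcO_comb]
  have e1 : ∀ m : {m // m ∈ (kp c (InfinitePlace F)).support},
      (((coefC c q (InfinitePlace F) m.1 : ℝ) : ℂ) •
        SF.O hw ((fun w => mkI (φL id L φ (lst m.1) w)), symL T (lst m.1))) f =
      (((((kp c (InfinitePlace F)).coeff m.1 : ℤ) : ℝ) *
        (∏ v, (Sum.elim lam (fun _ => (2 : ℝ)) v) ^ m.1 v) * ∏ w, H3.khat (φ w) : ℝ) : ℂ) •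
        f := by
    intro m
    have e2 := hop (fun w => mkI (φL id L φ (lst m.1) w))
      (fun w => ((H3.khat (φL id L φ (lst m.1) w) : ℝ) : ℂ)) _ _ (fun w => by
        have hp := pl_φL id L hφ (lst m.1) (hwt m.1 m.2) w
        rw [mkI_eq hp.smooth.continuous hp.supp]
        exact hA w _ _ _)
      (opD_symL (J := InfinitePlace F) hw mm h1 hmul hT (lst m.1))
    rw [_root_.smul_apply, FSym.O, harch, hm]
    refine (congrArg (fun z => ((coefC c q (InfinitePlace F) m.1 : ℝ) : ℂ) • z) e2).trans ?_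
    rw [smul_smul, ← Complex.ofReal_prod, ← Complex.ofReal_mul, ← Complex.ofReal_mul,
      prod_khat_φL hφ (lst m.1) (hwt m.1 m.2)]
    congr 2
    rw [coefC, ← prod_map_lst]
    have e3 : ((lst m.1).map (Sum.elim lam fun _ => (2 : ℝ))).prod =
        ((lst m.1).map (scq q (InfinitePlace F))).prod *
        (((lst m.1).map (Sum.elim (fun _ => (1 : ℝ)) fun _ => 2)).prod *
        ((lst m.1).map (Sum.elim (fun i => √(q i : ℝ) * lam i) fun _ => 1)).prod) := by
      rw [← List.prod_map_mul, ← List.prod_map_mul]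
      congr 1
      refine List.map_congr_left fun v _ => ?_
      cases v with
      | inl i =>
        have := Real.sqrt_pos.2 (Nat.cast_pos (α := ℝ).2 (hq i))
        simp only [Sum.elim_inl, scq]
        field_simp
      | inr j => simp [scq]
    rw [e3]
    ring
  rw [_root_.sum_apply, Finset.sum_congr rfl fun m _ => e1 m, ← Finset.sum_smul,
    ← Complex.ofReal_sum]
  congr 2
  rw [← Finset.sum_mul]
  congr 1
  rw [aeval_def, eval₂_eq']
  rw [Finset.sum_coe_sort (kp c (InfinitePlace F)).support fun m =>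
    (((kp c (InfinitePlace F)).coeff m : ℤ) : ℝ) *
      ∏ v, (Sum.elim lam (fun _ => (2 : ℝ)) v) ^ m v]
  refine Finset.sum_congr rfl fun m _ => ?_
  rw [algebraMap_int_eq, eq_intCast]

end Val

end Fermat.Agent.LT.Kill

namespace Fermat.Agent.LT.Mp.KillD

open MeasureTheory Module NumberField Matrix MvPolynomial IsDedekindDomain
open Fermat.Agent.LT Fermat.Agent.LT.Sp Fermat.Agent.LT.Bd Fermat.Agent.LT.Op
open Fermat.Agent.LT.Spec Fermat.Agent.LT.FA Fermat.Agent.LT.Loc Fermat.Agent.LT.Glob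
open Fermat.Agent.LT.Kill Fermat.Agent.LT.Mp.Ctx Fermat.Agent.LT.Mp
open scoped MatrixGroups ContDiff ENNReal NNReal

universe u

variable {k E : Type u} [Field k] [NumberField k] [Field E] [NumberField E] [Algebra k E]
  {σ : E ≃ₐ[k] E} {h : Gal3 σ} {b : Bad σ}

section

variable (K : KillD h b)

/-- the Hecke symbols at the killing place -/
noncomputable def TS (j : Fin 3) : (b.v0Data h).pureS :=
  b.sF h (some (Jsp.mk' K.hb K.h0 K.hs j))

theorem TS_coe (j : Fin 3) : (K.TS j).1 = K.sT j := rfl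

theorem q_eq : K.q = Ideal.absNorm K.v.asIdeal := by
  rw [q, Ideal.absNorm_apply, Submodule.cardQuot_apply]

end

variable {K : KillD h b} (t : K.Test)

/-- **the killing combination** -/
noncomputable def Test.A : MPt (b.X h) (b.v0Data h).pureS →₀ ℂ := t.comb K.TS

open Classical in
/-- **its eigenvalue** -/
noncomputable def Test.val (l : ℝ) : ℝ :=
  aeval (Sum.elim (fun _ => l) fun _ => (2 : ℝ)) (kp3 (InfinitePlace E)) *
    ∏ w, H3.khat (t.φ w)

theorem Test.val_ne_zero : t.val (-2) ≠ 0 := by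
  classical
  exact mul_ne_zero (aeval_kp_ne_zero _) (Finset.prod_ne_zero_iff.2 fun w _ => (t.hφ w).ne')

theorem Test.val_ne_zero' {l : ℝ} (hl : l = -2) : t.val l ≠ 0 := hl ▸ t.val_ne_zero

section Eig

variable [IsTotallyComplex k] [IsTotallyComplex E]
  [MeasurableSpace (LocFam.D (b.X h).UE)] [DiscreteMeasurableSpace (LocFam.D (b.X h).UE)]
  [Countable (LocFam.D (b.X h).UE)] {wE : HF E × LocFam.D (b.X h).UE → ℝ≥0}
  [IsFiniteMeasure (wtM (muY E (LocFam.D (b.X h).UE)) wE)]

/-- **the eigenvalue of the killing combination** -/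
theorem Test.hAeig (hwE : IsWt PGL(2, E) (muY E (LocFam.D (b.X h).UE)) wE) {l : ℝ}
    {f : HA PGL(2, E) (muY E (LocFam.D (b.X h).UE))}
    (hf1 : ∀ j : Fin 3, opD hwE (ME (K.TS j).1).toDKer f =
      ((√(Ideal.absNorm K.v.asIdeal : ℝ) * l : ℝ) : ℂ) • f)
    (hf2 : ∀ (w : InfinitePlace E) (κ : IKer), opA hwE w κ f = (κ.ev : ℂ) • f)
    (hop : ∀ (κs : InfinitePlace E → IKer) (s : InfinitePlace E → ℂ)
      (κf : DKer E (LocFam.D (b.X h).UE)) (c : ℂ),
      (∀ j, opA hwE j (κs j) f = s j • f) → opD hwE κf f = c • f →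
      opK hwE κs κf f = ((∏ j, s j) * c) • f) :
    lcO ((symE (b.v0Data h).pureS).O hwE) t.A f = ((t.val l : ℝ) : ℂ) • f := by
  classical
  have key := comb_eigen_of (T := K.TS) hwE (symE (X := b.X h) (b.v0Data h).pureS)
    (fun p => rfl) (fun s => (ME s.1).toDKer) (fun p => rfl)
    (by
      show (ME (1 : (b.X h).Sym)).toDKer = _
      rw [ME_one, LocFam.GFun.toDKer_one])
    (fun x y => by
      show (ME (x.1 * y.1)).toDKer = _
      rw [ME_mul, LocFam.GFun.toDKer_mul]) (f := f) hop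
    (fun w k hk hs => by rw [hf2, IKer.ev_kerOf]) (fun _ => 1) (fun _ => K.q)
    (fun _ => K.q_pos) (lam := fun _ => l) (fun i => by rw [K.q_eq]; exact hf1 i)
    (L := K.L) (φ := t.φ) t.hpl (fun m hm => t.hwt m hm)
  exact key

/-- **the eigenvalue of the killing combination**, without hypothesis -/
theorem Test.hAeig' (hwE : IsWt PGL(2, E) (muY E (LocFam.D (b.X h).UE)) wE) {l : ℝ}
    {f : HA PGL(2, E) (muY E (LocFam.D (b.X h).UE))}
    (hf1 : ∀ j : Fin 3, opD hwE (ME (K.TS j).1).toDKer f =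
      ((√(Ideal.absNorm K.v.asIdeal : ℝ) * l : ℝ) : ℂ) • f)
    (hf2 : ∀ (w : InfinitePlace E) (κ : IKer), opA hwE w κ f = (κ.ev : ℂ) • f) :
    lcO ((symE (b.v0Data h).pureS).O hwE) t.A f = ((t.val l : ℝ) : ℂ) • f :=
  t.hAeig hwE hf1 hf2 fun _ _ _ _ hs hc => Op.opK_eigen hwE hs hc

/-- **the eigenvalue of the killing combination**, in the form of the comparison -/
theorem Test.hAeig_spec (hwE : IsWt PGL(2, E) (muY E (LocFam.D (b.X h).UE)) wE)
    {lam : Idx (Option (Jsp b)) (InfinitePlace E × IKer) → ℝ} {l : ℝ}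
    (h1 : ∀ j : Fin 3, lam (.fin (some (Jsp.mk' K.hb K.h0 K.hs j))) =
      √(Ideal.absNorm K.v.asIdeal : ℝ) * l)
    (h2 : ∀ a, lam (.arch a) = a.2.ev) (h3 : lam .A = t.val l)
    (f : HA PGL(2, E) (muY E (LocFam.D (b.X h).UE)))
    (hf1 : ∀ j, j ≠ none → opD hwE (ME (b.sF h j).1).toDKer f = (lam (.fin j) : ℂ) • f)
    (hf2 : ∀ a : InfinitePlace E × IKer, opA hwE a.1 a.2 f = (lam (.arch a) : ℂ) • f) :
    lcO ((symE (b.v0Data h).pureS).O hwE) t.A f = (lam .A : ℂ) • f := by
  rw [h3]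
  refine t.hAeig' hwE (fun j => ?_) fun w κ => ?_
  · rw [← h1 j]
    exact hf1 _ (Option.some_ne_none _)
  · rw [← h2 (w, κ)]
    exact hf2 (w, κ)

end Eig

end Fermat.Agent.LT.Mp.KillD
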