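import Fermat.Agent.LT.Kill.CombV
import Fermat.Agent.LT.Mp.Hecke

set_option autoImplicit false
set_option linter.unusedSectionVars false
set_option linter.unusedVariables false

/-!
# The killing combination for the concrete context
-/

namespace Fermat.Agent.LT.Mp

open MeasureTheory Module NumberField Matrix MvPolynomial IsDedekindDomain
open Fermat.Agent.LT Fermat.Agent.LT.Sp Fermat.Agent.LT.Bd Fermat.Agent.LT.Op
open Fermat.Agent.LT.Spec Fermat.Agent.LT.FA Fermat.Agent.LT.Loc Fermat.Agent.LT.Glob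
open Fermat.Agent.LT.Kill Fermat.Agent.LT.Mp.Ctx
open scoped MatrixGroups ContDiff ENNReal NNReal

universe u

section Wt

/-- the exponents -/
noncomputable abbrev kp3 (J : Type*) [Fintype J] [DecidableEq J] : MvPolynomial (Fin 3 ⊕ J) ℤ :=
  kp (fun _ : Fin 3 => 1) J

end Wt

theorem adj_single_TTh {F : Type*} [Field F] [NumberField F] [IsTotallyComplex F] {ι : Type*}
    {L : LocFam F ι} {U : L.Level} {v : ι} {ϖ : (L.R v)ˣ} {B : Finset (L.R v)}
    (h : Unif (L.O v) ϖ B) (hU : U.U v = PO (L.O v)) :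
    (LocFam.GFun.single v (LocFam.TTh h hU)).toDKer.adj =
      (LocFam.GFun.single v (LocFam.TTh h hU)).toDKer := by
  classical
  rw [← LocFam.GFun.toDKer_adj, LocFam.GFun.adj_single]
  congr 2
  refine Hk.adj_eq_self _ fun g => ?_
  rw [Hk.symm_iff.1 (LocFam.TTh_symm h hU) g, LocFam.TTh_f]
  split_ifs
  · exact map_one _
  · exact map_zero _

variable {k E : Type u} [Field k] [NumberField k] [Field E] [NumberField E] [Algebra k E]
  {σ : E ≃ₐ[k] E}

/-- a common level on both sides -/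
theorem Bad.exists_level (h : Gal3 σ) (b : Bad σ) : ∃ N : ℕ, N ≠ 0 ∧
    (∀ v, PK (Oc (K := k) v) N ≤ (b.X h).Uk.U v) ∧ ∀ v, PK (OE E v) N ≤ (b.X h).UE.U v := by
  obtain ⟨N1, h1, h1'⟩ := LocFam.exists_uniform_level (L := locK (F := k)) (U := (b.X h).Uk)
  obtain ⟨N2, h2, h2'⟩ := LocFam.exists_uniform_level (L := locE k E) (U := (b.X h).UE)
  refine ⟨N1 * N2, mul_ne_zero h1 h2, fun v => ?_, fun v => ?_⟩
  · exact (PK_mono (Dvd.intro _ rfl)).trans (h1' v)
  · exact (PK_mono (Dvd.intro_left _ rfl)).trans (h2' v)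

/-- the data at the killing place -/
structure KillD (h : Gal3 σ) (b : Bad σ) where
  v : HeightOneSpectrum (𝓞 k)
  hb : v ∉ b.bad
  h0 : v ≠ b.v0
  hs : IsSpl σ v
  π : 𝓞 k
  hπ : v.asIdeal = Ideal.span {π}
  N : ℕ
  hπN : (N : 𝓞 k) ∣ π - 1
  hNk : ∀ v, PK (Oc (K := k) v) N ≤ (b.X h).Uk.U v
  hNE : ∀ v, PK (OE E v) N ≤ (b.X h).UE.U v

namespace KillD

variable {h : Gal3 σ} {b : Bad σ} (K : KillD h b)

/-- the norm -/
noncomputable def q : ℕ := Nat.card (𝓞 k ⧸ K.v.asIdeal)

/-- the logarithms -/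
noncomputable def L : InfinitePlace E → ℝ := logv (piE E K.hπ)

/-- the symbols -/
noncomputable def sT (j : Fin 3) : (b.X h).Sym := b.sT h K.hb K.h0 K.hs j

/-- killing data for `E` -/
noncomputable def kE (hE : finrank k E = 3) :
    KillRel E (LocFam.D (b.X h).UE) (b.X h).LE.IdH (LocFam.QU (b.X h).UE) (Fin 3) :=
  killE K.hπ K.hπN h hE K.hs.choose_spec K.hNE (b.UE_good h K.hb K.h0)

/-- killing data for `k` -/
noncomputable def kK :
    KillRel k (LocFam.D (b.X h).Uk) (b.X h).Lk.IdH (LocFam.QU (b.X h).Uk) (Fin 3) :=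
  killK K.hπ K.hπN K.hNk (b.Uk_good h K.hb K.h0)

theorem kE_k (hE : finrank k E = 3) : (K.kE hE).k = fun _ => 1 := rfl

theorem kK_k : K.kK.k = fun _ => 1 := rfl

theorem kE_q (hE : finrank k E = 3) : (K.kE hE).q = fun _ => K.q :=
  funext fun j => killE_q K.hπ K.hπN h hE K.hs.choose_spec K.hNE (b.UE_good h K.hb K.h0) j

theorem kK_q : K.kK.q = fun _ => K.q :=
  funext fun j => killK_q K.hπ K.hπN K.hNk (b.Uk_good h K.hb K.h0) j

theorem kE_x (hE : finrank k E = 3) : (K.kE hE).x = piE E K.hπ := rfl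

theorem kK_x : K.kK.x = piF K.hπ ^ 3 := rfl

theorem kE_T (hE : finrank k E = 3) (j : Fin 3) : (ME (K.sT j)).toDKer = (K.kE hE).T j := by
  rw [sT, b.ME_sT h K.hb K.h0 K.hs j (unif_piV K.hπ)
    (by rw [piV_coe]; exact valued_of_span K.hπ)]
  exact (killE_T K.hπ K.hπN h hE K.hs.choose_spec K.hNE (b.UE_good h K.hb K.h0) j).symm

theorem kK_T (j : Fin 3) : (MK (K.sT j)).toDKer = K.kK.T j := by
  rw [sT, b.MK_sT h K.hb K.h0 K.hs j (unif_piV K.hπ)
    (by rw [piV_coe]; exact valued_of_span K.hπ)]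
  exact (killK_T K.hπ K.hπN K.hNk (b.Uk_good h K.hb K.h0) j).symm

theorem q_pos : 0 < K.q := by
  have h1 := K.kK.q_pos 0
  rwa [kK_q] at h1

open Classical in
/-- test functions -/
structure Test where
  R : ℝ
  φ : InfinitePlace E → ℝ → ℝ
  hpl : ∀ w, Pl R (φ w)
  hwt : ∀ m ∈ (kp3 (InfinitePlace E)).support, wt K.L (lst m) < R
  hR : 0 < R
  hφ : ∀ w, 0 < H3.khat (φ w)

theorem exists_test : Nonempty K.Test := by
  classical
  obtain ⟨A, hA, h1⟩ : ∃ A : ℝ, 0 < A ∧
      ∀ m ∈ (kp3 (InfinitePlace E)).support, wt K.L (lst m) < A := by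
    refine ⟨1 + ∑ m ∈ (kp3 (InfinitePlace E)).support, |wt K.L (lst m)|, ?_, fun m hm => ?_⟩
    · have := Finset.sum_nonneg fun m (_ : m ∈ (kp3 (InfinitePlace E)).support) =>
        abs_nonneg (wt K.L (lst m))
      linarith
    · have h2 := Finset.single_le_sum (f := fun m => |wt K.L (lst m)|)
        (fun _ _ => abs_nonneg _) hm
      have h3 := le_abs_self (wt K.L (lst m))
      have h2' : |wt K.L (lst m)| ≤ ∑ m ∈ (kp3 (InfinitePlace E)).support,
        |wt K.L (lst m)| := h2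
      linarith
  obtain ⟨φ, hφ, hφ'⟩ := Kill.exists_test A
  exact ⟨⟨A, fun _ => φ, fun _ => hφ, h1, hA, fun _ => hφ'⟩⟩

end KillD

namespace KillD.Test

variable {h : Gal3 σ} {b : Bad σ} {K : KillD h b} (t : K.Test) {S₀ : Submonoid (b.X h).Sym}
  (T : Fin 3 → S₀)

open Classical in
/-- **the killing combination** -/
noncomputable def comb : MPt (b.X h) S₀ →₀ ℂ :=
  Kill.comb (fun _ => 1) (fun _ => K.q) K.L t.φ T

variable {T} (hT : ∀ j, (T j).1 = K.sT j)

/-! ### the support -/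

include hT in
theorem symL_G {J : Type*} (l : List (Fin 3 ⊕ J)) (j : Fin 3) {v : HeightOneSpectrum (𝓞 k)}
    (hv : v ≠ K.v) : (symL T l).1.G v j = BiInv.unit _ := by
  induction l with
  | nil => rfl
  | cons a l ih =>
    cases a with
    | inl i =>
      rw [symL_inl]
      change ((T i).1 * (symL T l).1).G v j = _
      rw [Sym.mul_G, ih, hT, BiInv.conv_unit]
      exact Ctx.single_G_off (b.mem_spl h K.hb K.h0 K.hs) i j _ (b.TTb_mem h K.hb K.h0 K.hs) hv
    | inr i => exact ih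

include hT in
/-- the symbols in the support are trivial away from the killing place -/
theorem comb_supp {p : MPt (b.X h) S₀} (hp : p ∈ (t.comb T).support) (j : Fin 3)
    {v : HeightOneSpectrum (𝓞 k)} (hv : v ≠ K.v) : p.2.1.G v j = BiInv.unit _ := by
  classical
  have h1 : (t.comb T).support ⊆ Finset.univ.biUnion
      (fun m : {m // m ∈ (kp3 (InfinitePlace E)).support} =>
        (Finsupp.single (((fun w => mkI (φL id K.L t.φ (lst m.1) w)), symL T (lst m.1)) :
          MPt (b.X h) S₀) ((coefC (fun _ => 1) (fun _ => K.q) (InfinitePlace E) m.1 : ℝ) :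
            ℂ)).support) := Finsupp.support_finsetSum
  obtain ⟨m, -, hm⟩ := Finset.mem_biUnion.1 (h1 hp)
  have h2 := Finsupp.support_single_subset hm
  rw [Finset.mem_singleton] at h2
  rw [h2]
  exact symL_G hT _ j hv

include hT in
theorem comb_supp_v0 {p : MPt (b.X h) S₀} (hp : p ∈ (t.comb T).support) (j : Fin 3) :
    p.2.1.G b.v0 j = BiInv.unit _ := t.comb_supp hT hp j (Ne.symm K.h0)

/-! ### boundedness -/

section Bdd

variable [IsTotallyComplex k] [IsTotallyComplex E]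
  [MeasurableSpace (LocFam.D (b.X h).UE)] [DiscreteMeasurableSpace (LocFam.D (b.X h).UE)]
  [Countable (LocFam.D (b.X h).UE)]
  [MeasurableSpace (LocFam.D (b.X h).Uk)] [DiscreteMeasurableSpace (LocFam.D (b.X h).Uk)]
  [Countable (LocFam.D (b.X h).Uk)]

include hT in
/-- **boundedness on the `E`-side** -/
theorem hbE (hE : finrank k E = 3) :
    ∃ C : ℝ, ∀ x y, ‖perK PGL(2, E) (lk (symE S₀).kO (t.comb T)) x y‖ ≤ C := by
  classical
  have key := bdd_comb_E (T := T) (A := t.R) (K.kE hE) (L := K.L) (φ := t.φ) t.hpl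
    (fun m hm => t.hwt m (by
      rw [K.kE_k hE] at hm
      convert hm)) t.hR (fun w => rfl)
    (symE (X := b.X h) S₀) (fun p => rfl) (fun s => (ME s.1).toDKer) (fun p => rfl)
    (by
      show (ME (1 : (b.X h).Sym)).toDKer = _
      rw [ME_one, LocFam.GFun.toDKer_one])
    (fun x y => by
      show (ME (x.1 * y.1)).toDKer = _
      rw [ME_mul, LocFam.GFun.toDKer_mul])
    (fun i => by rw [hT, K.kE_T hE])
  obtain ⟨C, hC⟩ := key
  refine ⟨C, fun x y => ?_⟩
  have e : t.comb T = Kill.comb (K.kE hE).k (K.kE hE).q K.L t.φ T := by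
    rw [comb, K.kE_q hE, K.kE_k hE]
  rw [e]
  exact hC x y

/-- the logarithms at the places above a place of `k` -/
theorem L_pl {v : InfinitePlace k} {w : InfinitePlace E}
    (hw : w.comap (algebraMap k E) = v) : K.L w = logv (piF K.hπ) v := by
  subst hw
  show Real.log ‖w.embedding (algebraMap k E (piF K.hπ : k))‖ =
    Real.log ‖(w.comap (algebraMap k E)).embedding (piF K.hπ : k)‖
  rw [InfinitePlace.norm_embedding_eq, InfinitePlace.norm_embedding_eq]
  rfl

include hT in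
/-- **boundedness on the `k`-side** -/
theorem hbK {bw : InfinitePlace E → InfinitePlace k}
    {pl : Fin 3 → InfinitePlace k → InfinitePlace E}
    (hcm : ∀ v i, (pl i v).comap (algebraMap k E) = v) (hbp : ∀ v i, bw (pl i v) = v)
    (hpl : Function.Injective fun p : Fin 3 × InfinitePlace k => pl p.1 p.2)
    (hbw : ∀ a, ∃ j, pl j (bw a) = a) :
    ∃ C : ℝ, ∀ x y, ‖perK PGL(2, k) (lk (symK pl S₀).kO (t.comb T)) x y‖ ≤ C := by
  classical
  have key := bdd_comb_K (T := T) (A := t.R) K.kK hbp hpl hbw (L := K.L) (φ := t.φ) t.hpl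
    (fun m hm => t.hwt m (by
      rw [K.kK_k] at hm
      convert hm)) t.hR (fun v => by
        rw [Finset.sum_congr rfl fun i _ => L_pl (K := K) (hcm v i), Finset.sum_const,
          Finset.card_univ, Fintype.card_fin, K.kK_x]
        show 3 • Real.log ‖v.embedding (piF K.hπ : k)‖ =
          Real.log ‖v.embedding ((piF K.hπ ^ 3 : kˣ) : k)‖
        rw [Units.val_pow_eq_pow_val, map_pow, norm_pow, Real.log_pow]
        simp)
    (symK (X := b.X h) pl S₀) (fun p => rfl) (fun s => (MK s.1).toDKer) (fun p => rfl)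
    (by
      show (MK (1 : (b.X h).Sym)).toDKer = _
      rw [MK_one, LocFam.GFun.toDKer_one])
    (fun x y => by
      show (MK (x.1 * y.1)).toDKer = _
      rw [MK_mul, LocFam.GFun.toDKer_mul])
    (fun i => by rw [hT, K.kK_T])
  obtain ⟨C, hC⟩ := key
  refine ⟨C, fun x y => ?_⟩
  have e : t.comb T = Kill.comb K.kK.k K.kK.q K.L t.φ T := by
    rw [comb, K.kK_q, K.kK_k]
  rw [e]
  exact hC x y

/-! ### self-adjointness -/

include hT in
theorem adj_ME (i : Fin 3) : (ME (T i).1).toDKer.adj = (ME (T i).1).toDKer := by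
  rw [hT, KillD.sT, b.ME_sT h K.hb K.h0 K.hs i (unif_piV K.hπ)
    (by rw [piV_coe]; exact valued_of_span K.hπ)]
  exact adj_single_TTh (L := (b.X h).LE) _ _

include hT in
theorem adj_MK (i : Fin 3) : (MK (T i).1).toDKer.adj = (MK (T i).1).toDKer := by
  rw [hT, KillD.sT, b.MK_sT h K.hb K.h0 K.hs i (unif_piV K.hπ)
    (by rw [piV_coe]; exact valued_of_span K.hπ)]
  exact adj_single_TTh (L := (b.X h).Lk) _ _

variable {wE : HF E × LocFam.D (b.X h).UE → ℝ≥0} {wk : HF k × LocFam.D (b.X h).Uk → ℝ≥0}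
  [IsFiniteMeasure (wtM (muY E (LocFam.D (b.X h).UE)) wE)]
  [IsFiniteMeasure (wtM (muY k (LocFam.D (b.X h).Uk)) wk)]

include hT in
/-- **self-adjointness on the `E`-side** -/
theorem hAE (hwE : IsWt PGL(2, E) (muY E (LocFam.D (b.X h).UE)) wE) :
    ContinuousLinearMap.adjoint (lcO ((symE S₀).O hwE) (t.comb T)) =
      lcO ((symE S₀).O hwE) (t.comb T) := by
  classical
  exact adjoint_comb hwE (symE (X := b.X h) S₀) (fun s => (ME s.1).toDKer) (fun p => rfl)
    (by
      show (ME (1 : (b.X h).Sym)).toDKer = _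
      rw [ME_one, LocFam.GFun.toDKer_one])
    (fun x y => by
      show (ME (x.1 * y.1)).toDKer = _
      rw [ME_mul, LocFam.GFun.toDKer_mul])
    (fun x y => LocFam.GFun.toDKer_comm (ME_comm x.1 y.1)) (adj_ME hT) _ _ _ _

include hT in
/-- **self-adjointness on the `k`-side** -/
theorem hAK (pl : Fin 3 → InfinitePlace k → InfinitePlace E)
    (hwk : IsWt PGL(2, k) (muY k (LocFam.D (b.X h).Uk)) wk) :
    ContinuousLinearMap.adjoint (lcO ((symK pl S₀).O hwk) (t.comb T)) =
      lcO ((symK pl S₀).O hwk) (t.comb T) := by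
  classical
  exact adjoint_comb hwk (symK (X := b.X h) pl S₀) (fun s => (MK s.1).toDKer) (fun p => rfl)
    (by
      show (MK (1 : (b.X h).Sym)).toDKer = _
      rw [MK_one, LocFam.GFun.toDKer_one])
    (fun x y => by
      show (MK (x.1 * y.1)).toDKer = _
      rw [MK_mul, LocFam.GFun.toDKer_mul])
    (fun x y => LocFam.GFun.toDKer_comm (MK_comm x.1 y.1)) (adj_MK hT) _ _ _ _

end Bdd

end KillD.Test

end Fermat.Agent.LT.Mp
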