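import Fermat.Agent.LT.Kill.Comb

set_option autoImplicit false
set_option linter.unusedSectionVars false

/-!
# The eigenvalue of the killing operator
-/

namespace Fermat.Agent.LT.Kill

open MeasureTheory Module NumberField Matrix MvPolynomial
open Fermat.Agent.LT Fermat.Agent.LT.Sp Fermat.Agent.LT.Bd Fermat.Agent.LT.Op
open Fermat.Agent.LT.Spec Fermat.Agent.LT.FA
open scoped MatrixGroups ContDiff ENNReal NNReal

section Test

open H3 Set

theorem khat_CL {A L : ℝ} {k : ℝ → ℝ} (hk : Pl A k) (hL : |L| < A) :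
    khat (CL L k) = 2 * khat k := by
  have hki : Integrable k := hk.smooth.continuous.integrable_of_hasCompactSupport hk.supp
  have hi : Integrable (abelT k) :=
    (continuous_abelT hki).integrable_of_hasCompactSupport (hasCompactSupport_abelT hk.supp)
  rw [khat, khat]
  simp_rw [abelT_CL hk hL]
  rw [integral_add (hi.comp_add_right L) (hi.comp_sub_right L), integral_add_right_eq_self,
    integral_sub_right_eq_self, two_mul]

theorem khat_pos_of {k : ℝ → ℝ} (hk : Continuous k) (hks : HasCompactSupport k)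
    (h0 : ∀ t, 0 ≤ k t) {a b : ℝ} (ha : 1 ≤ a) (hab : a < b) (h1 : ∀ t ∈ Ioo a b, 0 < k t) :
    0 < khat k := by
  have hki : Integrable k := hk.integrable_of_hasCompactSupport hks
  have hpos : ∀ u, 0 ≤ abelT k u := fun u => by
    rw [abelT]
    have : 0 ≤ ∫ t in Ioi (Real.cosh u), k t := integral_nonneg fun t => h0 t
    positivity
  have hA0 : 0 < abelT k 0 := by
    rw [abelT, Real.cosh_zero]
    have : 0 < ∫ t in Ioi (1 : ℝ), k t := by
      rw [setIntegral_pos_iff_support_of_nonneg_ae (Filter.Eventually.of_forall h0)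
        hki.integrableOn]
      refine lt_of_lt_of_le ?_ (measure_mono (s := Ioo a b) fun t ht => ?_)
      · simp [hab]
      · exact ⟨(h1 t ht).ne', lt_of_le_of_lt ha ht.1⟩
    positivity
  rw [khat]
  exact Continuous.integral_pos_of_hasCompactSupport_nonneg_nonzero (continuous_abelT hki)
    (hasCompactSupport_abelT hks) hpos hA0.ne'

/-- a test function supported far away -/
theorem exists_test (A : ℝ) : ∃ k : ℝ → ℝ, Pl A k ∧ 0 < khat k := by
  have h1 : 1 ≤ Real.cosh A := Real.one_le_cosh A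
  let f : ContDiffBump (Real.cosh A + 2) := ⟨1 / 2, 1, by norm_num, by norm_num⟩
  refine ⟨f, ⟨f.contDiff, f.hasCompactSupport, fun s hs => ?_⟩, ?_⟩
  · apply f.zero_of_le_dist
    show (1 : ℝ) ≤ dist s (Real.cosh A + 2)
    rw [Real.dist_eq, abs_sub_comm]
    exact le_abs.2 (Or.inl (by linarith))
  · refine khat_pos_of f.continuous f.hasCompactSupport (fun t => f.nonneg)
      (a := Real.cosh A + 1) (b := Real.cosh A + 3) (by linarith) (by linarith) fun t ht => ?_
    apply f.pos_of_mem_ball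
    rw [Metric.mem_ball, Real.dist_eq]
    show |t - (Real.cosh A + 2)| < 1
    rw [abs_lt]
    constructor
    · linarith [ht.1]
    · linarith [ht.2]

end Test

section Val

variable {S ι : Type*} [Monoid S] [Fintype ι] [DecidableEq ι]
  {F D : Type*} [Field F] [NumberField F] [MulAction (GL (Fin 2) F) D]
  [FinPart F D] [IsTotallyComplex F]
  [MeasurableSpace D] [DiscreteMeasurableSpace D] [Countable D]
  {T : ι → S} {wf : HF F × D → ℝ≥0} [IsFiniteMeasure (wtM (muY F D) wf)]

theorem prod_khat_φL {W : Type*} [Fintype W] [DecidableEq W] {L : W → ℝ} {φ : W → ℝ → ℝ} {A : ℝ}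
    (hφ : ∀ w, Pl A (φ w)) (l : List (ι ⊕ W)) (hl : wt L l < A) :
    ∏ w, H3.khat (φL id L φ l w) =
      (l.map (Sum.elim (fun _ => (1 : ℝ)) fun _ => 2)).prod * ∏ w, H3.khat (φ w) := by
  induction l with
  | nil => simp [φL]
  | cons v l ih =>
    cases v with
    | inl i =>
      rw [List.map_cons, List.prod_cons, Sum.elim_inl, one_mul]
      exact ih hl
    | inr j =>
      have h0 := abs_nonneg (L j)
      have hlt : wt L l + |L j| < A := hl
      have hl' : wt L l < A := by linarith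
      have hL : |L j| < A - wt L l := by linarith
      rw [List.map_cons, List.prod_cons, Sum.elim_inr, mul_assoc, ← ih hl']
      have h1 : ∀ w, H3.khat (φL id L φ (Sum.inr j :: l : List (ι ⊕ W)) w) =
          (if w = j then (2 : ℝ) else 1) * H3.khat (φL id L φ l w) := by
        intro w
        by_cases hw : w = j
        · subst hw
          rw [if_pos rfl]
          have e : φL id L φ (Sum.inr w :: l : List (ι ⊕ W)) w = CL (L w) (φL id L φ l w) :=
            if_pos rfl
          rw [e, khat_CL (pl_φL id L hφ l hl' w) hL]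
        · rw [if_neg hw, one_mul]
          have e : φL id L φ (Sum.inr j :: l : List (ι ⊕ W)) w = φL id L φ l w := if_neg hw
          rw [e]
      simp_rw [h1]
      rw [Finset.prod_mul_distrib, Finset.prod_ite_eq' Finset.univ j, if_pos (Finset.mem_univ j)]

theorem opD_symL {J : Type*} (hw : IsWt PGL(2, F) (muY F D) wf) (mm : S → DKer F D)
    (h1 : mm 1 = DKer.one F D) (hmul : ∀ a b, mm (a * b) = (mm a).comp (mm b))
    {f : HA PGL(2, F) (muY F D)} {μ : ι → ℝ} (hT : ∀ i, opD hw (mm (T i)) f = ((μ i : ℝ) : ℂ) • f)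
    (l : List (ι ⊕ J)) : opD hw (mm (symL T l)) f =
      (((l.map (Sum.elim μ fun _ => 1)).prod : ℝ) : ℂ) • f := by
  induction l with
  | nil => rw [symL_nil, h1, opD_one]; simp
  | cons v l ih =>
    cases v with
    | inl i =>
      rw [symL_inl, hmul, ← opD_mul, List.map_cons, List.prod_cons, Sum.elim_inl]
      show opD hw (mm (T i)) (opD hw (mm (symL T l)) f) = _
      rw [ih, map_smul, hT, smul_smul, Complex.ofReal_mul, mul_comm]
    | inr j =>
      rw [symL_inr, ih, List.map_cons, List.prod_cons, Sum.elim_inr, one_mul]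

/-- **the eigenvalue of the killing operator** -/
theorem comb_eigen [DecidableEq (InfinitePlace F)] (hw : IsWt PGL(2, F) (muY F D) wf)
    (SF : FSym F D ((InfinitePlace F → IKer) × S)) (harch : ∀ p, SF.arch p = p.1)
    (mm : S → DKer F D) (hm : ∀ p, SF.m p = mm p.2) (h1 : mm 1 = DKer.one F D)
    (hmul : ∀ a b, mm (a * b) = (mm a).comp (mm b))
    {f : HA PGL(2, F) (muY F D)} {φf : HF F × D → ℂ} (hf : Brg.IsRep f φf)
    (hA : ∀ (w : InfinitePlace F) (k : ℝ → ℝ) (hk : Continuous k) (hs : HasCompactSupport k),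
      opA hw w (H3.kerOf hk hs) f = (H3.khat k : ℂ) • f)
    (c q : ι → ℕ) (hq : ∀ i, 0 < q i) {lam : ι → ℝ}
    (hT : ∀ i, opD hw (mm (T i)) f = ((√(q i : ℝ) * lam i : ℝ) : ℂ) • f)
    {L : InfinitePlace F → ℝ} {φ : InfinitePlace F → ℝ → ℝ} {A : ℝ} (hφ : ∀ w, Pl A (φ w))
    (hwt : ∀ m ∈ (kp c (InfinitePlace F)).support, wt L (lst m) < A) :
    lcO (SF.O hw) (comb c q L φ T) f =
      ((aeval (Sum.elim lam fun _ => (2 : ℝ)) (kp c (InfinitePlace F)) *
        ∏ w, H3.khat (φ w) : ℝ) : ℂ) • f := by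
  rw [lcO_comb]
  have e1 : ∀ m : {m // m ∈ (kp c (InfinitePlace F)).support},
      (((coefC c q (InfinitePlace F) m.1 : ℝ) : ℂ) •
        SF.O hw ((fun w => mkI (φL id L φ (lst m.1) w)), symL T (lst m.1))) f =
      (((((kp c (InfinitePlace F)).coeff m.1 : ℤ) : ℝ) *
        (∏ v, (Sum.elim lam (fun _ => (2 : ℝ)) v) ^ m.1 v) * ∏ w, H3.khat (φ w) : ℝ) : ℂ) •
        f := by
    intro m
    have e2 := hf.opK_eigen hw (κs := fun w => mkI (φL id L φ (lst m.1) w))
      (s := fun w => ((H3.khat (φL id L φ (lst m.1) w) : ℝ) : ℂ)) (fun w => by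
        have hp := pl_φL id L hφ (lst m.1) (hwt m.1 m.2) w
        rw [mkI_eq hp.smooth.continuous hp.supp]
        exact hA w _ _ _)
      (opD_symL (J := InfinitePlace F) hw mm h1 hmul hT (lst m.1))
    rw [_root_.smul_apply, FSym.O, harch, hm]
    refine (congrArg (fun z => ((coefC c q (InfinitePlace F) m.1 : ℝ) : ℂ) • z) e2).trans ?_
    rw [smul_smul, ← Complex.ofReal_prod, ← Complex.ofReal_mul, ← Complex.ofReal_mul,
      prod_khat_φL hφ (lst m.1) (hwt m.1 m.2)]
    congr 2
    rw [coefC, ← prod_map_lst]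
    have e3 : ((lst m.1).map (Sum.elim lam fun _ => (2 : ℝ))).prod =
        ((lst m.1).map (scq q (InfinitePlace F))).prod *
        (((lst m.1).map (Sum.elim (fun _ => (1 : ℝ)) fun _ => 2)).prod *
        ((lst m.1).map (Sum.elim (fun i => √(q i : ℝ) * lam i) fun _ => 1)).prod) := by
      rw [← List.prod_map_mul, ← List.prod_map_mul]
      congr 1
      refine List.map_congr_left fun v _ => ?_
      cases v with
      | inl i =>
        have := Real.sqrt_pos.2 (Nat.cast_pos (α := ℝ).2 (hq i))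
        simp only [Sum.elim_inl, scq]
        field_simp
      | inr j => simp [scq]
    rw [e3]
    ring
  rw [_root_.sum_apply, Finset.sum_congr rfl fun m _ => e1 m, ← Finset.sum_smul,
    ← Complex.ofReal_sum]
  congr 2
  rw [← Finset.sum_mul]
  congr 1
  rw [aeval_def, eval₂_eq']
  rw [Finset.sum_coe_sort (kp c (InfinitePlace F)).support fun m =>
    (((kp c (InfinitePlace F)).coeff m : ℤ) : ℝ) *
      ∏ v, (Sum.elim lam (fun _ => (2 : ℝ)) v) ^ m v]
  refine Finset.sum_congr rfl fun m _ => ?_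
  rw [algebraMap_int_eq, eq_intCast]

/-- non-vanishing at the system `-2` -/
theorem aeval_kp_ne_zero (J : Type*) [Fintype J] [DecidableEq J] :
    aeval (Sum.elim (fun _ : Fin 3 => (-2 : ℝ)) fun _ => (2 : ℝ))
      (kp (fun _ : Fin 3 => 1) J) ≠ 0 := by
  let x : Fin 3 ⊕ J → ℝˣ := Sum.elim (fun _ => -1) fun _ => 1
  have e : (Sum.elim (fun _ : Fin 3 => (-2 : ℝ)) fun _ => (2 : ℝ)) =
      fun j : Fin 3 ⊕ J => ((x j : ℝ) + (((x j)⁻¹ : ℝˣ) : ℝ)) := by
    funext v
    cases v with
    | inl i =>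
      show (-2 : ℝ) = (((-1 : ℝˣ)) : ℝ) + (((-1 : ℝˣ)⁻¹ : ℝˣ) : ℝ)
      simp
      norm_num
    | inr j =>
      show (2 : ℝ) = (((1 : ℝˣ)) : ℝ) + (((1 : ℝˣ)⁻¹ : ℝˣ) : ℝ)
      simp
      norm_num
  rw [e]
  refine aeval_killPoly_ne_zero _ x fun f => ?_
  have h1 : ∀ i : Fin 3, (if f (Sum.inl i) = 0 then x (Sum.inl i) else (x (Sum.inl i))⁻¹) = -1 := by
    intro i
    have : x (Sum.inl i) = -1 := rfl
    rw [this]
    split_ifs
    · rfl
    · rw [inv_neg, inv_one]
  have h2 : ∀ j : J, (if f (Sum.inr j) = 0 then x (Sum.inr j) else (x (Sum.inr j))⁻¹) = 1 := by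
    intro j
    have : x (Sum.inr j) = 1 := rfl
    rw [this]
    split_ifs
    · rfl
    · rw [inv_one]
  rw [sgnProd, Fintype.prod_sum_type]
  simp only [Sum.elim_inl, Sum.elim_inr, pow_one]
  rw [Finset.prod_congr rfl fun i _ => h1 i, Finset.prod_congr rfl fun j _ => h2 j]
  simp only [Finset.prod_const, Finset.card_univ, Fintype.card_fin, one_pow, mul_one]
  intro h3
  have h4 := congrArg (fun u : ℝˣ => (u : ℝ)) h3
  simp only [Units.val_pow_eq_pow_val, Units.val_neg, Units.val_one] at h4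
  norm_num at h4

end Val

end Fermat.Agent.LT.Kill
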