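import Fermat.Agent.LT.Kill.Tensor

set_option autoImplicit false

/-!
# The constant term of the automorphic kernel of a pure tensor
-/

namespace Fermat.Agent.LT.Kill

open MeasureTheory Module NumberField Matrix
open Fermat.Agent.LT Fermat.Agent.LT.Sp Fermat.Agent.LT.Bd
open scoped MatrixGroups ContDiff

variable {F : Type*} [Field F] [NumberField F]

section Coordinates

variable [IsTotallyComplex F]

/-- the coordinates as a linear equivalence -/
noncomputable def crdE (N : ℕ) (hN : N ≠ 0) : (Fou.Ix F → ℝ) ≃ₗ[ℝ] (InfinitePlace F → ℂ) :=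
  { Fou.crdL N with
    invFun := Fou.crdInv N
    left_inv := fun t => Fou.crdInv_crd hN t
    right_inv := fun v => Fou.crd_crdInv hN v }

theorem crdE_apply (N : ℕ) (hN : N ≠ 0) (t : Fou.Ix F → ℝ) : crdE N hN t = Fou.crd N t := rfl

/-- change of variables -/
theorem exists_covol (N : ℕ) (hN : N ≠ 0) : ∃ c : ℝ, 0 < c ∧
    ∀ g : (InfinitePlace F → ℂ) → ℂ, ∫ t, g (Fou.crd N t) = c * ∫ v, g v ∧
      (Integrable g → Integrable fun t => g (Fou.crd N t)) := by
  set e := (crdE (F := F) N hN).toContinuousLinearEquiv with he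
  have h1 : (Measure.map e (volume : Measure (Fou.Ix F → ℝ))).IsAddHaarMeasure :=
    e.isAddHaarMeasure_map _
  have h2 := Measure.isAddLeftInvariant_eq_smul (Measure.map e (volume : Measure (Fou.Ix F → ℝ)))
    (volume : Measure (InfinitePlace F → ℂ))
  have h4 := Measure.addHaarScalarFactor_pos_of_isAddHaarMeasure
    (Measure.map e (volume : Measure (Fou.Ix F → ℝ))) (volume : Measure (InfinitePlace F → ℂ))
  refine ⟨_, NNReal.coe_pos.mpr h4, fun g => ⟨?_, fun hg => ?_⟩⟩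
  swap
  · have h5 : Integrable g (Measure.map e (volume : Measure (Fou.Ix F → ℝ))) := by
      rw [h2]
      exact hg.smul_measure_nnreal
    exact (e.toHomeomorph.measurableEmbedding.integrable_map_iff).mp h5
  have h3 : ∫ t, g (Fou.crd N t) = ∫ v, g v ∂(Measure.map e (volume : Measure (Fou.Ix F → ℝ))) := by
    exact (e.toHomeomorph.measurableEmbedding.integral_map g).symm
  rw [h3]
  conv_lhs => rw [h2]
  rw [integral_smul_nnreal_measure, NNReal.smul_def, Complex.real_smul]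

end Coordinates

section Integral

/-- horospherical integral at one place -/
theorem integral_tr (k : ℝ → ℝ) (p q : H3) :
    ∫ z : ℂ, k (H3.cd (tr z p) q) = p.y * q.y * H3.abelT k (Real.log p.y - Real.log q.y) := by
  have hp := p.pos
  have hq := q.pos
  have h1 : ∀ z : ℂ, k (H3.cd (tr z p) q) = (fun z : ℂ => k (H3.cd ⟨z, p.y, p.pos⟩ q)) (p.z + z) := by
    intro z
    rfl
  simp_rw [h1]
  rw [integral_add_left_eq_self (fun z : ℂ => k (H3.cd ⟨z, p.y, p.pos⟩ q)) p.z, H3.abel_real',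
    Real.log_div hp.ne' hq.ne']

theorem integrable_tr {k : ℝ → ℝ} (hk : Continuous k) (hs : HasCompactSupport k) (p q : H3) :
    Integrable fun z : ℂ => ((k (H3.cd (tr z p) q) : ℝ) : ℂ) := by
  have hp := p.pos
  have hq := q.pos
  obtain ⟨R, hR1, hR⟩ := H3.exists_R hs
  have hcont : Continuous fun z : ℂ => ((k (H3.cd (tr z p) q) : ℝ) : ℂ) := by
    refine Complex.continuous_ofReal.comp (hk.comp ?_)
    simp only [H3.cd, tr_z, tr_y]
    fun_prop
  refine hcont.integrable_of_hasCompactSupport ?_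
  refine HasCompactSupport.intro (isCompact_closedBall (p.z - q.z : ℂ) 0 |>.union
    (isCompact_closedBall (q.z - p.z : ℂ) (Real.sqrt (2 * p.y * q.y * R)))) fun z hz => ?_
  rw [Set.mem_union, not_or] at hz
  have h1 := hz.2
  rw [Metric.mem_closedBall, not_le, Complex.dist_eq] at h1
  have h2 : 2 * p.y * q.y * R < ‖z - (q.z - p.z)‖ ^ 2 := by
    have h3 := Real.lt_sq_of_sqrt_lt h1
    exact h3
  rw [hR, Complex.ofReal_zero]
  rw [H3.cd, tr_z, tr_y, lt_div_iff₀ (by positivity)]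
  have h4 : ‖p.z + z - q.z‖ ^ 2 = ‖z - (q.z - p.z)‖ ^ 2 := by
    congr 2
    ring
  rw [h4]
  nlinarith [sq_nonneg p.y, sq_nonneg q.y]

variable {D : Type*} [MulAction (GL (Fin 2) F) D]

theorem integral_tenK (φ : InfinitePlace F → ℝ → ℝ) (κ : DKer F D) (p q : HF F) (d d' : D) :
    ∫ v : InfinitePlace F → ℂ, tenK φ κ (trF v p, d) (q, d') = κ.κ d d' *
      ∏ w, (((p w).y * (q w).y * H3.abelT (φ w) (Real.log (p w).y - Real.log (q w).y) : ℝ) : ℂ) := by
  have h1 : ∀ v : InfinitePlace F → ℂ, tenK φ κ (trF v p, d) (q, d') =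
      (∏ w, ((φ w (H3.cd (tr (v w) (p w)) (q w)) : ℝ) : ℂ)) * κ.κ d d' := fun v => rfl
  simp_rw [h1]
  rw [integral_mul_const, mul_comm]
  congr 1
  rw [integral_fintype_prod_volume_eq_prod (f := fun (w : InfinitePlace F) (z : ℂ) =>
    ((φ w (H3.cd (tr z (p w)) (q w)) : ℝ) : ℂ))]
  refine Finset.prod_congr rfl fun w _ => ?_
  refine (integral_ofReal (𝕜 := ℂ) (f := fun z : ℂ => φ w (H3.cd (tr z (p w)) (q w)))).trans ?_
  exact congrArg _ (integral_tr (φ w) (p w) (q w))

theorem integrable_tenK {φ : InfinitePlace F → ℝ → ℝ} (hφ : ∀ w, Continuous (φ w))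
    (hc : ∀ w, HasCompactSupport (φ w)) (κ : DKer F D) (p : HF F) (d : D) (x' : HF F × D) :
    Integrable fun v : InfinitePlace F → ℂ => tenK φ κ (trF v p, d) x' := by
  have h1 : ∀ v : InfinitePlace F → ℂ, tenK φ κ (trF v p, d) x' =
      (∏ w, ((φ w (H3.cd (tr (v w) (p w)) (x'.1 w)) : ℝ) : ℂ)) * κ.κ d x'.2 := fun v => rfl
  simp_rw [h1]
  refine Integrable.mul_const ?_ _
  exact Integrable.fintype_prod (f := fun (w : InfinitePlace F) (z : ℂ) =>
    ((φ w (H3.cd (tr z (p w)) (x'.1 w)) : ℝ) : ℂ)) fun w => integrable_tr (hφ w) (hc w) (p w) (x'.1 w)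

end Integral

section Mean

variable {D : Type*} [MulAction (GL (Fin 2) F) D] [IsTotallyComplex F]

/-- the translations act on the group -/
noncomputable def act (N : ℕ) (k : Fou.Ix F → ℤ) (γ : PGL(2, F)) : PGL(2, F) :=
  ProjGenLinGroup.mk (nMat ((N : F) * (Fou.intc k : F))) * γ

omit [IsTotallyComplex F] in
theorem act_zero (N : ℕ) (γ : PGL(2, F)) : act N 0 γ = γ := by
  have h1 : (Fou.intc (0 : Fou.Ix F → ℤ) : F) = 0 := by
    rw [Fou.coe_intc]
    simp
  have h2 : nMat (0 : F) = 1 := by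
    apply Units.ext
    rw [nMat_coe]
    exact Matrix.one_fin_two.symm
  rw [act, h1, mul_zero, h2, map_one, one_mul]

omit [IsTotallyComplex F] in
theorem act_add (N : ℕ) (k l : Fou.Ix F → ℤ) (γ : PGL(2, F)) :
    act N (k + l) γ = act N k (act N l γ) := by
  have h1 : (Fou.intc (k + l) : F) = (Fou.intc k : F) + (Fou.intc l : F) := by
    rw [Fou.coe_intc, Fou.coe_intc, Fou.coe_intc, ← Finset.sum_add_distrib]
    refine Finset.sum_congr rfl fun i _ => ?_
    rw [Pi.add_apply, Int.cast_add, add_mul]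
  rw [act, act, act, h1, mul_add, nMat_add, map_mul, mul_assoc]

/-- the horizontal coordinates of the translate of a point -/
noncomputable def zet (N : ℕ) (q : HF F) (γ : PGL(2, F)) : Fou.Ix F → ℝ :=
  Fou.crdInv N fun w => ((γ • q) w).z

theorem zet_act (N : ℕ) (hN : N ≠ 0) (q : HF F) (k : Fou.Ix F → ℤ) (γ : PGL(2, F)) :
    zet N q (act N k γ) = zet N q γ + zc k := by
  have h1 : (fun w => ((act N k γ • q) w).z) =
      (fun w => ((γ • q) w).z) + Fou.crd N (zc k) := by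
    funext w
    rw [act, mul_smul, ← Fou.emb_intc, Pi.add_apply]
    exact nMat_smul_z _ _ _
  rw [zet, zet, h1]
  apply (crdE (F := F) N hN).injective
  rw [map_add]
  show Fou.crd N _ = Fou.crd N _ + Fou.crd N _
  rw [Fou.crd_crdInv hN, Fou.crd_crdInv hN]

/-- a covolume factor -/
noncomputable def cov (F : Type*) [Field F] [NumberField F] [IsTotallyComplex F] (N : ℕ)
    (hN : N ≠ 0) : ℝ := (exists_covol (F := F) N hN).choose

variable [FinPart F D]

/-- the normalised constant term -/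
noncomputable def cv (N : ℕ) (hN : N ≠ 0) (φ : InfinitePlace F → ℝ → ℝ) (κ : DKer F D)
    (x' : HF F × D) (d : D) (u : InfinitePlace F → ℝ) : ℂ :=
  ∑' γ : {γ : PGL(2, F) // zet N x'.1 γ ∈ box (0 : Fou.Ix F → ℤ)}, (cov F N hN : ℂ) *
    (κ.κ d ((γ : PGL(2, F)) • x'.2) * ∏ w, (((((γ : PGL(2, F)) • x'.1) w).y *
      H3.abelT (φ w) (u w - Real.log (((γ : PGL(2, F)) • x'.1) w).y) : ℝ) : ℂ))

variable {φ : InfinitePlace F → ℝ → ℝ} (κ : DKer F D)

theorem integral_term (N : ℕ) (hN : N ≠ 0) (p : HF F) (d : D) (x' : HF F × D) (γ : PGL(2, F)) :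
    ∫ t, tenK φ κ (trF (Fou.crd N t) p, d) (γ • x') = (∏ w, (((p w).y : ℝ) : ℂ)) *
      ((cov F N hN : ℂ) * (κ.κ d (γ • x'.2) * ∏ w, ((((γ • x'.1) w).y *
      H3.abelT (φ w) (Real.log (p w).y - Real.log ((γ • x'.1) w).y) : ℝ) : ℂ))) := by
  have h1 := ((exists_covol (F := F) N hN).choose_spec.2
    (fun v => tenK φ κ (trF v p, d) (γ • x'))).1
  refine h1.trans ?_
  have h2 := integral_tenK φ κ p (γ • x'.1) d (γ • x'.2)
  rw [show (fun v => tenK φ κ (trF v p, d) (γ • x')) =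
    fun v => tenK φ κ (trF v p, d) (γ • x'.1, γ • x'.2) from rfl, h2]
  have h3 : ∏ w, (((p w).y * ((γ • x'.1) w).y * H3.abelT (φ w) (Real.log (p w).y -
      Real.log ((γ • x'.1) w).y) : ℝ) : ℂ) = (∏ w, (((p w).y : ℝ) : ℂ)) *
      ∏ w, ((((γ • x'.1) w).y * H3.abelT (φ w) (Real.log (p w).y -
      Real.log ((γ • x'.1) w).y) : ℝ) : ℂ) := by
    rw [← Finset.prod_mul_distrib]
    refine Finset.prod_congr rfl fun w _ => ?_
    push_cast
    ring
  rw [h3, cov]
  ring

variable (hφ : ∀ w, Continuous (φ w)) (hc : ∀ w, HasCompactSupport (φ w)) {N : ℕ} (hN : N ≠ 0)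
  (p : HF F) {d : D} (hd : ∀ a : 𝓞 F, (N : F) * a ∈ trans F d) (x' : HF F × D)

include hd in
theorem tenK_act (k : Fou.Ix F → ℤ) (γ : PGL(2, F)) (t : Fou.Ix F → ℝ) :
    tenK φ κ (trF (Fou.crd N (t + zc k)) p, d) (act N k γ • x') =
      tenK φ κ (trF (Fou.crd N t) p, d) (γ • x') := by
  have h1 : ((trF (Fou.crd N (t + zc k)) p, d) : HF F × D) =
      ProjGenLinGroup.mk (nMat ((N : F) * (Fou.intc k : F))) •
        ((trF (Fou.crd N t) p, d) : HF F × D) := by
    rw [Fou.crd_add, ← Fou.emb_intc, add_comm, trF_add, trF_emb]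
    exact Prod.ext rfl (mem_trans.mp (hd _)).symm
  rw [h1, act, mul_smul, tenK_smul]

include hc in
theorem exists_box_support : ∃ Ψ : Finset PGL(2, F), ∀ γ ∉ Ψ, ∀ t ∈ box (0 : Fou.Ix F → ℤ),
    tenK φ κ (trF (Fou.crd N t) p, d) (γ • x') = 0 := by
  obtain ⟨B, hB⟩ := ((Metric.isBounded_Icc (0 : Fou.Ix F → ℝ) 1).isCompact_closure.image
    (Fou.continuous_crd (F := F) N)).isBounded.exists_norm_le
  obtain ⟨Ψ, hΨ⟩ := exists_support κ hc p d x' B
  refine ⟨Ψ, fun γ hγ t ht => hΨ _ (hB _ ⟨t, subset_closure ?_, rfl⟩) γ hγ⟩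
  refine ⟨fun i => ?_, fun i => ?_⟩
  · have := (ht i).1
    simp only [Pi.zero_apply, Int.cast_zero] at this
    exact this.le
  · have := (ht i).2
    simp only [Pi.zero_apply, Int.cast_zero, zero_add] at this
    exact this

include hφ hc hd in
/-- **The constant term.** -/
theorem mn_tenK : Fou.mn N (fun v => autK (tenK φ κ) (trF v p, d) x') =
    (∏ w, (((p w).y : ℝ) : ℂ)) * cv N hN φ κ x' d fun w => Real.log (p w).y := by
  obtain ⟨Ψ, hΨ⟩ := exists_box_support (N := N) κ hc p (d := d) x'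
  have h1 := unfold_box (act N) (act_zero N) (act_add N) (zet N x'.1) (zet_act N hN x'.1)
    (A := fun γ t => tenK φ κ (trF (Fou.crd N t) p, d) (γ • x'))
    (fun k γ t => tenK_act κ p hd x' k γ t)
    (fun γ => ((exists_covol (F := F) N hN).choose_spec.2
      (fun v => tenK φ κ (trF v p, d) (γ • x'))).2 (integrable_tenK hφ hc κ p d (γ • x'))) hΨ
  have h2 : Fou.mn N (fun v => autK (tenK φ κ) (trF v p, d) x') =
      ∫ t in box (0 : Fou.Ix F → ℤ), ∑' γ : PGL(2, F),
        tenK φ κ (trF (Fou.crd N t) p, d) (γ • x') := rfl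
  rw [h2, h1, cv, ← tsum_mul_left]
  exact tsum_congr fun γ => integral_term κ N hN p d x' γ

include hφ hc hd in
/-- the sum defining the constant term is finite -/
theorem finite_cv (u : InfinitePlace F → ℝ) :
    {γ : {γ : PGL(2, F) // zet N x'.1 γ ∈ box (0 : Fou.Ix F → ℤ)} | (cov F N hN : ℂ) *
    (κ.κ d ((γ : PGL(2, F)) • x'.2) * ∏ w, (((((γ : PGL(2, F)) • x'.1) w).y *
      H3.abelT (φ w) (u w - Real.log (((γ : PGL(2, F)) • x'.1) w).y) : ℝ) : ℂ)) ≠ 0}.Finite := by
  set p : HF F := fun w => ⟨0, Real.exp (u w), Real.exp_pos _⟩ with hp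
  obtain ⟨Ψ, hΨ⟩ := exists_box_support (N := N) κ hc p (d := d) x'
  have h1 := unfold_finite (act N) (act_zero N) (act_add N) (zet N x'.1) (zet_act N hN x'.1)
    (A := fun γ t => tenK φ κ (trF (Fou.crd N t) p, d) (γ • x'))
    (fun k γ t => tenK_act κ p hd x' k γ t)
    (fun γ => ((exists_covol (F := F) N hN).choose_spec.2
      (fun v => tenK φ κ (trF v p, d) (γ • x'))).2 (integrable_tenK hφ hc κ p d (γ • x'))) hΨ
  refine h1.subset fun γ hγ => ?_
  show ∫ t, tenK φ κ (trF (Fou.crd N t) p, d) ((γ : PGL(2, F)) • x') ≠ 0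
  rw [integral_term κ N hN p d x' γ]
  refine mul_ne_zero ?_ ?_
  · rw [Finset.prod_ne_zero_iff]
    intro w _
    exact_mod_cast (Real.exp_pos (u w)).ne'
  · have h2 : ∀ w, Real.log (p w).y = u w := fun w => Real.log_exp _
    simp_rw [h2]
    exact hγ

end Mean

end Fermat.Agent.LT.Kill
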