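import Fermat.Agent.LT.H3.Horo

set_option autoImplicit false

/-!
# Translation of Abel transforms

For a smooth function `k` with compact support in `(cosh A, ∞)` and `|L| < A` we construct a
smooth function `CL L k` with compact support in `(cosh (A - |L|), ∞)` whose Abel transform is
`u ↦ abelT k (u + L) + abelT k (u - L)`.
-/

namespace Fermat.Agent.LT.Kill

open MeasureTheory Set Real Topology
open Fermat.Agent.LT.H3
open scoped ContDiff

/-- smooth functions with compact support in `(cosh A, ∞)` -/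
structure Pl (A : ℝ) (k : ℝ → ℝ) : Prop where
  smooth : ContDiff ℝ ∞ k
  supp : HasCompactSupport k
  zero : ∀ s ≤ cosh A, k s = 0

/-- the primitive -/
noncomputable def prim (k : ℝ → ℝ) (s : ℝ) : ℝ := 2 * π * ∫ t in Ioi s, k t

theorem abelT_eq_prim (k : ℝ → ℝ) (u : ℝ) : abelT k u = prim k (cosh u) := rfl

/-- translation of the primitive -/
noncomputable def CLh (L : ℝ) (h : ℝ → ℝ) (s : ℝ) : ℝ :=
  h (s * cosh L + √(s ^ 2 - 1) * sinh L) + h (s * cosh L - √(s ^ 2 - 1) * sinh L)

/-- **translation** -/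
noncomputable def CL (L : ℝ) (k : ℝ → ℝ) (s : ℝ) : ℝ := -(2 * π)⁻¹ * deriv (CLh L (prim k)) s

section prim

variable {A : ℝ} {k : ℝ → ℝ}

theorem Pl.integrable (hk : Pl A k) : Integrable k :=
  hk.smooth.continuous.integrable_of_hasCompactSupport hk.supp

theorem Pl.prim_eq (hk : Pl A k) (s : ℝ) :
    prim k s = 2 * π * ((∫ t in Ioi (0 : ℝ), k t) - ∫ t in (0 : ℝ)..s, k t) := by
  rw [prim, integral_Ioi_eq hk.integrable]

theorem Pl.hasDerivAt (hk : Pl A k) (s : ℝ) : HasDerivAt (prim k) (-(2 * π * k s)) s := by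
  have h1 : prim k = fun s => 2 * π * ((∫ t in Ioi (0 : ℝ), k t) - ∫ t in (0 : ℝ)..s, k t) :=
    funext hk.prim_eq
  rw [h1]
  have h2 : HasDerivAt (fun s => ∫ t in (0 : ℝ)..s, k t) (k s) s :=
    intervalIntegral.integral_hasDerivAt_right hk.integrable.intervalIntegrable
      (hk.smooth.continuous.stronglyMeasurableAtFilter _ _) hk.smooth.continuous.continuousAt
  have h3 := (h2.const_sub (∫ t in Ioi (0 : ℝ), k t)).const_mul (2 * π)
  exact h3.congr_deriv (by ring)

theorem Pl.contDiff_prim (hk : Pl A k) : ContDiff ℝ ∞ (prim k) := by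
  rw [contDiff_infty_iff_deriv]
  refine ⟨fun s => (hk.hasDerivAt s).differentiableAt, ?_⟩
  have h1 : deriv (prim k) = fun s => -(2 * π * k s) := funext fun s => (hk.hasDerivAt s).deriv
  rw [h1]
  exact (contDiff_const.mul hk.smooth).neg

/-- the primitive is constant on the left -/
theorem Pl.prim_const (hk : Pl A k) {s : ℝ} (hs : s ≤ cosh A) : prim k s = prim k (cosh A) := by
  have h1 : ∫ t in Ioi s, k t = (∫ t in Ioc s (cosh A), k t) + ∫ t in Ioi (cosh A), k t := by
    rw [← setIntegral_union, Ioc_union_Ioi_eq_Ioi hs]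
    · exact Set.Ioc_disjoint_Ioi le_rfl
    · exact measurableSet_Ioi
    · exact hk.integrable.integrableOn
    · exact hk.integrable.integrableOn
  have h2 : ∫ t in Ioc s (cosh A), k t = 0 :=
    setIntegral_eq_zero_of_forall_eq_zero fun t ht => hk.zero t ht.2
  rw [prim, prim, h1, h2, zero_add]

/-- the primitive is zero on the right -/
theorem prim_zero {R : ℝ} (hR : ∀ t, R < t → k t = 0) {s : ℝ} (hs : R ≤ s) : prim k s = 0 := by
  rw [prim, setIntegral_eq_zero_of_forall_eq_zero, mul_zero]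
  intro t ht
  exact hR t (lt_of_le_of_lt hs ht)

end prim

section CLh

theorem le_cosh_of {A L s : ℝ} (hL : |L| < A) (hs : s ≤ cosh (A - |L|)) :
    s * cosh L + √(s ^ 2 - 1) * |sinh L| ≤ cosh A := by
  have hc : 1 ≤ cosh L := one_le_cosh L
  have hsc : |sinh L| ≤ cosh L := by
    rw [abs_le]
    constructor
    · have := Real.cosh_add_sinh L
      have := Real.exp_pos L
      linarith
    · exact (Real.sinh_lt_cosh L).le
  have hcA : cosh L ≤ cosh A := by
    rw [Real.cosh_le_cosh]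
    exact hL.le.trans (le_abs_self A)
  rcases le_or_gt 1 s with h1 | h1
  · -- `s = cosh v`
    set v := Real.arcosh s with hv
    have hsv : cosh v = s := Real.cosh_arcosh h1
    have hv0 : 0 ≤ v := Real.arcosh_nonneg h1
    have hsin : √(s ^ 2 - 1) = sinh v := by
      rw [← hsv, Real.cosh_sq, add_sub_cancel_right, Real.sqrt_sq (Real.sinh_nonneg_iff.mpr hv0)]
    have hvA : v ≤ A - |L| := by
      have h2 : cosh v ≤ cosh (A - |L|) := by rw [hsv]; exact hs
      rw [Real.cosh_le_cosh, abs_of_nonneg hv0, abs_of_pos (by linarith)] at h2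
      exact h2
    rw [hsin, ← hsv]
    have h3 : |sinh L| = sinh |L| := by
      rcases abs_cases L with ⟨h, h'⟩ | ⟨h, h'⟩
      · rw [h, abs_of_nonneg (Real.sinh_nonneg_iff.mpr h')]
      · rw [h, Real.sinh_neg, abs_of_neg (Real.sinh_neg_iff.mpr h')]
    rw [h3, ← Real.cosh_abs L, ← Real.cosh_add, Real.cosh_le_cosh,
      abs_of_nonneg (add_nonneg hv0 (abs_nonneg L))]
    exact le_trans (by linarith) (le_abs_self A)
  · rcases le_or_gt (-1) s with h2 | h2
    · have h3 : √(s ^ 2 - 1) = 0 := Real.sqrt_eq_zero_of_nonpos (by nlinarith)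
      rw [h3, zero_mul, add_zero]
      nlinarith
    · have h3 : √(s ^ 2 - 1) ≤ -s := by
        rw [Real.sqrt_le_left (by linarith)]
        nlinarith
      have h4 : √(s ^ 2 - 1) * |sinh L| ≤ -s * cosh L := by
        have := Real.sqrt_nonneg (s ^ 2 - 1)
        gcongr
        linarith
      have := Real.cosh_pos A
      linarith

theorem abs_sinh_eq (L : ℝ) : |sinh L| = sinh |L| := by
  rcases abs_cases L with ⟨h, h'⟩ | ⟨h, h'⟩
  · rw [h, abs_of_nonneg (Real.sinh_nonneg_iff.mpr h')]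
  · rw [h, Real.sinh_neg, abs_of_neg (Real.sinh_neg_iff.mpr h')]

variable {A L : ℝ} {k : ℝ → ℝ}

theorem CLh_const (hk : Pl A k) (hL : |L| < A) {s : ℝ} (hs : s ≤ cosh (A - |L|)) :
    CLh L (prim k) s = 2 * prim k (cosh A) := by
  have h1 := le_cosh_of hL hs
  have h2 := Real.sqrt_nonneg (s ^ 2 - 1)
  have h3 : √(s ^ 2 - 1) * sinh L ≤ √(s ^ 2 - 1) * |sinh L| :=
    mul_le_mul_of_nonneg_left (le_abs_self _) h2
  have h4 : -(√(s ^ 2 - 1) * |sinh L|) ≤ √(s ^ 2 - 1) * sinh L := by
    have := mul_le_mul_of_nonneg_left (neg_abs_le (sinh L)) h2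
    linarith
  rw [CLh, hk.prim_const (s := s * cosh L + √(s ^ 2 - 1) * sinh L) (by linarith),
    hk.prim_const (s := s * cosh L - √(s ^ 2 - 1) * sinh L) (by linarith)]
  ring

theorem one_lt_cosh_sub (hL : |L| < A) : 1 < cosh (A - |L|) := by
  rw [Real.one_lt_cosh]
  linarith

theorem contDiff_CLh (hk : Pl A k) (hL : |L| < A) : ContDiff ℝ ∞ (CLh L (prim k)) := by
  rw [contDiff_iff_contDiffAt]
  intro s
  rcases lt_or_ge s (cosh (A - |L|)) with h | h
  · have h1 : CLh L (prim k) =ᶠ[𝓝 s] fun _ => 2 * prim k (cosh A) := by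
      filter_upwards [Iio_mem_nhds h] with t ht
      exact CLh_const hk hL (le_of_lt ht)
    exact contDiffAt_const.congr_of_eventuallyEq h1
  · have hs : 1 < s := (one_lt_cosh_sub hL).trans_le h
    have h1 : ContDiffAt ℝ ∞ (fun s : ℝ => √(s ^ 2 - 1)) s := by
      refine ContDiffAt.sqrt ?_ ?_
      · exact (contDiffAt_id.pow 2).sub contDiffAt_const
      · nlinarith
    have h2 : ContDiffAt ℝ ∞ (fun s : ℝ => s * cosh L) s := contDiffAt_id.mul contDiffAt_const
    have h3 : ContDiffAt ℝ ∞ (fun s : ℝ => √(s ^ 2 - 1) * sinh L) s := h1.mul contDiffAt_const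
    have h4 := hk.contDiff_prim
    unfold CLh
    exact (h4.contDiffAt.comp s (h2.add h3)).add (h4.contDiffAt.comp s (h2.sub h3))

theorem exists_CLh_zero (hk : Pl A k) (L : ℝ) : ∃ R : ℝ, 0 < R ∧ ∀ s, R ≤ s →
    CLh L (prim k) s = 0 := by
  obtain ⟨R, hR1, hR⟩ := exists_R hk.supp
  refine ⟨R * exp |L|, by positivity, fun s hs => ?_⟩
  have hs0 : 0 < s := lt_of_lt_of_le (by positivity) hs
  have h0 : √(s ^ 2 - 1) ≤ s := by
    rw [Real.sqrt_le_left hs0.le]
    linarith
  have h1 : R ≤ s * cosh L - √(s ^ 2 - 1) * |sinh L| := by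
    have h2 : √(s ^ 2 - 1) * |sinh L| ≤ s * |sinh L| :=
      mul_le_mul_of_nonneg_right h0 (abs_nonneg _)
    have h3 : cosh L - |sinh L| = exp (-|L|) := by
      rw [abs_sinh_eq, ← Real.cosh_abs L, Real.cosh_sub_sinh]
    have h4 : R ≤ s * exp (-|L|) := by
      rw [Real.exp_neg, ← div_eq_mul_inv, le_div_iff₀ (exp_pos _)]
      exact hs
    rw [← h3] at h4
    linarith
  have h2 := Real.sqrt_nonneg (s ^ 2 - 1)
  have h3 : √(s ^ 2 - 1) * sinh L ≤ √(s ^ 2 - 1) * |sinh L| :=
    mul_le_mul_of_nonneg_left (le_abs_self _) h2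
  have h4 : -(√(s ^ 2 - 1) * |sinh L|) ≤ √(s ^ 2 - 1) * sinh L := by
    have := mul_le_mul_of_nonneg_left (neg_abs_le (sinh L)) h2
    linarith
  rw [CLh, prim_zero hR (s := s * cosh L + √(s ^ 2 - 1) * sinh L) (by linarith),
    prim_zero hR (s := s * cosh L - √(s ^ 2 - 1) * sinh L) (by linarith), add_zero]

theorem CL_zero_right {R : ℝ} (h : ∀ s, R ≤ s → CLh L (prim k) s = 0) {s : ℝ} (hs : R < s) :
    CL L k s = 0 := by
  have h1 : CLh L (prim k) =ᶠ[𝓝 s] fun _ => 0 := by
    filter_upwards [Ioi_mem_nhds hs] with t ht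
    exact h t (le_of_lt ht)
  rw [CL, h1.deriv_eq, deriv_const, mul_zero]

theorem Pl.CL (hk : Pl A k) (hL : |L| < A) : Pl (A - |L|) (CL L k) := by
  have h1 := contDiff_CLh hk hL
  have hd : ContDiff ℝ ∞ (deriv (CLh L (prim k))) := (contDiff_infty_iff_deriv.mp h1).2
  have hsm : ContDiff ℝ ∞ (Kill.CL L k) := contDiff_const.mul hd
  have hz : ∀ s < cosh (A - |L|), Kill.CL L k s = 0 := by
    intro s hs
    have h1 : CLh L (prim k) =ᶠ[𝓝 s] fun _ => 2 * prim k (cosh A) := by
      filter_upwards [Iio_mem_nhds hs] with t ht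
      exact CLh_const hk hL (le_of_lt ht)
    rw [Kill.CL, h1.deriv_eq, deriv_const, mul_zero]
  have hz' : ∀ s ≤ cosh (A - |L|), Kill.CL L k s = 0 := by
    have hcl : IsClosed {s | Kill.CL L k s = 0} := isClosed_eq hsm.continuous continuous_const
    have h2 : closure (Iio (cosh (A - |L|))) ⊆ {s | Kill.CL L k s = 0} :=
      hcl.closure_subset_iff.mpr fun s hs => hz s hs
    rw [closure_Iio] at h2
    exact fun s hs => h2 hs
  obtain ⟨R, hR0, hR⟩ := exists_CLh_zero hk L
  refine ⟨hsm, ?_, hz'⟩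
  refine HasCompactSupport.intro (isCompact_Icc (a := (0 : ℝ)) (b := R)) fun s hs => ?_
  rw [mem_Icc, not_and_or, not_le, not_le] at hs
  rcases hs with h | h
  · exact hz' s (by have := Real.cosh_pos (A - |L|); linarith)
  · exact CL_zero_right hR h

/-- **Abel transform of the translation** -/
theorem abelT_CL (hk : Pl A k) (hL : |L| < A) (u : ℝ) :
    abelT (Kill.CL L k) u = abelT k (u + L) + abelT k (u - L) := by
  have h1 := contDiff_CLh hk hL
  obtain ⟨R, hR0, hR⟩ := exists_CLh_zero hk L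
  have hpl := hk.CL hL
  have hder : ∀ s, HasDerivAt (CLh L (prim k)) (deriv (CLh L (prim k)) s) s := fun s =>
    ((contDiff_infty_iff_deriv.mp h1).1 s).hasDerivAt
  have hd : ∀ s, deriv (CLh L (prim k)) s = -(2 * π) * Kill.CL L k s := by
    intro s
    rw [Kill.CL]
    field_simp
  have h2 : ∫ t in Ioi (cosh u), deriv (CLh L (prim k)) t = 0 - CLh L (prim k) (cosh u) := by
    refine integral_Ioi_of_hasDerivAt_of_tendsto h1.continuous.continuousWithinAt
      (fun s _ => hder s) ?_ ?_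
    · have h3 : deriv (CLh L (prim k)) = fun s => -(2 * π) * Kill.CL L k s := funext hd
      rw [h3]
      exact (hpl.integrable.const_mul _).integrableOn
    · refine Filter.Tendsto.congr' ?_ tendsto_const_nhds
      filter_upwards [Filter.eventually_ge_atTop R] with s hs
      exact (hR s hs).symm
  have h3 : abelT (Kill.CL L k) u = CLh L (prim k) (cosh u) := by
    rw [abelT]
    have h4 : ∫ t in Ioi (cosh u), deriv (CLh L (prim k)) t =
        -(2 * π) * ∫ t in Ioi (cosh u), Kill.CL L k t := by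
      simp_rw [hd]
      rw [integral_const_mul]
    rw [h4] at h2
    linarith
  rw [h3, CLh, abelT_eq_prim, abelT_eq_prim]
  have h5 : √(cosh u ^ 2 - 1) = |sinh u| := by
    rw [Real.cosh_sq, add_sub_cancel_right, Real.sqrt_sq_eq_abs]
  rw [h5, Real.cosh_add, Real.cosh_sub]
  rcases abs_choice (sinh u) with h | h <;> rw [h]
  rw [add_comm]
  congr 1
  · congr 1; ring
  · congr 1; ring

end CLh

end Fermat.Agent.LT.Kill
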