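import Fermat.Agent.LT.Kill.Prof
import Fermat.Agent.LT.Kill.Shift

set_option autoImplicit false

/-!
# The Abel transform of a composition
-/

namespace Fermat.Agent.LT.Kill

open MeasureTheory Set Topology
open Fermat.Agent.LT.H3

/-- integrability on a horosphere times the space -/
theorem integrable_horo_comp (κ₁ κ₂ : IKer) (y : ℝ) (hy : 0 < y) :
    Integrable (fun x : ℂ × H3 => κ₁.k ⟨x.1, y, hy⟩ x.2 * κ₂.k x.2 j)
      ((volume : Measure ℂ).prod (volume : Measure H3)) := by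
  obtain ⟨C₁, hC₁, h₁⟩ := κ₁.exists_bound
  obtain ⟨C₂, hC₂, h₂⟩ := κ₂.exists_bound
  set R : ℝ := 2 * κ₁.R * κ₂.R with hR
  set B₁ : Set ℂ := Metric.closedBall 0 (√(2 * R * y)) with hB₁
  set B₂ : Set H3 := {q | cd j q ≤ κ₂.R} with hB₂
  have m₁ : MeasurableSet B₁ := Metric.isClosed_closedBall.measurableSet
  have m₂ : MeasurableSet B₂ := (isCompact_ball j _).isClosed.measurableSet
  have i₁ : Integrable (B₁.indicator fun _ => (1 : ℝ)) :=
    (integrable_indicator_iff m₁).mpr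
      (integrableOn_const (isCompact_closedBall (0 : ℂ) _).measure_lt_top.ne)
  have i₂ : Integrable (B₂.indicator fun _ => (1 : ℝ)) :=
    (integrable_indicator_iff m₂).mpr (integrableOn_const (isCompact_ball j _).measure_lt_top.ne)
  have i₃ := (i₁.mul_prod i₂).const_mul (C₁ * C₂)
  have hmk : Continuous fun z : ℂ => (⟨z, y, hy⟩ : H3) := continuous_mk continuous_id continuous_const
  have c1 : Continuous fun x : ℂ × H3 => κ₁.k ⟨x.1, y, hy⟩ x.2 :=
    κ₁.cont.comp ((hmk.comp continuous_fst).prodMk continuous_snd)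
  have c2 : Continuous fun x : ℂ × H3 => κ₂.k x.2 j :=
    κ₂.cont.comp (continuous_snd.prodMk continuous_const)
  refine i₃.mono' (c1.mul c2).aestronglyMeasurable ?_
  refine Filter.Eventually.of_forall fun x => ?_
  rw [Real.norm_eq_abs]
  by_cases h1 : x.1 ∈ B₁
  · by_cases h2 : x.2 ∈ B₂
    · rw [indicator_of_mem h1, indicator_of_mem h2, one_mul, mul_one, abs_mul]
      exact mul_le_mul (h₁ _ _) (h₂ _ _) (abs_nonneg _) hC₁
    · have h3 : κ₂.k x.2 j = 0 := κ₂.supp _ _ (by rw [cd_symm]; exact not_le.mp h2)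
      rw [h3, mul_zero, abs_zero, indicator_of_notMem h2, mul_zero, mul_zero]
  · have h3 : R < cd ⟨x.1, y, hy⟩ j := by
      by_contra hle
      push Not at hle
      apply h1
      rw [hB₁, mem_closedBall_zero_iff]
      have h4 := z_le ⟨x.1, y, hy⟩ j
      simp only [j, sub_zero, mul_one] at h4
      apply Real.le_sqrt_of_sq_le
      refine h4.trans ?_
      have h5 : cd (⟨x.1, y, hy⟩ : H3) ⟨0, 1, one_pos⟩ ≤ R := hle
      gcongr
    rw [IKer.mul_eq_zero_of_lt κ₁ κ₂ _ _ _ h3, abs_zero, indicator_of_notMem h1, zero_mul,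
      mul_zero]

/-- **The Abel transform of a composition.** -/
theorem ab_comp (κ₁ κ₂ : IKer) (u : ℝ) : ab (IKer.comp κ₁ κ₂) u =
    ∫ q : H3, q.y * ab κ₁ (u - Real.log q.y) * κ₂.k q j := by
  have hy : 0 < Real.exp u := Real.exp_pos u
  have h1 := integral_horo_k (IKer.comp κ₁ κ₂) j (Real.exp u) hy
  have h2 : j.y = 1 := rfl
  rw [h2, mul_one, div_one, Real.log_exp] at h1
  have h3 : ∫ z : ℂ, (IKer.comp κ₁ κ₂).k ⟨z, Real.exp u, hy⟩ j =
      ∫ q : H3, Real.exp u * (q.y * ab κ₁ (u - Real.log q.y) * κ₂.k q j) := by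
    simp_rw [IKer.comp_k]
    rw [integral_integral_swap (f := fun (z : ℂ) (q : H3) =>
      κ₁.k ⟨z, Real.exp u, hy⟩ q * κ₂.k q j) (integrable_horo_comp κ₁ κ₂ (Real.exp u) hy)]
    refine integral_congr_ae (Filter.Eventually.of_forall fun q => ?_)
    simp only []
    rw [integral_mul_const, integral_horo_k κ₁ q (Real.exp u) hy,
      Real.log_div hy.ne' q.pos.ne', Real.log_exp]
    ring
  rw [h3, integral_const_mul] at h1
  exact (mul_left_cancel₀ hy.ne' h1).symm

theorem integrable_ab_comp (κ₁ κ₂ : IKer) (c : ℝ) :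
    Integrable fun q : H3 => q.y * ab κ₁ (c - Real.log q.y) * κ₂.k q j := by
  have h1 : Continuous fun q : H3 => q.y * ab κ₁ (c - Real.log q.y) := by
    refine continuous_y.mul ((continuous_ab κ₁).comp ?_)
    exact continuous_const.sub (continuous_y.log fun q => q.pos.ne')
  have h2 : Continuous fun q : H3 => κ₂.k q j := by
    have h := κ₂.continuous_right j
    have e : (fun q : H3 => κ₂.k q j) = fun q => κ₂.k j q := funext fun q => κ₂.symm q j
    rw [e]
    exact h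
  have h3 : HasCompactSupport fun q : H3 => κ₂.k q j := by
    have h := κ₂.hasCompactSupport_right j
    have e : (fun q : H3 => κ₂.k q j) = fun q => κ₂.k j q := funext fun q => κ₂.symm q j
    rw [e]
    exact h
  exact (h1.mul h2).integrable_of_hasCompactSupport (HasCompactSupport.mul_left h3)

/-- the relation between a kernel and its translate -/
def Sh (L : ℝ) (κ κ' : IKer) : Prop := ∀ u, ab κ' u = ab κ (u + L) + ab κ (u - L)

theorem ab_congr {κ κ' : IKer} (h : ∀ p p', κ.k p p' = κ'.k p p') (u : ℝ) : ab κ u = ab κ' u := by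
  have : prof κ = prof κ' := by
    funext t
    simp only [prof, h]
  rw [ab, ab, this]

theorem ab_comp_comm (κ₁ κ₂ : IKer) (u : ℝ) :
    ab (IKer.comp κ₁ κ₂) u = ab (IKer.comp κ₂ κ₁) u :=
  ab_congr (IKer.comp_comm_k κ₁ κ₂) u

theorem ab_comp_congr {κ₁ κ₁' : IKer} (h : ∀ u, ab κ₁ u = ab κ₁' u) (κ₂ : IKer) (u : ℝ) :
    ab (IKer.comp κ₁ κ₂) u = ab (IKer.comp κ₁' κ₂) u := by
  rw [ab_comp, ab_comp]
  simp_rw [h]

theorem Sh.comp_left {L : ℝ} {κ₁ κ₁' : IKer} (h : Sh L κ₁ κ₁') (κ₂ : IKer) :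
    Sh L (IKer.comp κ₁ κ₂) (IKer.comp κ₁' κ₂) := by
  intro u
  rw [ab_comp, ab_comp, ab_comp, ← integral_add (integrable_ab_comp κ₁ κ₂ _)
    (integrable_ab_comp κ₁ κ₂ _)]
  refine integral_congr_ae (Filter.Eventually.of_forall fun q => ?_)
  simp only []
  rw [h, show u - Real.log q.y + L = u + L - Real.log q.y by ring,
    show u - Real.log q.y - L = u - L - Real.log q.y by ring]
  ring

theorem Sh.comp_right {L : ℝ} {κ₂ κ₂' : IKer} (h : Sh L κ₂ κ₂') (κ₁ : IKer) :
    Sh L (IKer.comp κ₁ κ₂) (IKer.comp κ₁ κ₂') := by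
  intro u
  rw [ab_comp_comm κ₁ κ₂', ab_comp_comm κ₁ κ₂, ab_comp_comm κ₁ κ₂]
  exact h.comp_left κ₁ u

theorem Sh.congr {L : ℝ} {κ₁ κ₁' κ₂ κ₂' : IKer} (h : Sh L κ₁ κ₁') (h' : Sh L κ₂ κ₂')
    (e : ∀ u, ab κ₁ u = ab κ₂ u) (u : ℝ) : ab κ₁' u = ab κ₂' u := by
  rw [h, h', e, e]

end Fermat.Agent.LT.Kill
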