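import Fermat.Agent.LT.Kill.Main

set_option autoImplicit false

/-!
# The eigenvalue of the killing operator
-/

namespace Fermat.Agent.LT.Kill

open MeasureTheory Module NumberField Matrix MvPolynomial
open Fermat.Agent.LT Fermat.Agent.LT.Sp
open scoped MatrixGroups ContDiff

theorem Pl.integrable_abelT {A : ℝ} {k : ℝ → ℝ} (hk : Pl A k) : Integrable (H3.abelT k) :=
  (H3.continuous_abelT (hk.smooth.continuous.integrable_of_hasCompactSupport
    hk.supp)).integrable_of_hasCompactSupport (H3.hasCompactSupport_abelT hk.supp)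

theorem khat_CL_eq {A L : ℝ} {k : ℝ → ℝ} (hk : Pl A k) (hL : |L| < A) :
    H3.khat (CL L k) = 2 * H3.khat k := by
  have h := hk.integrable_abelT
  rw [H3.khat, H3.khat]
  simp_rw [abelT_CL hk hL]
  rw [integral_add (h.comp_add_right L) (h.comp_sub_right L), integral_add_right_eq_self,
    integral_sub_right_eq_self, two_mul]

section Prod

variable {W ι J : Type*} [Fintype W]

/-- the product of the archimedean eigenvalues -/
theorem prod_khat_gen {A : ℝ} (pl : J → W) (L : J → ℝ) {φ : W → ℝ → ℝ} (hφ : ∀ w, Pl A (φ w))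
    (l : List (ι ⊕ J)) (hl : wt L l < A) :
    ∏ w, H3.khat (φL pl L φ l w) =
      (l.map (Sum.elim (fun _ => (1 : ℝ)) fun _ => 2)).prod * ∏ w, H3.khat (φ w) := by
  classical
  induction l with
  | nil => simp [φL]
  | cons x l ih =>
    cases x with
    | inl i =>
      rw [List.map_cons, List.prod_cons, Sum.elim_inl, one_mul]
      exact ih hl
    | inr j =>
      have h0 := abs_nonneg (L j)
      have hlt : wt L l + |L j| < A := hl
      have hl' : wt L l < A := by linarith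
      have hL : |L j| < A - wt L l := by linarith
      rw [List.map_cons, List.prod_cons, Sum.elim_inr, mul_assoc, ← ih hl']
      rw [← Finset.mul_prod_erase Finset.univ _ (Finset.mem_univ (pl j)),
        ← Finset.mul_prod_erase Finset.univ (fun w => H3.khat (φL pl L φ l w))
          (Finset.mem_univ (pl j)), ← mul_assoc]
      congr 1
      · simp only [φL, if_true]
        exact khat_CL_eq (pl_φL pl L hφ l hl' (pl j)) hL
      · refine Finset.prod_congr rfl fun w hw => ?_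
        simp only [φL, if_neg (Finset.ne_of_mem_erase hw)]

end Prod

section Eig

variable {F D H Q ι J : Type*} [Field F] [NumberField F] [MulAction (GL (Fin 2) F) D]
  [CommGroup H] [MulAction H Q] [Fintype ι] [Fintype J] [DecidableEq ι] [DecidableEq J]

/-- the eigenvalue of the killing operator -/
noncomputable def eigC (K : KillRel F D H Q ι) (J : Type*) [Fintype J] [DecidableEq J]
    (μ : ι → ℂ) : ℂ :=
  aeval (Sum.elim (fun i => ((√(K.q i : ℝ) : ℝ) : ℂ)⁻¹ * μ i) fun _ => 2) (killPoly (kk K J))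

theorem aeval_eq_sum {σ : Type*} [Fintype σ] (P : MvPolynomial σ ℤ) (b : σ → ℂ) :
    aeval b P = ∑ m ∈ P.support, ((P.coeff m : ℤ) : ℂ) * ((lst m).map b).prod := by
  rw [aeval_def, eval₂_eq']
  refine Finset.sum_congr rfl fun m _ => ?_
  rw [prod_map_lst, algebraMap_int_eq, eq_intCast]

/-- **The eigenvalue of the killing operator.** -/
theorem eig_sum {W : Type*} [Fintype W] (K : KillRel F D H Q ι) (pl : J → W) (L : J → ℝ)
    {φ : W → ℝ → ℝ} {A : ℝ} (hφ : ∀ w, Pl A (φ w))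
    (hwt : ∀ m ∈ (killPoly (kk K J)).support, wt L (lst m) < A) (μ : ι → ℂ) :
    ∑ m ∈ (killPoly (kk K J)).support,
      ((((killPoly (kk K J)).coeff m : ℤ) : ℂ) * ((lst m).map (sc K)).prod) *
        ((∏ w, ((H3.khat (φL pl L φ (lst m) w) : ℝ) : ℂ)) *
          ((lst m).map (Sum.elim μ fun _ => 1)).prod) =
      (∏ w, ((H3.khat (φ w) : ℝ) : ℂ)) * eigC K J μ := by
  rw [eigC, aeval_eq_sum, Finset.mul_sum]
  refine Finset.sum_congr rfl fun m hm => ?_
  have h1 : ∏ w, ((H3.khat (φL pl L φ (lst m) w) : ℝ) : ℂ) =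
      ((lst m).map (Sum.elim (fun _ => (1 : ℂ)) fun _ => 2)).prod *
        ∏ w, ((H3.khat (φ w) : ℝ) : ℂ) := by
    rw [← Complex.ofReal_prod, prod_khat_gen pl L hφ (lst m) (hwt m hm), Complex.ofReal_mul,
      Complex.ofReal_prod]
    congr 1
    rw [← Complex.ofRealHom_eq_coe, map_list_prod, List.map_map]
    congr 2
    funext x
    cases x <;> simp
  have h2 : ((lst m).map (Sum.elim (fun i => ((√(K.q i : ℝ) : ℝ) : ℂ)⁻¹ * μ i) fun _ => 2)).prod =
      ((lst m).map (sc K)).prod * (((lst m).map (Sum.elim (fun _ => (1 : ℂ)) fun _ => 2)).prod *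
        ((lst m).map (Sum.elim μ fun _ => 1)).prod) := by
    rw [← List.prod_map_mul, ← List.prod_map_mul]
    congr 2
    funext x
    cases x <;> simp [sc]
  rw [h1, h2]
  ring

/-- **The eigenvalue is not zero.** -/
theorem eigC_ne_zero (K : KillRel F D H Q ι) (Z : ι → ℂˣ) (μ : ι → ℂ)
    (hμ : ∀ i, μ i = ((√(K.q i : ℝ) : ℝ) : ℂ) * ((Z i : ℂ) + (((Z i)⁻¹ : ℂˣ) : ℂ)))
    (hZ : ∀ f : ι → Fin 2, ∏ i, (if f i = 0 then Z i else (Z i)⁻¹) ^ K.k i ≠ 1) :
    eigC K J μ ≠ 0 := by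
  have h1 : (Sum.elim (fun i => ((√(K.q i : ℝ) : ℝ) : ℂ)⁻¹ * μ i) fun _ => 2 : ι ⊕ J → ℂ) =
      fun v => (((Sum.elim Z fun _ => 1 : ι ⊕ J → ℂˣ) v : ℂ) +
        ((((Sum.elim Z fun _ => 1 : ι ⊕ J → ℂˣ) v)⁻¹ : ℂˣ) : ℂ)) := by
    funext v
    cases v with
    | inl i =>
      have h2 : ((√(K.q i : ℝ) : ℝ) : ℂ) ≠ 0 := by
        have := Real.sqrt_pos.mpr (Nat.cast_pos (α := ℝ).mpr (K.q_pos i))
        exact_mod_cast this.ne'
      simp only [Sum.elim_inl]
      rw [hμ i, inv_mul_cancel_left₀ h2]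
    | inr j =>
      simp only [Sum.elim_inr, inv_one, Units.val_one]
      norm_num
  rw [eigC, h1]
  refine aeval_killPoly_ne_zero _ _ fun f hf => hZ (fun i => f (Sum.inl i)) ?_
  rw [sgnProd, Fintype.prod_sum_type] at hf
  have h3 : ∏ j : J, (if f (Sum.inr j) = 0 then (Sum.elim Z (fun _ => 1) : ι ⊕ J → ℂˣ) (Sum.inr j)
      else ((Sum.elim Z (fun _ => 1) : ι ⊕ J → ℂˣ) (Sum.inr j))⁻¹) ^ kk K J (Sum.inr j) = 1 := by
    refine Finset.prod_eq_one fun j _ => ?_
    simp
  rw [h3, mul_one] at hf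
  exact hf

/-- all the normalised eigenvalues are equal to `-2`, three places -/
theorem eigC_ne_zero_three {H' Q' : Type*} [CommGroup H'] [MulAction H' Q']
    (K : KillRel F D H' Q' (Fin 3)) (hk : ∀ i, K.k i = 1) (μ : Fin 3 → ℂ)
    (hμ : ∀ i, μ i = -2 * ((√(K.q i : ℝ) : ℝ) : ℂ)) : eigC K J μ ≠ 0 := by
  refine eigC_ne_zero K (fun _ => -1) μ (fun i => ?_) fun f hf => ?_
  · rw [hμ]
    have : (((-1 : ℂˣ)⁻¹ : ℂˣ) : ℂ) = -1 := by simp
    rw [this]
    simp only [Units.val_neg, Units.val_one]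
    ring
  · have h1 : ∀ i, (if f i = 0 then (-1 : ℂˣ) else (-1)⁻¹) ^ K.k i = -1 := by
      intro i
      rw [hk, pow_one]
      split_ifs
      · rfl
      · simp
    simp_rw [h1] at hf
    rw [Finset.prod_const, Finset.card_univ, Fintype.card_fin] at hf
    have h2 := congrArg (fun u : ℂˣ => (u : ℂ)) hf
    norm_num at h2

/-- the eigenvalue is real -/
theorem eigC_real (K : KillRel F D H Q ι) (μ : ι → ℝ) :
    eigC K J (fun i => (μ i : ℂ)) =
      ((aeval (Sum.elim (fun i => (√(K.q i : ℝ))⁻¹ * μ i) fun _ => (2 : ℝ))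
        (killPoly (kk K J)) : ℝ) : ℂ) := by
  rw [eigC]
  have h1 : (Sum.elim (fun i => ((√(K.q i : ℝ) : ℝ) : ℂ)⁻¹ * (μ i : ℂ)) fun _ => 2 :
      ι ⊕ J → ℂ) = fun v => ((Sum.elim (fun i => (√(K.q i : ℝ))⁻¹ * μ i) (fun _ => (2 : ℝ)) v :
        ℝ) : ℂ) := by
    funext v
    cases v <;> simp
  rw [h1]
  have h2 := MvPolynomial.map_aeval (Sum.elim (fun i => (√(K.q i : ℝ))⁻¹ * μ i) fun _ => (2 : ℝ))
    Complex.ofRealHom (killPoly (kk K J))
  rw [Complex.ofRealHom_eq_coe] at h2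
  rw [h2, aeval_def]
  simp only [Complex.ofRealHom_eq_coe, algebraMap_int_eq]
  congr 1

end Eig

section Choice

/-- existence of the test functions -/
theorem exists_pl (A : ℝ) : ∃ k : ℝ → ℝ, Pl A k ∧ (∀ s, 0 ≤ k s) ∧ 0 < H3.khat k := by
  set c : ℝ := Real.cosh A + 2 with hc
  let b : ContDiffBump c := ⟨1 / 2, 1, by norm_num, by norm_num⟩
  have hz : ∀ s ≤ Real.cosh A, b s = 0 := by
    intro s hs
    refine b.zero_of_le_dist ?_
    show 1 ≤ dist s c
    rw [Real.dist_eq, abs_of_nonpos (by linarith)]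
    linarith
  have hpl : Pl A b := ⟨b.contDiff, b.hasCompactSupport, hz⟩
  have h0 : ∀ s, 0 ≤ b s := fun s => b.nonneg
  refine ⟨b, hpl, h0, ?_⟩
  have hne : b c ≠ 0 := by
    rw [b.one_of_mem_closedBall (Metric.mem_closedBall_self (by norm_num))]
    exact one_ne_zero
  have h1 : 0 < ∫ t, b t :=
    b.continuous.integral_pos_of_hasCompactSupport_nonneg_nonzero b.hasCompactSupport h0 hne
  have h2 : H3.abelT b 0 = 2 * Real.pi * ∫ t, b t := by
    rw [H3.abelT, Real.cosh_zero]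
    congr 1
    refine setIntegral_eq_integral_of_forall_compl_eq_zero fun s hs => hz s ?_
    have : s ≤ 1 := not_lt.mp hs
    exact this.trans (Real.one_le_cosh A)
  have h3 : ∀ u, 0 ≤ H3.abelT b u := fun u => by
    rw [H3.abelT]
    exact mul_nonneg (by positivity) (integral_nonneg h0)
  rw [H3.khat]
  refine (H3.continuous_abelT (hpl.smooth.continuous.integrable_of_hasCompactSupport
    hpl.supp)).integral_pos_of_hasCompactSupport_nonneg_nonzero
    (H3.hasCompactSupport_abelT hpl.supp) h3 (x := 0) ?_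
  rw [h2]
  have := Real.pi_pos
  positivity

/-- existence of the bound for the weights -/
theorem exists_wt {ι J : Type*} (L : J → ℝ) (S : Finset ((ι ⊕ J) →₀ ℕ)) :
    ∃ A : ℝ, 0 < A ∧ ∀ m ∈ S, wt L (lst m) < A := by
  refine ⟨∑ m ∈ S, wt L (lst m) + 1, ?_, fun m hm => ?_⟩
  · have := Finset.sum_nonneg fun m (_ : m ∈ S) => wt_nonneg L (lst m)
    linarith
  · have := Finset.single_le_sum (f := fun m => wt L (lst m)) (fun m _ => wt_nonneg L (lst m)) hm
    linarith

end Choice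

end Fermat.Agent.LT.Kill
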