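import Fermat.Agent.LT.Kill.Main

set_option autoImplicit false

/-!
# The killing kernel: mean value zero, boundedness
-/

namespace Fermat.Agent.LT.Kill

open MeasureTheory Module NumberField Matrix
open Fermat.Agent.LT Fermat.Agent.LT.Sp Fermat.Agent.LT.Bd
open scoped MatrixGroups ContDiff

section FundDom

variable {F : Type*} [Field F] [NumberField F] [IsTotallyComplex F]

theorem crd_eq_sum (N : ℕ) (hN : N ≠ 0) (t : Fou.Ix F → ℝ) :
    Fou.crd (F := F) N t = ∑ i, t i • bN F N hN i := by
  unfold Fou.crd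
  refine Finset.sum_congr rfl fun i _ => ?_
  funext w
  rw [Pi.smul_apply, Pi.smul_apply, bN_apply, map_mul, map_natCast, Fou.emb_apply,
    Complex.real_smul, Complex.real_smul]
  have : (Fou.bas i : F) = integralBasis F i := by
    unfold Fou.bas
    congr!
  rw [this]
  push_cast
  ring

theorem crd_mem_fd (N : ℕ) (hN : N ≠ 0) (t : Fou.Ix F → ℝ) :
    Fou.crd (F := F) N t ∈ ZSpan.fundamentalDomain (bN F N hN) ↔
      t ∈ Set.univ.pi fun _ : Fou.Ix F => Set.Ico (0 : ℝ) 1 := by
  rw [ZSpan.mem_fundamentalDomain, crd_eq_sum N hN, Basis.repr_sum_self]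
  simp

/-- the integral over the fundamental parallelepiped is a multiple of the mean value -/
theorem integral_fd (N : ℕ) (hN : N ≠ 0) (f : (InfinitePlace F → ℂ) → ℂ) :
    ∃ c : ℂ, ∫ v in ZSpan.fundamentalDomain (bN F N hN), f v = c * Fou.mn N f := by
  obtain ⟨c, hc0, hc⟩ := exists_covol (F := F) N hN
  refine ⟨(c : ℂ)⁻¹, ?_⟩
  have hm : MeasurableSet (ZSpan.fundamentalDomain (bN F N hN)) :=
    ZSpan.fundamentalDomain_measurableSet _
  have h1 := (hc ((ZSpan.fundamentalDomain (bN F N hN)).indicator f)).1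
  rw [integral_indicator hm] at h1
  have h2 : ∀ t : Fou.Ix F → ℝ, (ZSpan.fundamentalDomain (bN F N hN)).indicator f (Fou.crd N t) =
      (Set.univ.pi fun _ : Fou.Ix F => Set.Ico (0 : ℝ) 1).indicator
        (fun t => f (Fou.crd N t)) t := by
    intro t
    by_cases ht : t ∈ Set.univ.pi fun _ : Fou.Ix F => Set.Ico (0 : ℝ) 1
    · rw [Set.indicator_of_mem ht, Set.indicator_of_mem ((crd_mem_fd N hN t).mpr ht)]
    · rw [Set.indicator_of_notMem ht,
        Set.indicator_of_notMem fun h => ht ((crd_mem_fd N hN t).mp h)]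
  simp_rw [h2] at h1
  rw [integral_indicator (MeasurableSet.univ_pi fun _ => measurableSet_Ico)] at h1
  have h3 : (box (0 : Fou.Ix F → ℤ)) = Set.univ.pi fun _ : Fou.Ix F => Set.Ioc (0 : ℝ) 1 := by
    ext x
    simp [box]
  have h4 : ∫ t in Set.univ.pi fun _ : Fou.Ix F => Set.Ico (0 : ℝ) 1, f (Fou.crd N t) =
      Fou.mn N f := by
    unfold Fou.mn Fou.boxMean
    rw [h3]
    refine setIntegral_congr_set ?_
    exact (Measure.univ_pi_Ico_ae_eq_Icc (μ := fun _ : Fou.Ix F => (volume : Measure ℝ))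
      (f := fun _ => (0 : ℝ)) (g := fun _ => 1)).trans
      (Measure.univ_pi_Ioc_ae_eq_Icc (μ := fun _ : Fou.Ix F => (volume : Measure ℝ))
      (f := fun _ => (0 : ℝ)) (g := fun _ => 1)).symm
  rw [h4] at h1
  have hc' : (c : ℂ) ≠ 0 := by exact_mod_cast hc0.ne'
  rw [h1, inv_mul_cancel_left₀ hc']

end FundDom

section Lattice

variable {F : Type*} [Field F] [NumberField F] [IsTotallyComplex F] {D : Type*}
  [MulAction (GL (Fin 2) F) D] [FinPart F D]

theorem mem_trans_of_basis {d : D} {N : ℕ} (hN : N ≠ 0)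
    (h : ∀ i, ∃ t ∈ trans F d, ∀ w : InfinitePlace F, bN F N hN i w = w.embedding t) (a : 𝓞 F) :
    (N : F) * a ∈ trans F d := by
  have h1 : ∀ i, (N : F) * integralBasis F i ∈ trans F d := by
    intro i
    obtain ⟨t, ht, hw⟩ := h i
    obtain ⟨w⟩ : Nonempty (InfinitePlace F) := inferInstance
    have h2 := hw w
    rw [bN_apply] at h2
    rwa [w.embedding.injective h2]
  have h3 : (N : F) * (a : F) = ∑ i, ((RingOfIntegers.basis F).repr a i) •
      ((N : F) * integralBasis F i) := by
    have h4 : (a : F) = ∑ i, ((RingOfIntegers.basis F).repr a i) • integralBasis F i := by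
      conv_lhs => rw [← (RingOfIntegers.basis F).sum_repr a]
      rw [RingOfIntegers.coe_eq_algebraMap, map_sum]
      refine Finset.sum_congr rfl fun i _ => ?_
      rw [integralBasis_apply, zsmul_eq_mul, zsmul_eq_mul, map_mul, map_intCast]
    rw [h4, Finset.mul_sum]
    refine Finset.sum_congr rfl fun i _ => ?_
    rw [mul_smul_comm]
  rw [h3]
  exact AddSubgroup.sum_mem _ fun i _ => AddSubgroup.zsmul_mem _ (h1 i) _

end Lattice

section Final

variable {F D H Q ι J : Type*} [Field F] [NumberField F] [MulAction (GL (Fin 2) F) D]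
  [CommGroup H] [MulAction H Q] [Fintype ι] [Fintype J] [DecidableEq ι] [DecidableEq J]

/-- the coefficients of the killing kernel -/
noncomputable def killC (K : KillRel F D H Q ι) (J : Type*) [Fintype J] [DecidableEq J]
    (m : (ι ⊕ J) →₀ ℕ) : ℂ :=
  (((killPoly (kk K J)).coeff m : ℤ) : ℂ) * ((lst m).map (sc K)).prod

/-- the archimedean factors of the killing kernel -/
noncomputable def killΦ (K : KillRel F D H Q ι) (pl : J → InfinitePlace F) (L : J → ℝ)
    (φ : InfinitePlace F → ℝ → ℝ) (m : {m // m ∈ (killPoly (kk K J)).support})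
    (c : InfinitePlace F → ℝ) : ℂ :=
  killC K J m.1 * prodΦ (φL pl L φ (lst m.1)) c

/-- the finite parts of the killing kernel -/
noncomputable def killκ (K : KillRel F D H Q ι) (J : Type*) [Fintype J] [DecidableEq J]
    (κ : DKer F D) (m : {m // m ∈ (killPoly (kk K J)).support}) : DKer F D :=
  κL K.T κ (lst m.1)

variable (K : KillRel F D H Q ι) (pl : J → InfinitePlace F) (L : J → ℝ)
  {φ : InfinitePlace F → ℝ → ℝ} {A : ℝ} (hφ : ∀ w, Pl A (φ w)) (κ : DKer F D)
  (hwt : ∀ m ∈ (killPoly (kk K J)).support, wt L (lst m) < A)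

include hφ hwt in
theorem contDiff_killΦ (m : {m // m ∈ (killPoly (kk K J)).support}) :
    ContDiff ℝ ∞ (killΦ K pl L φ m) :=
  contDiff_const.mul (contDiff_prodΦ fun w => (pl_φL pl L hφ _ (hwt m.1 m.2) w).smooth)

include hφ hwt in
theorem hasCompactSupport_killΦ (m : {m // m ∈ (killPoly (kk K J)).support}) :
    HasCompactSupport (killΦ K pl L φ m) :=
  (hasCompactSupport_prodΦ fun w => (pl_φL pl L hφ _ (hwt m.1 m.2) w).supp).mul_left

variable [FinPart F D] [IsTotallyComplex F]

omit [Fintype ι] [Fintype J] [DecidableEq ι] [DecidableEq J] in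
theorem autK_famKer_sum {I : Type*} [Fintype I] (c : I → ℂ) (φ : I → InfinitePlace F → ℝ → ℝ)
    (hc : ∀ i w, HasCompactSupport (φ i w)) (κ : I → DKer F D) (x x' : HF F × D) :
    autK (famKer (fun i c' => c i * prodΦ (φ i) c') κ) x x' =
      ∑ i, c i * autK (tenK (φ i) (κ i)) x x' := by
  have h1 : ∀ g : PGL(2, F), famKer (fun i c' => c i * prodΦ (φ i) c') κ x (g • x') =
      ∑ i, c i * tenK (φ i) (κ i) x (g • x') := by
    intro g
    rw [famKer]
    refine Finset.sum_congr rfl fun i _ => ?_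
    rw [tenK, mul_assoc]
  rw [autK]
  simp_rw [h1]
  rw [Summable.tsum_finsetSum fun i _ => (summable_tenK (hc i) _ x x').mul_left _]
  refine Finset.sum_congr rfl fun i _ => ?_
  rw [tsum_mul_left, autK]

include hφ hwt in
theorem autK_kill (x x' : HF F × D) :
    autK (famKer (killΦ K pl L φ) (killκ K J κ)) x x' =
      ∑ m ∈ (killPoly (kk K J)).support, killC K J m *
        autK (tenK (φL pl L φ (lst m)) (κL K.T κ (lst m))) x x' := by
  have h1 := autK_famKer_sum
    (fun m : {m // m ∈ (killPoly (kk K J)).support} => killC K J m.1)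
    (fun m => φL pl L φ (lst m.1)) (fun m w => (pl_φL pl L hφ _ (hwt m.1 m.2) w).supp)
    (killκ K J κ) x x'
  refine h1.trans ?_
  exact Finset.sum_coe_sort (killPoly (kk K J)).support fun m => killC K J m *
    autK (tenK (φL pl L φ (lst m)) (κL K.T κ (lst m))) x x'

open Classical in
include hφ hwt in
/-- **The killing kernel has mean zero.** -/
theorem meanZero_kill (hA : 0 < A)
    (hL : ∀ w, ∑ j, (if pl j = w then L j else 0) = logv K.x w) :
    MeanZero F (autK (famKer (killΦ K pl L φ) (killκ K J κ))) := by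
  intro d N hN hb p x'
  have hd := mem_trans_of_basis hN hb
  obtain ⟨c, hc⟩ := integral_fd N hN
    (fun v => autK (famKer (killΦ K pl L φ) (killκ K J κ)) (trF v p, d) x')
  rw [hc]
  set Ψ : HF F × D → ℂ := fun x => ∑ m ∈ (killPoly (kk K J)).support, killC K J m *
    autK (tenK (φL pl L φ (lst m)) (κL K.T κ (lst m))) x x' with hΨ
  have h1 : (fun v => autK (famKer (killΦ K pl L φ) (killκ K J κ)) (trF v p, d) x') =
      fun v => Ψ (trF v p, d) := by
    funext v
    exact autK_kill K pl L hφ κ hwt (trF v p, d) x'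
  have hg : ∀ m ∈ (killPoly (kk K J)).support,
      Good fun x => autK (tenK (φL pl L φ (lst m)) (κL K.T κ (lst m))) x x' :=
    fun m hm => good_l K pl L hφ κ x' _ (hwt m hm)
  have hG : Good Ψ := Good.finsum _ hg _
  have h2 : Fou.mn N (fun v => Ψ (trF v p, d)) = 0 := by
    rw [← fc_zero hN (hG.per p hd), hG.fc_eq, hΨ, ct_finsum _ hg]
    rw [show (∑ m ∈ (killPoly (kk K J)).support, killC K J m *
      ct (fun x => autK (tenK (φL pl L φ (lst m)) (κL K.T κ (lst m))) x x') d
        fun w => Real.log (p w).y) = 0 from ct_kill K pl L hφ κ x' hL hA hwt d _, mul_zero]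
  rw [h1, h2, mul_zero]

open Classical in
include hφ hwt in
/-- **The killing kernel is bounded.** -/
theorem bounded_kill (hA : 0 < A)
    (hL : ∀ w, ∑ j, (if pl j = w then L j else 0) = logv K.x w) :
    ∃ C : ℝ, ∀ x x' : HF F × D, ‖autK (famKer (killΦ K pl L φ) (killκ K J κ)) x x'‖ ≤ C :=
  exists_global_bound (contDiff_killΦ K pl L hφ hwt) (hasCompactSupport_killΦ K pl L hφ hwt)
    (meanZero_kill K pl L hφ κ hwt hA hL)

end Final

end Fermat.Agent.LT.Kill
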