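import Fermat.Agent.LT.Kill.Final
import Fermat.Agent.LT.Kill.Conv
import Fermat.Agent.LT.Op.Ent

set_option autoImplicit false

/-!
# The killing kernel in terms of product kernels, for both fields
-/

namespace Fermat.Agent.LT.Kill

open MeasureTheory Module NumberField Matrix
open Fermat.Agent.LT Fermat.Agent.LT.Sp Fermat.Agent.LT.Bd Fermat.Agent.LT.Op
open scoped MatrixGroups ContDiff

open Classical in
/-- the invariant kernel of a function of the distance -/
noncomputable def mkI (k : ℝ → ℝ) : IKer :=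
  if h : Continuous k ∧ HasCompactSupport k then H3.kerOf h.1 h.2 else
    H3.kerOf (k := fun _ => 0) continuous_const HasCompactSupport.zero

theorem mkI_k {k : ℝ → ℝ} (hk : Continuous k) (hs : HasCompactSupport k) (p p' : H3) :
    (mkI k).k p p' = k (H3.cd p p') := by
  rw [mkI, dif_pos ⟨hk, hs⟩, H3.kerOf_k]

theorem mkI_eq {k : ℝ → ℝ} (hk : Continuous k) (hs : HasCompactSupport k) :
    mkI k = H3.kerOf hk hs := by
  rw [mkI, dif_pos ⟨hk, hs⟩]

theorem ab_mkI {k : ℝ → ℝ} (hk : Continuous k) (hs : HasCompactSupport k) (u : ℝ) :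
    ab (mkI k) u = H3.abelT k u := by
  rw [mkI_eq hk hs, ab_of_fun]

theorem sh_mkI {A L : ℝ} {k : ℝ → ℝ} (hk : Pl A k) (hL : |L| < A) :
    Sh L (mkI k) (mkI (CL L k)) := by
  intro u
  rw [ab_mkI (hk.CL hL).smooth.continuous (hk.CL hL).supp,
    ab_mkI hk.smooth.continuous hk.supp, ab_mkI hk.smooth.continuous hk.supp, abelT_CL hk hL]

/-- triple compositions -/
noncomputable def comp3 (κ : Fin 3 → IKer) : IKer :=
  IKer.comp (κ 0) (IKer.comp (κ 1) (κ 2))

theorem sh_comp3 {L : ℝ} {κ κ' : Fin 3 → IKer} (i : Fin 3) (h : Sh L (κ i) (κ' i))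
    (h' : ∀ j, j ≠ i → κ' j = κ j) : Sh L (comp3 κ) (comp3 κ') := by
  fin_cases i
  · have h1 : κ' 1 = κ 1 := h' 1 (by decide)
    have h2 : κ' 2 = κ 2 := h' 2 (by decide)
    rw [comp3, comp3, h1, h2]
    exact h.comp_left _
  · have h1 : κ' 0 = κ 0 := h' 0 (by decide)
    have h2 : κ' 2 = κ 2 := h' 2 (by decide)
    rw [comp3, comp3, h1, h2]
    exact (h.comp_left _).comp_right _
  · have h1 : κ' 0 = κ 0 := h' 0 (by decide)
    have h2 : κ' 1 = κ 1 := h' 1 (by decide)
    rw [comp3, comp3, h1, h2]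
    exact (h.comp_right _).comp_right _

section Shifts

variable {V J ι : Type*} {pl : J → V} {e : V → Fin 3 → J} (L : J → ℝ) {φ : J → ℝ → ℝ} {A : ℝ}

/-- **All the translations on the first factor.** -/
theorem ab_comp3_eq (he : ∀ v i, pl (e v i) = v) (hinj : ∀ v, Function.Injective (e v))
    (hsurj : ∀ j, ∃ i, e (pl j) i = j) (hφ : ∀ j, Pl A (φ j)) (l : List (ι ⊕ J))
    (hl : wt L l < A) (v : V) (u : ℝ) :
    ab (comp3 fun i => mkI (φL id L φ l (e v i))) u =
      ab (comp3 ![mkI (φL pl L (fun v => φ (e v 0)) l v), mkI (φ (e v 1)), mkI (φ (e v 2))]) u := by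
  induction l generalizing v u with
  | nil => rfl
  | cons x l ih =>
    cases x with
    | inl i => exact ih hl v u
    | inr j =>
      have h0 := abs_nonneg (L j)
      have hlt : wt L l + |L j| < A := hl
      have hl' : wt L l < A := by linarith
      have hL : |L j| < A - wt L l := by linarith
      by_cases hv : v = pl j
      · subst hv
        obtain ⟨i, hi⟩ := hsurj j
        have s1 : Sh (L j) (comp3 fun i => mkI (φL id L φ l (e (pl j) i)))
            (comp3 fun i => mkI (φL id L φ (Sum.inr j :: l) (e (pl j) i))) := by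
          refine sh_comp3 i ?_ fun i' hi' => ?_
          · simp only [φL, id, hi, if_true]
            exact sh_mkI (pl_φL id L hφ l hl' j) hL
          · have hne : e (pl j) i' ≠ j := fun h => hi' (hinj _ (h.trans hi.symm))
            simp only [φL, id, if_neg hne]
        have s2 : Sh (L j) (comp3 ![mkI (φL pl L (fun v => φ (e v 0)) l (pl j)),
              mkI (φ (e (pl j) 1)), mkI (φ (e (pl j) 2))])
            (comp3 ![mkI (φL pl L (fun v => φ (e v 0)) (Sum.inr j :: l) (pl j)),
              mkI (φ (e (pl j) 1)), mkI (φ (e (pl j) 2))]) := by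
          refine sh_comp3 0 ?_ fun i' hi' => ?_
          · simp only [φL, Matrix.cons_val_zero, if_true]
            exact sh_mkI (pl_φL pl L (fun v => hφ (e v 0)) l hl' (pl j)) hL
          · fin_cases i'
            · exact absurd rfl hi'
            · rfl
            · rfl
        exact s1.congr s2 (fun u => ih hl' (pl j) u) u
      · have h1 : ∀ i, φL id L φ (Sum.inr j :: l : List (ι ⊕ J)) (e v i) = φL id L φ l (e v i) := by
          intro i
          have hne : e v i ≠ j := fun h => hv (by rw [← h, he])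
          simp only [φL, id, if_neg hne]
        have h2 : φL pl L (fun v => φ (e v 0)) (Sum.inr j :: l : List (ι ⊕ J)) v =
            φL pl L (fun v => φ (e v 0)) l v := by
          simp only [φL, if_neg hv]
        simp_rw [h1, h2]
        exact ih hl' v u

theorem k_comp3_eq (he : ∀ v i, pl (e v i) = v) (hinj : ∀ v, Function.Injective (e v))
    (hsurj : ∀ j, ∃ i, e (pl j) i = j) (hφ : ∀ j, Pl A (φ j)) (l : List (ι ⊕ J))
    (hl : wt L l < A) (v : V) (p p' : H3) :
    (comp3 fun i => mkI (φL id L φ l (e v i))).k p p' =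
      (IKer.comp (IKer.comp (mkI (φ (e v 1))) (mkI (φ (e v 2))))
        (mkI (φL pl L (fun v => φ (e v 0)) l v))).k p p' := by
  rw [k_eq_of_ab (ab_comp3_eq L he hinj hsurj hφ l hl v), comp3, IKer.comp_comm_k]
  rfl

end Shifts

section PK

variable {F : Type*} [Field F] [NumberField F] {D : Type*} [MulAction (GL (Fin 2) F) D]

theorem pk_mkI {φ : InfinitePlace F → ℝ → ℝ} (hφ : ∀ w, Continuous (φ w))
    (hs : ∀ w, HasCompactSupport (φ w)) (κ : DKer F D) (x y : HF F × D) :
    pk (fun w => mkI (φ w)) κ x y = tenK φ κ x y := by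
  rw [pk_apply, tenK, prodΦ, archK]
  congr 1
  push_cast
  refine Finset.prod_congr rfl fun w _ => ?_
  rw [mkI_k (hφ w) (hs w)]
  rfl

theorem one_comp (κ : DKer F D) : (DKer.one F D).comp κ = κ := by
  ext d d'
  rw [DKer.comp_κ]
  rw [finsum_eq_single _ d]
  · have : (DKer.one F D).κ d d = 1 := if_pos rfl
    rw [this, one_mul]
  · intro e he
    have : (DKer.one F D).κ d e = 0 := if_neg fun h => he h.symm
    rw [this, zero_mul]

theorem pk_congr_arch {κs κs' : InfinitePlace F → IKer}
    (h : ∀ w p p', (κs w).k p p' = (κs' w).k p p') (κf : DKer F D) (x y : HF F × D) :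
    pk κs κf x y = pk κs' κf x y := by
  rw [pk_apply, pk_apply, archK, archK]
  simp_rw [h]

end PK

section Main

variable {F D H Q ι J : Type*} [Field F] [NumberField F] [MulAction (GL (Fin 2) F) D]
  [CommGroup H] [MulAction H Q] [Fintype ι] [Fintype J] [DecidableEq ι] [DecidableEq J]
  [FinPart F D] [IsTotallyComplex F]

/-- **The killing kernel is bounded** (product form). -/
theorem bounded_kill_pk (K : KillRel F D H Q ι) (pl : J → InfinitePlace F) (L : J → ℝ)
    {φ : InfinitePlace F → ℝ → ℝ} {A : ℝ} (hφ : ∀ w, Pl A (φ w)) (κ : DKer F D)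
    (hwt : ∀ m ∈ (killPoly (kk K J)).support, wt L (lst m) < A) (hA : 0 < A)
    (hL : ∀ w, (∑ j, open scoped Classical in if pl j = w then L j else 0) = logv K.x w) :
    ∃ C : ℝ, ∀ x y : HF F × D, ‖FA.perK PGL(2, F) (fun x y =>
      ∑ m : {m // m ∈ (killPoly (kk K J)).support}, killC K J m.1 *
        pk (fun w => mkI (φL pl L φ (lst m.1) w)) (killκ K J κ m) x y) x y‖ ≤ C := by
  obtain ⟨C, hC⟩ := bounded_kill K pl L hφ κ hwt hA hL
  refine ⟨C, fun x y => ?_⟩
  refine le_trans (le_of_eq ?_) (hC x y)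
  congr 1
  rw [FA.perK, autK]
  refine tsum_congr fun g => ?_
  rw [famKer]
  refine Finset.sum_congr rfl fun m _ => ?_
  rw [pk_mkI (fun w => (pl_φL pl L hφ _ (hwt m.1 m.2) w).smooth.continuous)
    (fun w => (pl_φL pl L hφ _ (hwt m.1 m.2) w).supp), tenK, killΦ]
  ring

variable [MeasurableSpace D] [DiscreteMeasurableSpace D] [Countable D]

/-- linear combinations of a finite family of kernels -/
theorem lk_fin {I Y : Type*} [Fintype I] (k : I → Y → Y → ℂ) (c : I → ℂ) (x y : Y) :
    Spec.lk k (Finsupp.equivFunOnFinite.symm c) x y = ∑ i, c i * k i x y := by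
  rw [Spec.lk, Finsupp.sum_fintype _ _ fun i => zero_mul _]
  rfl

/-- linear combinations given by a list of symbols -/
theorem lk_sum_single {I Y MP : Type*} [Fintype I] (k : MP → Y → Y → ℂ) (p : I → MP) (c : I → ℂ)
    (x y : Y) : Spec.lk k (∑ i, Finsupp.single (p i) (c i)) x y = ∑ i, c i * k (p i) x y := by
  classical
  have h : ∀ X : MP →₀ ℂ, Spec.lk k X x y =
      Finsupp.linearCombination ℂ (fun p => k p x y) X := fun X => by
    rw [Finsupp.linearCombination_apply]
    rfl
  rw [h, map_sum]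
  refine Finset.sum_congr rfl fun i _ => ?_
  rw [Finsupp.linearCombination_single, smul_eq_mul]

/-- left composition of a bounded family with an archimedean kernel -/
theorem bdd_left {I : Type*} [Fintype I] (ρ : InfinitePlace F → IKer) (c : I → ℂ)
    (κs : I → InfinitePlace F → IKer) (κf : I → DKer F D)
    (h : ∃ C : ℝ, ∀ x y : HF F × D, ‖FA.perK PGL(2, F)
      (fun x y => ∑ i, c i * pk (κs i) (κf i) x y) x y‖ ≤ C) :
    ∃ C : ℝ, ∀ x y : HF F × D, ‖FA.perK PGL(2, F)
      (fun x y => ∑ i, c i * pk (fun w => IKer.comp (ρ w) (κs i w)) (κf i) x y) x y‖ ≤ C := by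
  set X : I →₀ ℂ := Finsupp.equivFunOnFinite.symm c with hX
  have hm : ∀ i, Measurable (Function.uncurry (pk (κs i) (κf i))) := fun i => measurable_pk _ _
  have hn : ∀ i, Spec.NK (pk (κs i) (κf i)) := fun i => nk_pk _ _
  have e1 : (fun x y => ∑ i, c i * pk (κs i) (κf i) x y) =
      Spec.lk (fun i => pk (κs i) (κf i)) X := by
    funext x y
    rw [hX, lk_fin]
  have e2 : (fun x y => ∑ i, c i * pk (fun w => IKer.comp (ρ w) (κs i w)) (κf i) x y) =
      Spec.lcmp (isFK_pk ρ (DKer.one F D)).cor (Spec.lk (fun i => pk (κs i) (κf i)) X) := by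
    funext x y
    rw [Spec.lcmp_lk hm hn, Finsupp.sum_fintype _ _ fun i => zero_mul _]
    refine Finset.sum_congr rfl fun i _ => ?_
    rw [lcmp_pk, one_comp]
    rfl
  rw [e1] at h
  rw [e2]
  exact Spec.perK_lcmp_bdd (entC_pk ρ (DKer.one F D)) (Spec.measurable_lk hm X)
    (Spec.NK.lk hn X) h

/-- **The killing kernel is bounded** (for the field `k`; the archimedean components are triple
compositions of the components of the killing kernel for the cubic extension). -/
theorem bounded_kside (K : KillRel F D H Q ι) {pl : J → InfinitePlace F}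
    {e : InfinitePlace F → Fin 3 → J} (he : ∀ v i, pl (e v i) = v)
    (hinj : ∀ v, Function.Injective (e v)) (hsurj : ∀ j, ∃ i, e (pl j) i = j) (L : J → ℝ)
    {φ : J → ℝ → ℝ} {A : ℝ} (hφ : ∀ j, Pl A (φ j)) (κ : DKer F D)
    (hwt : ∀ m ∈ (killPoly (kk K J)).support, wt L (lst m) < A) (hA : 0 < A)
    (hL : ∀ v, ∑ i, L (e v i) = logv K.x v)
    (κs : {m // m ∈ (killPoly (kk K J)).support} → InfinitePlace F → IKer)
    (hκs : ∀ m v p p', (κs m v).k p p' =
      (comp3 fun i => mkI (φL id L φ (lst m.1) (e v i))).k p p') :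
    ∃ C : ℝ, ∀ x y : HF F × D, ‖FA.perK PGL(2, F) (fun x y =>
      ∑ m : {m // m ∈ (killPoly (kk K J)).support}, killC K J m.1 *
        pk (κs m) (killκ K J κ m) x y) x y‖ ≤ C := by
  classical
  have hL' : ∀ w, (∑ j, open scoped Classical in if pl j = w then L j else 0) = logv K.x w := by
    intro w
    rw [← hL w, ← Finset.sum_filter]
    have : Finset.univ.filter (fun j => pl j = w) = Finset.univ.map ⟨e w, hinj w⟩ := by
      ext j
      simp only [Finset.mem_filter, Finset.mem_univ, true_and, Finset.mem_map,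
        Function.Embedding.coeFn_mk]
      constructor
      · rintro rfl
        exact hsurj j
      · rintro ⟨i, rfl⟩
        exact he w i
    rw [this, Finset.sum_map]
    rfl
  have h1 := bounded_kill_pk K pl L (φ := fun v => φ (e v 0)) (fun v => hφ (e v 0)) κ hwt hA hL'
  have h2 := bdd_left (fun v => IKer.comp (mkI (φ (e v 1))) (mkI (φ (e v 2))))
    (fun m : {m // m ∈ (killPoly (kk K J)).support} => killC K J m.1)
    (fun m w => mkI (φL pl L (fun v => φ (e v 0)) (lst m.1) w)) (killκ K J κ) h1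
  obtain ⟨C, hC⟩ := h2
  refine ⟨C, fun x y => ?_⟩
  refine le_trans (le_of_eq ?_) (hC x y)
  congr 2
  funext x y
  refine Finset.sum_congr rfl fun m _ => ?_
  congr 1
  refine pk_congr_arch (fun v p p' => ?_) _ _ _
  rw [hκs, k_comp3_eq L he hinj hsurj hφ (lst m.1) (hwt m.1 m.2)]

end Main

end Fermat.Agent.LT.Kill
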