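import Fermat.Agent.LT.Kill.Recur
import Fermat.Agent.LT.Kill.Alg

set_option autoImplicit false

/-!
# The killing kernel has mean zero along the unipotent directions
-/

namespace Fermat.Agent.LT.Kill

open MeasureTheory Module NumberField Matrix
open Fermat.Agent.LT Fermat.Agent.LT.Sp Fermat.Agent.LT.Bd
open scoped MatrixGroups ContDiff

section Families

variable {W : Type*} {ι J : Type*}

/-- the total translation -/
noncomputable def wt (L : J → ℝ) : List (ι ⊕ J) → ℝ
  | [] => 0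
  | Sum.inl _ :: l => wt L l
  | Sum.inr j :: l => wt L l + |L j|

theorem wt_nonneg (L : J → ℝ) (l : List (ι ⊕ J)) : 0 ≤ wt L l := by
  induction l with
  | nil => exact le_rfl
  | cons v l ih =>
    cases v with
    | inl i => exact ih
    | inr j => exact add_nonneg ih (abs_nonneg _)

open Classical in
/-- the test functions -/
noncomputable def φL (pl : J → W) (L : J → ℝ) (φ : W → ℝ → ℝ) : List (ι ⊕ J) → W → ℝ → ℝ
  | [] => φ
  | Sum.inl _ :: l => φL pl L φ l
  | Sum.inr j :: l => fun w => if w = pl j then CL (L j) (φL pl L φ l w) else φL pl L φ l w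

theorem Pl.mono {A A' : ℝ} {k : ℝ → ℝ} (h : Pl A k) (h0 : 0 ≤ A') (hA : A' ≤ A) : Pl A' k :=
  ⟨h.smooth, h.supp, fun s hs => h.zero s (hs.trans (by
    rw [Real.cosh_le_cosh, abs_of_nonneg h0, abs_of_nonneg (h0.trans hA)]
    exact hA))⟩

theorem pl_φL {A : ℝ} (pl : J → W) (L : J → ℝ) {φ : W → ℝ → ℝ} (hφ : ∀ w, Pl A (φ w))
    (l : List (ι ⊕ J)) (hl : wt L l < A) (w : W) : Pl (A - wt L l) (φL pl L φ l w) := by
  induction l generalizing w with
  | nil =>
    simp only [wt, sub_zero]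
    exact hφ w
  | cons v l ih =>
    cases v with
    | inl i => exact ih hl w
    | inr j =>
      have h1 : wt L l + |L j| < A := hl
      have h0 := abs_nonneg (L j)
      have h2 := ih (by linarith) w
      simp only [wt, φL]
      rw [← sub_sub]
      split_ifs with h
      · exact h2.CL (by linarith)
      · exact h2.mono (by linarith) (by linarith)

variable {F : Type*} [Field F] [NumberField F] {D : Type*} [MulAction (GL (Fin 2) F) D]

/-- the Hecke kernels -/
noncomputable def κL (T : ι → DKer F D) (κ : DKer F D) : List (ι ⊕ J) → DKer F D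
  | [] => κ
  | Sum.inl i :: l => (T i).comp (κL T κ l)
  | Sum.inr _ :: l => κL T κ l

end Families

section Kill

variable {F D H Q ι J : Type*} [Field F] [NumberField F] [MulAction (GL (Fin 2) F) D]
  [CommGroup H] [MulAction H Q] [Fintype ι]

/-- the scalars -/
noncomputable def sc (K : KillRel F D H Q ι) : ι ⊕ J → ℂ
  | Sum.inl i => ((√(K.q i : ℝ) : ℝ) : ℂ)⁻¹
  | Sum.inr _ => 1

/-- the units of the group algebra -/
noncomputable def xx (K : KillRel F D H Q ι) (pl : J → InfinitePlace F) (L : J → ℝ) :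
    ι ⊕ J → (MonoidAlgebra ℂ (H × Multiplicative (InfinitePlace F → ℝ)))ˣ
  | Sum.inl i => unt (K.t i, 1) ((√(K.q i : ℝ) : ℝ) : ℂ) (by
      have := Real.sqrt_pos.mpr (Nat.cast_pos (α := ℝ).mpr (K.q_pos i))
      exact_mod_cast this.ne')
  | Sum.inr j => by
      classical
      exact unt (1, Multiplicative.ofAdd (Pi.single (pl j) (L j))) 1 one_ne_zero

variable [FinPart F D] [IsTotallyComplex F]

/-- the constant terms of the kernels of the family -/
noncomputable def cc (K : KillRel F D H Q ι) (pl : J → InfinitePlace F) (L : J → ℝ)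
    (φ : InfinitePlace F → ℝ → ℝ) (κ : DKer F D) (x' : HF F × D) (l : List (ι ⊕ J)) :
    Q × (InfinitePlace F → ℝ) → ℂ := fun z =>
  ct (fun x => autK (tenK (φL pl L φ l) (κL K.T κ l)) x x') (Function.surjInv K.pr_surj z.1) z.2

variable (K : KillRel F D H Q ι) (pl : J → InfinitePlace F) (L : J → ℝ)
  {φ : InfinitePlace F → ℝ → ℝ} {A : ℝ} (hφ : ∀ w, Pl A (φ w)) (κ : DKer F D) (x' : HF F × D)

include hφ in
theorem good_l (l : List (ι ⊕ J)) (hl : wt L l < A) :
    Good fun x => autK (tenK (φL pl L φ l) (κL K.T κ l)) x x' :=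
  good_tenK (fun w => (pl_φL pl L hφ l hl w).smooth) (fun w => (pl_φL pl L hφ l hl w).supp) _ x'

include hφ in
theorem cc_pr (l : List (ι ⊕ J)) (hl : wt L l < A) (d : D) (u : InfinitePlace F → ℝ) :
    cc K pl L φ κ x' l (K.pr d, u) =
      ct (fun x => autK (tenK (φL pl L φ l) (κL K.T κ l)) x x') d u := by
  have h1 : K.pr (Function.surjInv K.pr_surj (K.pr d)) = K.pr d := Function.surjInv_eq _ _
  obtain ⟨t, ht⟩ := K.pr_eq _ _ h1
  show ct _ (Function.surjInv K.pr_surj (K.pr d)) u = _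
  generalize Function.surjInv K.pr_surj (K.pr d) = e at ht
  rw [ht, (good_l K pl L hφ κ x' l hl).ct_nMat]

include hφ in
theorem cc_inl (i : ι) (l : List (ι ⊕ J)) (hl : wt L l < A) (z : Q × (InfinitePlace F → ℝ)) :
    cc K pl L φ κ x' (Sum.inl i :: l) z = K.q i * cc K pl L φ κ x' l (K.t i • z.1, z.2) +
      cc K pl L φ κ x' l ((K.t i)⁻¹ • z.1, z.2) := by
  obtain ⟨δ, u⟩ := z
  obtain ⟨d, rfl⟩ := K.pr_surj δ
  have hl' : wt L (Sum.inl i :: l : List (ι ⊕ J)) < A := hl
  rw [cc_pr K pl L hφ κ x' _ hl' d u]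
  have hg := good_l K pl L hφ κ x' l hl
  have h1 := ct_hecke (K.T i) hg
    (Ψ' := fun x => autK (tenK (φL pl L φ (Sum.inl i :: l)) (κL K.T κ (Sum.inl i :: l))) x x')
    (fun p d => autK_tenK_comp (fun w => (pl_φL pl L hφ l hl w).supp) (K.T i) (κL K.T κ l) p d x')
    d u
  rw [h1]
  have h2 := K.sum_T i (fun δ => cc K pl L φ κ x' l (δ, u)) d
  simp only [cc_pr K pl L hφ κ x' l hl] at h2
  exact h2

open Classical in
include hφ in
theorem cc_inr (j : J) (l : List (ι ⊕ J)) (hl : wt L (Sum.inr j :: l : List (ι ⊕ J)) < A)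
    (z : Q × (InfinitePlace F → ℝ)) :
    cc K pl L φ κ x' (Sum.inr j :: l) z =
      cc K pl L φ κ x' l (z.1, z.2 + Pi.single (pl j) (L j)) +
      cc K pl L φ κ x' l (z.1, z.2 - Pi.single (pl j) (L j)) := by
  have hl0 : wt L l < A := lt_of_le_of_lt (le_add_of_nonneg_right (abs_nonneg (L j))) hl
  have hl1 : |L j| < A - wt L l := by
    have h : wt L l + |L j| < A := hl
    linarith
  refine ct_shift (fun w => (pl_φL pl L hφ l hl0 w).smooth) (fun w => (pl_φL pl L hφ l hl0 w).supp)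
    (fun w => (pl_φL pl L hφ _ hl w).smooth) (fun w => (pl_φL pl L hφ _ hl w).supp) (pl j) (L j)
    (fun u => ?_) (fun w hw => ?_) _ _ _ _
  · simp only [φL, if_true]
    exact abelT_CL (pl_φL pl L hφ l hl0 (pl j)) hl1 u
  · simp only [φL, if_neg hw]

include hφ in
/-- one step in the group algebra -/
theorem cc_step (v : ι ⊕ J) (l : List (ι ⊕ J)) (hl : wt L (v :: l) < A) :
    rep H Q (InfinitePlace F → ℝ) ((xx K pl L v : MonoidAlgebra ℂ _) +
      (((xx K pl L v)⁻¹ : (MonoidAlgebra ℂ (H × Multiplicative (InfinitePlace F → ℝ)))ˣ) :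
        MonoidAlgebra ℂ (H × Multiplicative (InfinitePlace F → ℝ))))
      (cc K pl L φ κ x' l) = sc K v • cc K pl L φ κ x' (v :: l) := by
  classical
  funext z
  rw [map_add, LinearMap.add_apply, Pi.add_apply, Pi.smul_apply, smul_eq_mul]
  cases v with
  | inl i =>
    have hl' : wt L l < A := hl
    rw [cc_inl K pl L hφ κ x' i l hl' z]
    set s : ℂ := ((√(K.q i : ℝ) : ℝ) : ℂ) with hs
    have hs0 : s ≠ 0 := by
      have := Real.sqrt_pos.mpr (Nat.cast_pos (α := ℝ).mpr (K.q_pos i))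
      rw [hs]
      exact_mod_cast this.ne'
    have hq : (K.q i : ℂ) = s * s := by
      rw [hs, ← Complex.ofReal_mul, Real.mul_self_sqrt (Nat.cast_nonneg _), Complex.ofReal_natCast]
    have e1 : rep H Q (InfinitePlace F → ℝ) (xx K pl L (Sum.inl i) : MonoidAlgebra ℂ _)
        (cc K pl L φ κ x' l) z = s * cc K pl L φ κ x' l (K.t i • z.1, z.2) := by
      refine (rep_single (K.t i, (1 : Multiplicative (InfinitePlace F → ℝ))) s
        (cc K pl L φ κ x' l) z).trans ?_
      simp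
    have e2 : rep H Q (InfinitePlace F → ℝ) (((xx K pl L (Sum.inl i))⁻¹ :
        (MonoidAlgebra ℂ (H × Multiplicative (InfinitePlace F → ℝ)))ˣ) :
        MonoidAlgebra ℂ (H × Multiplicative (InfinitePlace F → ℝ)))
        (cc K pl L φ κ x' l) z = s⁻¹ * cc K pl L φ κ x' l ((K.t i)⁻¹ • z.1, z.2) := by
      refine (rep_single (K.t i, (1 : Multiplicative (InfinitePlace F → ℝ)))⁻¹ s⁻¹
        (cc K pl L φ κ x' l) z).trans ?_
      simp
    have e3 : sc K (Sum.inl i : ι ⊕ J) = s⁻¹ := rfl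
    rw [e1, e2, e3, hq]
    field_simp
  | inr j =>
    rw [cc_inr K pl L hφ κ x' j l hl z, sc, one_mul]
    have e1 : rep H Q (InfinitePlace F → ℝ) (xx K pl L (Sum.inr j) : MonoidAlgebra ℂ _)
        (cc K pl L φ κ x' l) z = cc K pl L φ κ x' l (z.1, z.2 + Pi.single (pl j) (L j)) := by
      refine (rep_single ((1 : H), Multiplicative.ofAdd
        (Pi.single (pl j) (L j) : InfinitePlace F → ℝ)) 1 (cc K pl L φ κ x' l) z).trans ?_
      simp
    have e2 : rep H Q (InfinitePlace F → ℝ) (((xx K pl L (Sum.inr j))⁻¹ :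
        (MonoidAlgebra ℂ (H × Multiplicative (InfinitePlace F → ℝ)))ˣ) :
        MonoidAlgebra ℂ (H × Multiplicative (InfinitePlace F → ℝ)))
        (cc K pl L φ κ x' l) z = cc K pl L φ κ x' l (z.1, z.2 - Pi.single (pl j) (L j)) := by
      refine (rep_single ((1 : H), Multiplicative.ofAdd
        (Pi.single (pl j) (L j) : InfinitePlace F → ℝ))⁻¹ (1 : ℂ)⁻¹
        (cc K pl L φ κ x' l) z).trans ?_
      simp [sub_eq_add_neg]
    rw [e1, e2]

/-- the exponents -/
def kk (K : KillRel F D H Q ι) (J : Type*) : ι ⊕ J → ℕ := Sum.elim K.k fun _ => 1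

omit [FinPart F D] in
/-- the product formula -/
theorem prod_sqrt : ∏ i, √(K.q i : ℝ) ^ K.k i =
    ∏ w : InfinitePlace F, ‖w.embedding (K.x : F)‖ := by
  have h1 : (∏ i, √(K.q i : ℝ) ^ K.k i) ^ 2 =
      (∏ w : InfinitePlace F, ‖w.embedding (K.x : F)‖) ^ 2 := by
    rw [← Finset.prod_pow, ← Finset.prod_pow, prod_sq_eq_norm, K.norm_eq]
    push_cast
    refine Finset.prod_congr rfl fun i _ => ?_
    rw [← pow_mul, mul_comm, pow_mul, Real.sq_sqrt (Nat.cast_nonneg _)]
  have h2 : 0 ≤ ∏ i, √(K.q i : ℝ) ^ K.k i :=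
    Finset.prod_nonneg fun i _ => pow_nonneg (Real.sqrt_nonneg _) _
  have h3 : 0 ≤ ∏ w : InfinitePlace F, ‖w.embedding (K.x : F)‖ :=
    Finset.prod_nonneg fun w _ => norm_nonneg _
  exact (pow_left_inj₀ h2 h3 two_ne_zero).mp h1

variable [Fintype J]

open Classical in
include hφ in
/-- the relation -/
theorem cc_rel (hA : 0 < A)
    (hL : ∀ w, ∑ j, (if pl j = w then L j else 0) = logv K.x w) :
    rep H Q (InfinitePlace F → ℝ) (∏ v, (xx K pl L v : MonoidAlgebra ℂ _) ^ kk K J v)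
      (cc K pl L φ κ x' []) = cc K pl L φ κ x' [] := by
  classical
  have h1 : ∀ i : ι, ((xx K pl L (Sum.inl i) : (MonoidAlgebra ℂ
      (H × Multiplicative (InfinitePlace F → ℝ)))ˣ) :
      MonoidAlgebra ℂ (H × Multiplicative (InfinitePlace F → ℝ))) ^ kk K J (Sum.inl i) =
      MonoidAlgebra.single ((K.t i, (1 : Multiplicative (InfinitePlace F → ℝ))) ^ K.k i)
        (((√(K.q i : ℝ) : ℝ) : ℂ) ^ K.k i) := fun i => MonoidAlgebra.single_pow _ _ _
  have h2 : ∀ j : J, ((xx K pl L (Sum.inr j) : (MonoidAlgebra ℂ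
      (H × Multiplicative (InfinitePlace F → ℝ)))ˣ) :
      MonoidAlgebra ℂ (H × Multiplicative (InfinitePlace F → ℝ))) ^ kk K J (Sum.inr j) =
      MonoidAlgebra.single ((1 : H), Multiplicative.ofAdd
        (Pi.single (pl j) (L j) : InfinitePlace F → ℝ)) 1 := fun j => pow_one _
  rw [Fintype.prod_sum_type, Finset.prod_congr rfl fun i _ => h1 i,
    Finset.prod_congr rfl fun j _ => h2 j, prod_single, prod_single,
    MonoidAlgebra.single_mul_single]
  funext z
  obtain ⟨δ, u⟩ := z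
  obtain ⟨d, rfl⟩ := K.pr_surj δ
  refine (rep_single _ _ _ _).trans ?_
  have e1 : ((∏ i, (K.t i, (1 : Multiplicative (InfinitePlace F → ℝ))) ^ K.k i) *
      ∏ j, ((1 : H), Multiplicative.ofAdd (Pi.single (pl j) (L j) : InfinitePlace F → ℝ))).1 =
      ∏ i, K.t i ^ K.k i := by
    rw [Prod.fst_mul, Prod.fst_prod, Prod.fst_prod]
    simp
  have e2 : Multiplicative.toAdd
      ((∏ i, (K.t i, (1 : Multiplicative (InfinitePlace F → ℝ))) ^ K.k i) *
      ∏ j, ((1 : H), Multiplicative.ofAdd (Pi.single (pl j) (L j) : InfinitePlace F → ℝ))).2 =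
      logv K.x := by
    rw [Prod.snd_mul, Prod.snd_prod, Prod.snd_prod]
    simp only [Prod.pow_snd, one_pow, Finset.prod_const_one, one_mul]
    rw [toAdd_prod]
    simp only [toAdd_ofAdd]
    funext w
    rw [← hL w, Finset.sum_apply]
    refine Finset.sum_congr rfl fun j _ => ?_
    rw [Pi.single_apply]
    simp only [eq_comm]
  rw [e1, e2]
  simp only [Finset.prod_const_one, mul_one]
  rw [K.rel d]
  have hl : wt L ([] : List (ι ⊕ J)) < A := hA
  rw [cc_pr K pl L hφ κ x' _ hl, cc_pr K pl L hφ κ x' _ hl]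
  have h3 := (good_l K pl L hφ κ x' [] hl).ct_aMat K.x d u
  rw [← h3]
  congr 1
  have h4 := prod_sqrt K
  have h5 : ((∏ i, √(K.q i : ℝ) ^ K.k i : ℝ) : ℂ) =
      ((∏ w : InfinitePlace F, ‖w.embedding (K.x : F)‖ : ℝ) : ℂ) := by rw [h4]
  push_cast at h5
  exact h5

variable [DecidableEq ι] [DecidableEq J]

open Classical in
include hφ in
/-- **The constant term of the killing kernel is zero.** -/
theorem ct_kill (hL : ∀ w, ∑ j, (if pl j = w then L j else 0) = logv K.x w) (hA : 0 < A)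
    (hwt : ∀ m ∈ (killPoly (kk K J)).support, wt L (lst m) < A) (d : D)
    (u : InfinitePlace F → ℝ) :
    ∑ m ∈ (killPoly (kk K J)).support,
      ((((killPoly (kk K J)).coeff m : ℤ) : ℂ) * ((lst m).map (sc K)).prod) *
        ct (fun x => autK (tenK (φL pl L φ (lst m)) (κL K.T κ (lst m))) x x') d u = 0 := by
  have h1 := kill_alg (rep H Q (InfinitePlace F → ℝ)) (kk K J) (xx K pl L) (sc K)
    (cc K pl L φ κ x') (fun l => wt L l < A) (fun v l h => ?_)
    (fun v l hl => cc_step K pl L hφ κ x' v l hl) hwt (cc_rel K pl L hφ κ x' hA hL)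
  · have h2 := congrFun h1 (K.pr d, u)
    rw [Finset.sum_apply, Pi.zero_apply] at h2
    rw [← h2]
    refine Finset.sum_congr rfl fun m hm => ?_
    rw [Pi.smul_apply, smul_eq_mul, cc_pr K pl L hφ κ x' _ (hwt m hm)]
  · cases v with
    | inl i => exact h
    | inr j => exact lt_of_le_of_lt (le_add_of_nonneg_right (abs_nonneg (L j))) h

end Kill

end Fermat.Agent.LT.Kill
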