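import Fermat.Agent.LT.Kill.CombV
import Fermat.Agent.LT.Kill.Eig
import Fermat.Agent.LT.Op.Eig

set_option autoImplicit false
set_option linter.unusedSectionVars false

/-!
# The killing operator of one field, and eigenvalues without representatives
-/

namespace Fermat.Agent.LT.Kill

open MeasureTheory Module NumberField Matrix MvPolynomial
open Fermat.Agent.LT Fermat.Agent.LT.Sp Fermat.Agent.LT.Bd Fermat.Agent.LT.Op
open Fermat.Agent.LT.Spec Fermat.Agent.LT.FA
open scoped MatrixGroups ContDiff ENNReal NNReal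

section KillOp

variable {F D H Q ι J : Type*} [Field F] [NumberField F] [MulAction (GL (Fin 2) F) D]
  [CommGroup H] [MulAction H Q] [Fintype ι] [Fintype J] [DecidableEq ι] [DecidableEq J]
  [FinPart F D] [IsTotallyComplex F]
  [MeasurableSpace D] [DiscreteMeasurableSpace D] [Countable D]
  {wf : HF F × D → ℝ≥0}

/-- **The killing operator** of a field. -/
noncomputable def killOpB (hw : IsWt PGL(2, F) (muY F D) wf) (K : KillRel F D H Q ι)
    (pl : J → InfinitePlace F) (L : J → ℝ) (φ : InfinitePlace F → ℝ → ℝ) (κ : DKer F D) :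
    HA PGL(2, F) (muY F D) →L[ℂ] HA PGL(2, F) (muY F D) :=
  ∑ m : {m // m ∈ (killPoly (kk K J)).support}, killC K J m.1 •
    opK hw (fun w => mkI (φL pl L φ (lst m.1) w)) (killκ K J κ m)

variable (hw : IsWt PGL(2, F) (muY F D) wf) (K : KillRel F D H Q ι)
  (pl : J → InfinitePlace F) (L : J → ℝ) {φ : InfinitePlace F → ℝ → ℝ} {A : ℝ}
  (hφ : ∀ w, Pl A (φ w)) (κ : DKer F D)
  (hwt : ∀ m ∈ (killPoly (kk K J)).support, wt L (lst m) < A)

include hφ hwt in
theorem famKer_kill_eq (x y : HF F × D) : famKer (killΦ K pl L φ) (killκ K J κ) x y =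
    ∑ m : {m // m ∈ (killPoly (kk K J)).support}, killC K J m.1 *
      pk (fun w => mkI (φL pl L φ (lst m.1) w)) (killκ K J κ m) x y := by
  rw [famKer]
  refine Finset.sum_congr rfl fun m _ => ?_
  rw [pk_mkI (fun w => (pl_φL pl L hφ _ (hwt m.1 m.2) w).smooth.continuous)
    (fun w => (pl_φL pl L hφ _ (hwt m.1 m.2) w).supp), tenK, killΦ]
  ring

include hφ hwt in
/-- the kernel of the killing operator -/
theorem kRep_killOpB : KRep (killOpB hw K pl L φ κ) (famKer (killΦ K pl L φ) (killκ K J κ)) := by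
  have h1 := KRep.sum hw (Finset.univ : Finset {m // m ∈ (killPoly (kk K J)).support})
    (A := fun m => killC K J m.1 •
      opK hw (fun w => mkI (φL pl L φ (lst m.1) w)) (killκ K J κ m))
    (k := fun m x y => killC K J m.1 *
      pk (fun w => mkI (φL pl L φ (lst m.1) w)) (killκ K J κ m) x y)
    fun m _ => (kRep_opK hw _ _).smul hw (killC K J m.1)
  have e : famKer (killΦ K pl L φ) (killκ K J κ) = fun x y =>
      ∑ m : {m // m ∈ (killPoly (kk K J)).support}, killC K J m.1 *
        pk (fun w => mkI (φL pl L φ (lst m.1) w)) (killκ K J κ m) x y := by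
    funext x y
    exact famKer_kill_eq K pl L hφ κ hwt x y
  rw [e]
  exact h1

variable [IsFiniteMeasure (wtM (muY F D) wf)]

/-- Hecke eigenvalues of the products -/
theorem opD_κL {f : HA PGL(2, F) (muY F D)} {μ : ι → ℂ}
    (hT : ∀ i, opD hw (K.T i) f = μ i • f) (hκ : opD hw κ f = f) (l : List (ι ⊕ J)) :
    opD hw (κL K.T κ l) f = (l.map (Sum.elim μ fun _ => 1)).prod • f := by
  induction l with
  | nil =>
    rw [List.map_nil, List.prod_nil, one_smul]
    exact hκ
  | cons v l ih =>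
    cases v with
    | inl i =>
      rw [List.map_cons, List.prod_cons, Sum.elim_inl]
      show opD hw ((K.T i).comp (κL K.T κ l)) f = _
      rw [← opD_mul]
      show opD hw (K.T i) (opD hw (κL K.T κ l) f) = _
      rw [ih, map_smul, hT, smul_smul, mul_comm]
    | inr j =>
      rw [List.map_cons, List.prod_cons, Sum.elim_inr, one_mul]
      exact ih

include hφ hwt in
/-- **The eigenvalue of the killing operator** (no representative). -/
theorem killOpB_eig {f : HA PGL(2, F) (muY F D)} {μ : ι → ℂ}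
    (hR : ∀ (j : InfinitePlace F) (k : ℝ → ℝ) (hk : ContDiff ℝ ∞ k) (hs : HasCompactSupport k),
      opA hw j (H3.kerOf hk.continuous hs) f = (H3.khat k : ℂ) • f)
    (hT : ∀ i, opD hw (K.T i) f = μ i • f) (hκ : opD hw κ f = f) :
    killOpB hw K pl L φ κ f = ((∏ w, ((H3.khat (φ w) : ℝ) : ℂ)) * eigC K J μ) • f := by
  have e1 : ∀ m : {m // m ∈ (killPoly (kk K J)).support}, (killC K J m.1 •
      opK hw (fun w => mkI (φL pl L φ (lst m.1) w)) (killκ K J κ m)) f =
      (killC K J m.1 * ((∏ w, ((H3.khat (φL pl L φ (lst m.1) w) : ℝ) : ℂ)) *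
        ((lst m.1).map (Sum.elim μ fun _ => 1)).prod)) • f := by
    intro m
    have h1 := opK_eigen hw (κs := fun w => mkI (φL pl L φ (lst m.1) w))
      (s := fun w => ((H3.khat (φL pl L φ (lst m.1) w) : ℝ) : ℂ))
      (fun w => by
        have hp := pl_φL pl L hφ (lst m.1) (hwt m.1 m.2) w
        rw [mkI_eq hp.smooth.continuous hp.supp]
        exact hR w _ hp.smooth hp.supp) (opD_κL hw K κ hT hκ (lst m.1))
    rw [_root_.smul_apply]
    refine (congrArg (fun z => killC K J m.1 • z) h1).trans ?_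
    rw [smul_smul]
  rw [killOpB, _root_.sum_apply, Finset.sum_congr rfl fun m _ => e1 m, ← Finset.sum_smul,
    ← eig_sum K pl L hφ hwt μ]
  congr 1
  exact Finset.sum_coe_sort (killPoly (kk K J)).support fun m => killC K J m *
    ((∏ w, ((H3.khat (φL pl L φ (lst m) w) : ℝ) : ℂ)) *
      ((lst m).map (Sum.elim μ fun _ => 1)).prod)

/-- **Existence of the killing operator**, in the form used by the regularity theorem. -/
theorem exists_killOpB [DecidableEq (InfinitePlace F)] {μ : ι → ℂ}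
    (hμ : eigC K (InfinitePlace F) μ ≠ 0) :
    ∃ (Φ : {m // m ∈ (killPoly (kk K (InfinitePlace F))).support} →
        (InfinitePlace F → ℝ) → ℂ)
      (κ : {m // m ∈ (killPoly (kk K (InfinitePlace F))).support} → DKer F D)
      (T : HA PGL(2, F) (muY F D) →L[ℂ] HA PGL(2, F) (muY F D)) (a : ℂ),
      (∀ i, ContDiff ℝ ∞ (Φ i)) ∧ (∀ i, HasCompactSupport (Φ i)) ∧
      MeanZero F (autK (famKer Φ κ)) ∧ KRep T (famKer Φ κ) ∧ a ≠ 0 ∧
      ∀ f : HA PGL(2, F) (muY F D),
        (∀ (j : InfinitePlace F) (k : ℝ → ℝ) (hk : ContDiff ℝ ∞ k) (hs : HasCompactSupport k),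
          opA hw j (H3.kerOf hk.continuous hs) f = (H3.khat k : ℂ) • f) →
        (∀ i, opD hw (K.T i) f = μ i • f) → T f = a • f := by
  obtain ⟨A, hA, hwt⟩ := exists_wt (logv K.x) (killPoly (kk K (InfinitePlace F))).support
  obtain ⟨k, hk, -, hk0⟩ := exists_pl A
  have hφ : ∀ w : InfinitePlace F, Pl A ((fun _ => k : InfinitePlace F → ℝ → ℝ) w) :=
    fun _ => hk
  refine ⟨killΦ K id (logv K.x) fun _ => k, killκ K (InfinitePlace F) (DKer.one F D),
    killOpB hw K id (logv K.x) (fun _ => k) (DKer.one F D),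
    (∏ _w : InfinitePlace F, ((H3.khat k : ℝ) : ℂ)) * eigC K (InfinitePlace F) μ,
    contDiff_killΦ K id _ hφ hwt, hasCompactSupport_killΦ K id _ hφ hwt,
    meanZero_kill K id _ hφ (DKer.one F D) hwt hA fun w => ?_,
    kRep_killOpB hw K id _ hφ (DKer.one F D) hwt, mul_ne_zero ?_ hμ, fun f hR hT => ?_⟩
  · rw [Finset.sum_eq_single w]
    · exact if_pos rfl
    · intro j _ hj
      exact if_neg hj
    · intro h
      exact absurd (Finset.mem_univ w) h
  · rw [Finset.prod_ne_zero_iff]
    intro w _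
    exact_mod_cast hk0.ne'
  · refine killOpB_eig hw K id _ hφ (DKer.one F D) hwt hR hT ?_
    rw [opD_one]
    rfl

end KillOp

section Val

variable {S ι : Type*} [Monoid S] [Fintype ι] [DecidableEq ι]
  {F D : Type*} [Field F] [NumberField F] [MulAction (GL (Fin 2) F) D]
  [FinPart F D] [IsTotallyComplex F]
  [MeasurableSpace D] [DiscreteMeasurableSpace D] [Countable D]
  {T : ι → S} {wf : HF F × D → ℝ≥0} [IsFiniteMeasure (wtM (muY F D) wf)]

/-- **the eigenvalue of the killing operator on arbitrary joint eigenvectors** -/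
theorem comb_eigen' [DecidableEq (InfinitePlace F)] (hw : IsWt PGL(2, F) (muY F D) wf)
    (SF : FSym F D ((InfinitePlace F → IKer) × S)) (harch : ∀ p, SF.arch p = p.1)
    (mm : S → DKer F D) (hm : ∀ p, SF.m p = mm p.2) (h1 : mm 1 = DKer.one F D)
    (hmul : ∀ a b, mm (a * b) = (mm a).comp (mm b))
    {f : HA PGL(2, F) (muY F D)}
    (hA : ∀ (w : InfinitePlace F) (k : ℝ → ℝ) (hk : ContDiff ℝ ∞ k) (hs : HasCompactSupport k),
      opA hw w (H3.kerOf hk.continuous hs) f = (H3.khat k : ℂ) • f)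
    (c q : ι → ℕ) (hq : ∀ i, 0 < q i) {lam : ι → ℝ}
    (hT : ∀ i, opD hw (mm (T i)) f = ((√(q i : ℝ) * lam i : ℝ) : ℂ) • f)
    {L : InfinitePlace F → ℝ} {φ : InfinitePlace F → ℝ → ℝ} {A : ℝ} (hφ : ∀ w, Pl A (φ w))
    (hwt : ∀ m ∈ (kp c (InfinitePlace F)).support, wt L (lst m) < A) :
    lcO (SF.O hw) (comb c q L φ T) f =
      ((aeval (Sum.elim lam fun _ => (2 : ℝ)) (kp c (InfinitePlace F)) *
        ∏ w, H3.khat (φ w) : ℝ) : ℂ) • f := by
  rw [lcO_comb]
  have e1 : ∀ m : {m // m ∈ (kp c (InfinitePlace F)).support},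
      (((coefC c q (InfinitePlace F) m.1 : ℝ) : ℂ) •
        SF.O hw ((fun w => mkI (φL id L φ (lst m.1) w)), symL T (lst m.1))) f =
      (((((kp c (InfinitePlace F)).coeff m.1 : ℤ) : ℝ) *
        (∏ v, (Sum.elim lam (fun _ => (2 : ℝ)) v) ^ m.1 v) * ∏ w, H3.khat (φ w) : ℝ) : ℂ) •
        f := by
    intro m
    have e2 := opK_eigen hw (κs := fun w => mkI (φL id L φ (lst m.1) w))
      (s := fun w => ((H3.khat (φL id L φ (lst m.1) w) : ℝ) : ℂ)) (fun w => by
        have hp := pl_φL id L hφ (lst m.1) (hwt m.1 m.2) w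
        rw [mkI_eq hp.smooth.continuous hp.supp]
        exact hA w _ hp.smooth hp.supp)
      (opD_symL (J := InfinitePlace F) hw mm h1 hmul hT (lst m.1))
    rw [_root_.smul_apply, FSym.O, harch, hm]
    refine (congrArg (fun z => ((coefC c q (InfinitePlace F) m.1 : ℝ) : ℂ) • z) e2).trans ?_
    rw [smul_smul, ← Complex.ofReal_prod, ← Complex.ofReal_mul, ← Complex.ofReal_mul,
      prod_khat_φL hφ (lst m.1) (hwt m.1 m.2)]
    congr 2
    rw [coefC, ← prod_map_lst]
    have e3 : ((lst m.1).map (Sum.elim lam fun _ => (2 : ℝ))).prod =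
        ((lst m.1).map (scq q (InfinitePlace F))).prod *
        (((lst m.1).map (Sum.elim (fun _ => (1 : ℝ)) fun _ => 2)).prod *
        ((lst m.1).map (Sum.elim (fun i => √(q i : ℝ) * lam i) fun _ => 1)).prod) := by
      rw [← List.prod_map_mul, ← List.prod_map_mul]
      congr 1
      refine List.map_congr_left fun v _ => ?_
      cases v with
      | inl i =>
        have := Real.sqrt_pos.2 (Nat.cast_pos (α := ℝ).2 (hq i))
        simp only [Sum.elim_inl, scq]
        field_simp
      | inr j => simp [scq]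
    rw [e3]
    ring
  rw [_root_.sum_apply, Finset.sum_congr rfl fun m _ => e1 m, ← Finset.sum_smul,
    ← Complex.ofReal_sum]
  congr 2
  rw [← Finset.sum_mul]
  congr 1
  rw [aeval_def, eval₂_eq']
  rw [Finset.sum_coe_sort (kp c (InfinitePlace F)).support fun m =>
    (((kp c (InfinitePlace F)).coeff m : ℤ) : ℝ) *
      ∏ v, (Sum.elim lam (fun _ => (2 : ℝ)) v) ^ m v]
  refine Finset.sum_congr rfl fun m _ => ?_
  rw [algebraMap_int_eq, eq_intCast]

end Val

end Fermat.Agent.LT.Kill
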