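import Mathlib

set_option autoImplicit false

/-!
# The killing polynomial

For a finite family of exponents `k j` there is a polynomial `P` with integer coefficients such that
`P (X_j + X_j⁻¹) = ∏_signs (1 - ∏_j X_j ^ (± k j))`.
-/

namespace Fermat.Agent.LT.Kill

open Matrix MvPolynomial

section Kron

variable {B : Type*} [CommRing B] {J : Type*} [Fintype J]

/-- the Kronecker product of a family of `2 × 2` matrices -/
def kron (M : J → Matrix (Fin 2) (Fin 2) B) : Matrix (J → Fin 2) (J → Fin 2) B :=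
  Matrix.of fun f g => ∏ j, M j (f j) (g j)

theorem kron_apply (M : J → Matrix (Fin 2) (Fin 2) B) (f g : J → Fin 2) :
    kron M f g = ∏ j, M j (f j) (g j) := rfl

variable [DecidableEq J]

theorem kron_mul (M N : J → Matrix (Fin 2) (Fin 2) B) :
    kron (fun j => M j * N j) = kron M * kron N := by
  ext f g
  rw [kron_apply, Matrix.mul_apply]
  simp only [Matrix.mul_apply, kron_apply]
  rw [Finset.prod_univ_sum]
  simp only [Finset.prod_mul_distrib, Fintype.piFinset_univ]

theorem kron_one : kron (fun _ : J => (1 : Matrix (Fin 2) (Fin 2) B)) = 1 := by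
  ext f g
  rw [kron_apply]
  by_cases h : f = g
  · subst h; simp
  · rw [Matrix.one_apply_ne h]
    obtain ⟨j, hj⟩ := Function.ne_iff.mp h
    exact Finset.prod_eq_zero (Finset.mem_univ j) (Matrix.one_apply_ne hj)

theorem kron_map {B' : Type*} [CommRing B'] (φ : B →+* B') (M : J → Matrix (Fin 2) (Fin 2) B) :
    (kron M).map φ = kron (fun j => (M j).map φ) := by
  ext f g
  simp [kron_apply, map_prod]

theorem blockTriangular_kron (T : J → Matrix (Fin 2) (Fin 2) B) (hT : ∀ j, T j 1 0 = 0) :
    (1 - kron T : Matrix (J → Fin 2) (J → Fin 2) B).BlockTriangular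
      (fun f : J → Fin 2 => toLinearExtension f) := by
  intro f g hlt
  have hne : ¬ f ≤ g := fun h => absurd (toLinearExtension.monotone h) (not_le.mpr hlt)
  have hne' : f ≠ g := fun h => hne h.le
  rw [Matrix.sub_apply, Matrix.one_apply_ne hne', zero_sub, neg_eq_zero, kron_apply]
  simp only [Pi.le_def, not_forall, not_le] at hne
  obtain ⟨j, hj⟩ := hne
  refine Finset.prod_eq_zero (Finset.mem_univ j) ?_
  have h1 : f j = 1 := by omega
  have h0 : g j = 0 := by omega
  rw [h1, h0, hT]

theorem det_one_sub_kron (T : J → Matrix (Fin 2) (Fin 2) B) (hT : ∀ j, T j 1 0 = 0) :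
    (1 - kron T).det = ∏ f : J → Fin 2, (1 - ∏ j, T j (f j) (f j)) := by
  classical
  letI : Fintype (LinearExtension (J → Fin 2)) := inferInstanceAs (Fintype (J → Fin 2))
  let M' : Matrix (LinearExtension (J → Fin 2)) (LinearExtension (J → Fin 2)) B :=
    Matrix.of fun f g => (1 - kron T : Matrix (J → Fin 2) (J → Fin 2) B) f g
  let e : LinearExtension (J → Fin 2) ≃ (J → Fin 2) := Equiv.refl _
  have h1 : M' = (1 - kron T).submatrix e e := rfl
  have h2 : M'.det = (1 - kron T).det := by rw [h1, Matrix.det_submatrix_equiv_self]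
  have h3 : M'.BlockTriangular id := fun f g hlt => blockTriangular_kron T hT hlt
  rw [← h2, Matrix.det_of_isUpperTriangular h3]
  have h4 : ∀ f : LinearExtension (J → Fin 2), M' f f = 1 - ∏ j, T j ((e f) j) ((e f) j) := by
    intro f
    show (1 - kron T) (e f) (e f) = _
    rw [Matrix.sub_apply, Matrix.one_apply_eq, kron_apply]
  simp_rw [h4]
  exact Fintype.prod_equiv e _ _ fun f => rfl

end Kron

section Companion

variable {B : Type*} [CommRing B]

/-- the companion matrix of `X² - a X + 1` -/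
def cmp (a : B) : Matrix (Fin 2) (Fin 2) B := !![0, -1; 1, a]

/-- triangularisation -/
def tri (x : Bˣ) : Matrix (Fin 2) (Fin 2) B := !![(x : B), 1; 0, ((x⁻¹ : Bˣ) : B)]

/-- base change -/
def bas (x : Bˣ) : Matrix (Fin 2) (Fin 2) B := !![-1, 0; (x : B), 1]

theorem bas_mul_bas (x : Bˣ) : bas x * bas x = 1 := by
  ext i j
  fin_cases i <;> fin_cases j <;> simp [bas, Matrix.mul_apply, Fin.sum_univ_two]

theorem cmp_mul_bas (x : Bˣ) : cmp ((x : B) + ((x⁻¹ : Bˣ) : B)) * bas x = bas x * tri x := by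
  ext i j
  fin_cases i <;> fin_cases j <;>
    simp [bas, cmp, tri, Matrix.mul_apply, Fin.sum_univ_two, add_mul]

theorem cmp_pow_mul_bas (x : Bˣ) (k : ℕ) :
    cmp ((x : B) + ((x⁻¹ : Bˣ) : B)) ^ k * bas x = bas x * tri x ^ k := by
  induction k with
  | zero => simp
  | succ k ih => rw [pow_succ, mul_assoc, cmp_mul_bas, ← mul_assoc, ih, mul_assoc, ← pow_succ]

theorem tri_pow (x : Bˣ) (k : ℕ) : (tri x ^ k) 1 0 = 0 ∧ (tri x ^ k) 0 0 = (x : B) ^ k ∧
    (tri x ^ k) 1 1 = ((x⁻¹ : Bˣ) : B) ^ k := by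
  induction k with
  | zero => simp
  | succ k ih =>
    obtain ⟨h1, h2, h3⟩ := ih
    have e00 : tri x 0 0 = (x : B) := rfl
    have e01 : tri x 0 1 = 1 := rfl
    have e10 : tri x 1 0 = 0 := rfl
    have e11 : tri x 1 1 = ((x⁻¹ : Bˣ) : B) := rfl
    rw [pow_succ]
    refine ⟨?_, ?_, ?_⟩
    · rw [Matrix.mul_apply, Fin.sum_univ_two, h1, e10, zero_mul, mul_zero, add_zero]
    · rw [Matrix.mul_apply, Fin.sum_univ_two, h2, e00, e10, mul_zero, add_zero, pow_succ]
    · rw [Matrix.mul_apply, Fin.sum_univ_two, h1, h3, e11, zero_mul, zero_add, pow_succ]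

end Companion

section KillPoly

variable {J : Type*} [Fintype J] [DecidableEq J]

/-- **The killing polynomial.** -/
noncomputable def killPoly (k : J → ℕ) : MvPolynomial J ℤ :=
  (1 - kron fun j => cmp (X j : MvPolynomial J ℤ) ^ k j).det

/-- the sign products -/
def sgnProd {B : Type*} [CommRing B] (k : J → ℕ) (x : J → Bˣ) (f : J → Fin 2) : Bˣ :=
  ∏ j, (if f j = 0 then x j else (x j)⁻¹) ^ k j

theorem aeval_killPoly {B : Type*} [CommRing B] (k : J → ℕ) (x : J → Bˣ) :
    aeval (fun j => ((x j : B) + (((x j)⁻¹ : Bˣ) : B))) (killPoly k) =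
      ∏ f : J → Fin 2, (1 - (sgnProd k x f : B)) := by
  set a : J → B := fun j => ((x j : B) + (((x j)⁻¹ : Bˣ) : B)) with ha
  have h1 : aeval a (killPoly k) = (1 - kron fun j => cmp (a j) ^ k j).det := by
    rw [killPoly]
    have := RingHom.map_det (aeval a : MvPolynomial J ℤ →ₐ[ℤ] B).toRingHom
      (1 - kron fun j => cmp (X j : MvPolynomial J ℤ) ^ k j)
    rw [AlgHom.toRingHom_eq_coe, RingHom.coe_coe] at this
    rw [this]
    congr 1
    rw [RingHom.mapMatrix_apply, Matrix.map_sub, Matrix.map_one, kron_map]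
    · congr 2
      funext j
      rw [Matrix.map_pow]
      congr 1
      ext i l
      fin_cases i <;> fin_cases l <;> simp [cmp]
    · simp
    · simp
    · intro x y; simp
  have h2 : kron (fun j => cmp (a j) ^ k j) * kron (fun j => bas (x j)) =
      kron (fun j => bas (x j)) * kron (fun j => tri (x j) ^ k j) := by
    rw [← kron_mul, ← kron_mul]
    congr 1
    funext j
    exact cmp_pow_mul_bas (x j) (k j)
  have h3 : kron (fun j => bas (x j)) * kron (fun j => bas (x j)) =
      (1 : Matrix (J → Fin 2) (J → Fin 2) B) := by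
    rw [← kron_mul]
    simp only [bas_mul_bas]
    exact kron_one
  have h4 : (1 - kron fun j => cmp (a j) ^ k j).det =
      (1 - kron fun j => tri (x j) ^ k j).det := by
    have e1 : (1 - kron fun j => cmp (a j) ^ k j) * kron (fun j => bas (x j)) =
        kron (fun j => bas (x j)) * (1 - kron fun j => tri (x j) ^ k j) := by
      rw [sub_mul, mul_sub, one_mul, mul_one, h2]
    have e2 := congrArg Matrix.det e1
    rw [Matrix.det_mul, Matrix.det_mul] at e2
    have e3 : (kron (fun j => bas (x j))).det * (kron (fun j => bas (x j))).det = 1 := by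
      rw [← Matrix.det_mul, h3, Matrix.det_one]
    have e4 : (1 - kron fun j => cmp (a j) ^ k j).det * (kron (fun j => bas (x j))).det *
        (kron (fun j => bas (x j))).det = (kron (fun j => bas (x j))).det *
        (1 - kron fun j => tri (x j) ^ k j).det * (kron (fun j => bas (x j))).det := by rw [e2]
    rw [mul_assoc, e3, mul_one, mul_comm (kron (fun j => bas (x j))).det, mul_assoc, e3,
      mul_one] at e4
    exact e4
  rw [h1, h4, det_one_sub_kron _ fun j => (tri_pow (x j) (k j)).1]
  refine Finset.prod_congr rfl fun f _ => ?_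
  congr 1
  rw [sgnProd, Units.coe_prod]
  refine Finset.prod_congr rfl fun j _ => ?_
  obtain ⟨-, h00, h11⟩ := tri_pow (x j) (k j)
  by_cases hf : f j = 0
  · rw [if_pos hf, hf, h00, Units.val_pow_eq_pow_val]
  · have hf1 : f j = 1 := by omega
    rw [if_neg hf, hf1, h11, Units.val_pow_eq_pow_val]

attribute [irreducible] killPoly

/-- the killing polynomial is a multiple of `1 - ∏ X_j ^ k_j` -/
theorem dvd_aeval_killPoly {B : Type*} [CommRing B] (k : J → ℕ) (x : J → Bˣ) :
    (1 - ∏ j, (x j : B) ^ k j) ∣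
      aeval (fun j => ((x j : B) + (((x j)⁻¹ : Bˣ) : B))) (killPoly k) := by
  rw [aeval_killPoly]
  refine dvd_trans (dvd_of_eq ?_) (Finset.dvd_prod_of_mem _ (Finset.mem_univ fun _ : J => 0))
  congr 1
  rw [sgnProd, Units.coe_prod]
  simp

/-- non-vanishing -/
theorem aeval_killPoly_ne_zero {B : Type*} [CommRing B] [IsDomain B] (k : J → ℕ) (x : J → Bˣ)
    (h : ∀ f : J → Fin 2, sgnProd k x f ≠ 1) :
    aeval (fun j => ((x j : B) + (((x j)⁻¹ : Bˣ) : B))) (killPoly k) ≠ 0 := by
  rw [aeval_killPoly, Finset.prod_ne_zero_iff]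
  intro f _ h0
  rw [sub_eq_zero] at h0
  exact h f (Units.ext h0.symm)

end KillPoly

end Fermat.Agent.LT.Kill
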