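import Fermat.Agent.LT.H3.Horo

set_option autoImplicit false

/-!
# Invariant kernels are functions of the distance
-/

namespace Fermat.Agent.LT.Kill

open MeasureTheory Set Topology ComplexConjugate
open Fermat.Agent.LT.H3

/-- an isometry fixing the base point and moving a given point to the vertical axis -/
theorem exists_rot (p : H3) : ∃ g : GL (Fin 2) ℂ, g • j = j ∧ (g • p).z = 0 := by
  have hp := p.pos
  by_cases hz : p.z = 0
  · exact ⟨1, one_smul _ _, by rw [one_smul]; exact hz⟩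
  · have hcz : conj p.z ≠ 0 := by rwa [Ne, map_eq_zero]
    set s : ℝ := 1 - ‖p.z‖ ^ 2 - p.y ^ 2 with hs
    set r : ℝ := (s + √(s ^ 2 + 4 * ‖p.z‖ ^ 2)) / 2 with hr
    have hr2 : r ^ 2 - s * r - ‖p.z‖ ^ 2 = 0 := by
      have h1 : √(s ^ 2 + 4 * ‖p.z‖ ^ 2) ^ 2 = s ^ 2 + 4 * ‖p.z‖ ^ 2 :=
        Real.sq_sqrt (by positivity)
      rw [hr]
      nlinarith
    set t : ℂ := (r : ℂ) / conj p.z with ht
    have htt : t * conj t = (‖t‖ ^ 2 : ℝ) := by
      rw [Complex.mul_conj']
      push_cast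
      rfl
    have hdet : (1 : ℂ) * 1 - t * (-conj t) = ((1 + ‖t‖ ^ 2 : ℝ) : ℂ) := by
      rw [show (1 : ℂ) * 1 - t * (-conj t) = 1 + t * conj t by ring, htt]
      push_cast
      rfl
    have hdet0 : (1 : ℂ) * 1 - t * (-conj t) ≠ 0 := by
      rw [hdet]
      have : (1 + ‖t‖ ^ 2 : ℝ) ≠ 0 := by positivity
      exact_mod_cast this
    set g : GL (Fin 2) ℂ := Matrix.GeneralLinearGroup.mkOfDetNeZero !![1, t; -conj t, 1] (by
      rw [Matrix.det_fin_two_of]
      exact hdet0) with hg
    have e1 : g 0 0 = 1 := rfl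
    have e2 : g 0 1 = t := rfl
    have e3 : g 1 0 = -conj t := rfl
    have e4 : g 1 1 = 1 := rfl
    refine ⟨g, ?_, ?_⟩
    · have hden : (j.den (-conj t) 1 : ℝ) = 1 + ‖t‖ ^ 2 := by
        simp [den, j]
      apply H3.ext
      · rw [smul_z, e1, e2, e3, e4]
        simp [num, j]
      · rw [smul_y, Matrix.det_fin_two, e1, e2, e3, e4, hdet, hden]
        have h1 : (0 : ℝ) < 1 + ‖t‖ ^ 2 := by positivity
        rw [Complex.norm_real, Real.norm_of_nonneg h1.le]
        simp only [j, mul_one]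
        exact div_self h1.ne'
    · rw [smul_z, e1, e2, e3, e4, div_eq_zero_iff]
      left
      have h1 : p.z * conj p.z = ((‖p.z‖ ^ 2 : ℝ) : ℂ) := by
        rw [Complex.mul_conj']
        push_cast
        rfl
      have h2 : t * conj p.z = r := by rw [ht]; field_simp
      have h3 : conj (-conj t * p.z + 1) = -t * conj p.z + 1 := by simp
      rw [num, h3, map_neg, Complex.conj_conj]
      have h4 : conj p.z * ((1 * p.z + t) * (-t * conj p.z + 1) + 1 * -t * (p.y : ℂ) ^ 2) =
          -((r : ℂ) ^ 2 - (s : ℂ) * r - ((‖p.z‖ ^ 2 : ℝ) : ℂ)) := by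
        have h5 : (s : ℂ) = 1 - p.z * conj p.z - (p.y : ℂ) ^ 2 := by
          rw [hs, h1]; push_cast; rfl
        rw [h5, ← h1, ← h2]
        ring
      have h6 : ((r : ℂ) ^ 2 - (s : ℂ) * r - ((‖p.z‖ ^ 2 : ℝ) : ℂ)) = 0 := by
        exact_mod_cast congrArg (fun x : ℝ => (x : ℂ)) hr2
      rw [h6, neg_zero] at h4
      exact (mul_eq_zero.mp h4).resolve_left hcz

theorem k_pt_inv (κ : IKer) {y : ℝ} (hy : 0 < y) :
    κ.k j (H3.pt y hy) = κ.k j (H3.pt y⁻¹ (inv_pos.mpr hy)) := by
  rw [κ.symm, κ.k_eq_rel]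
  congr 1
  apply H3.ext
  · simp [IKer.rel, H3.pt, j]
  · simp [IKer.rel, H3.pt, j]

theorem cd_j_pt {y : ℝ} (hy : 0 < y) : cd j (H3.pt y hy) = Real.cosh (Real.log y) := by
  rw [Real.cosh_eq, Real.exp_neg, Real.exp_log hy, cd]
  simp only [j, H3.pt, sub_zero, norm_zero]
  field_simp
  ring

/-- the profile of an invariant kernel -/
noncomputable def prof (κ : IKer) (t : ℝ) : ℝ :=
  κ.k j (H3.pt (Real.exp (Real.arcosh (max t 1))) (Real.exp_pos _)) * max 0 (min 1 t)

theorem prof_of_le (κ : IKer) {t : ℝ} (ht : 1 ≤ t) :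
    prof κ t = κ.k j (H3.pt (Real.exp (Real.arcosh t)) (Real.exp_pos _)) := by
  rw [prof]
  have h1 : max t 1 = t := max_eq_left ht
  have h2 : max 0 (min 1 t) = 1 := by rw [min_eq_left ht, max_eq_right zero_le_one]
  rw [h2, mul_one]
  simp only [h1]

/-- **Invariant kernels are functions of the distance.** -/
theorem k_eq_prof (κ : IKer) (p p' : H3) : κ.k p p' = prof κ (cd p p') := by
  have h0 : (up p)⁻¹ • p = j := by rw [inv_smul_eq_iff, up_smul_j]
  have h1 : cd p p' = cd j (IKer.rel p p') := by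
    rw [IKer.rel_eq, ← cd_smul (up p)⁻¹ p p', h0]
  rw [κ.k_eq_rel, h1]
  obtain ⟨g, hg1, hg2⟩ := exists_rot (IKer.rel p p')
  set q := g • IKer.rel p p' with hq
  have h2 : cd j (IKer.rel p p') = cd j q := by
    rw [hq, ← cd_smul g j (IKer.rel p p'), hg1]
  have h3 : κ.k j (IKer.rel p p') = κ.k j q := by
    rw [hq, ← κ.inv g j (IKer.rel p p'), hg1]
  have h4 : q = H3.pt q.y q.pos := H3.ext hg2 rfl
  rw [h2, h3, prof_of_le κ (one_le_cd _ _)]
  rw [h4, cd_j_pt q.pos]
  rcases le_or_gt 0 (Real.log q.y) with h | h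
  · congr 1
    apply H3.ext
    · rfl
    · show q.y = Real.exp (Real.arcosh (Real.cosh (Real.log q.y)))
      rw [Real.arcosh_cosh h, Real.exp_log q.pos]
  · rw [k_pt_inv κ q.pos]
    congr 1
    apply H3.ext
    · rfl
    · show q.y⁻¹ = Real.exp (Real.arcosh (Real.cosh (Real.log q.y)))
      rw [← Real.cosh_neg, Real.arcosh_cosh (by linarith), Real.exp_neg, Real.exp_log q.pos]

theorem continuous_prof (κ : IKer) : Continuous (prof κ) := by
  have h1 : Continuous fun t : ℝ => Real.exp (Real.arcosh (max t 1)) :=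
    Real.continuous_exp.comp (Real.continuousOn_arcosh.comp_continuous
      (continuous_id.max continuous_const) fun t => mem_Ici.mpr (le_max_right _ _))
  have h2 : Continuous fun t : ℝ => H3.pt (Real.exp (Real.arcosh (max t 1))) (Real.exp_pos _) :=
    continuous_mk continuous_const h1
  have h3 : Continuous fun t : ℝ =>
      κ.k j (H3.pt (Real.exp (Real.arcosh (max t 1))) (Real.exp_pos _)) :=
    (κ.continuous_right j).comp h2
  exact h3.mul (continuous_const.max (continuous_const.min continuous_id))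

theorem prof_zero (κ : IKer) {t : ℝ} (h1 : 1 ≤ t) (h2 : κ.R < t) : prof κ t = 0 := by
  rw [prof_of_le κ h1]
  apply κ.supp
  rw [cd_j_pt, Real.log_exp, Real.cosh_arcosh h1]
  exact h2

theorem hasCompactSupport_prof (κ : IKer) : HasCompactSupport (prof κ) := by
  refine HasCompactSupport.intro (isCompact_Icc (a := (0 : ℝ)) (b := max 1 κ.R)) fun t ht => ?_
  rw [mem_Icc, not_and_or, not_le, not_le] at ht
  rcases ht with h | h
  · rw [prof]
    have : max 0 (min 1 t) = 0 := max_eq_left ((min_le_right _ _).trans h.le)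
    rw [this, mul_zero]
  · exact prof_zero κ ((le_max_left _ _).trans h.le) (lt_of_le_of_lt (le_max_right _ _) h)

/-- the Abel transform of an invariant kernel -/
noncomputable def ab (κ : IKer) (u : ℝ) : ℝ := abelT (prof κ) u

theorem continuous_ab (κ : IKer) : Continuous (ab κ) :=
  continuous_abelT ((continuous_prof κ).integrable_of_hasCompactSupport (hasCompactSupport_prof κ))

/-- horospherical integrals -/
theorem integral_horo_k (κ : IKer) (p' : H3) (y : ℝ) (hy : 0 < y) :
    ∫ z : ℂ, κ.k ⟨z, y, hy⟩ p' = y * p'.y * ab κ (Real.log (y / p'.y)) := by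
  rw [ab, ← abel_real' (prof κ) p' y hy]
  simp_rw [k_eq_prof κ]

theorem ab_of_fun {k : ℝ → ℝ} (hk : Continuous k) (hs : HasCompactSupport k) (u : ℝ) :
    ab (kerOf hk hs) u = abelT k u := by
  rw [ab, abelT, abelT]
  congr 1
  refine setIntegral_congr_fun measurableSet_Ioi fun t ht => ?_
  have h1 : 1 ≤ t := (Real.one_le_cosh u).trans (le_of_lt ht)
  rw [prof_of_le _ h1, kerOf_k, cd_j_pt, Real.log_exp, Real.cosh_arcosh h1]

/-- **Injectivity of the Abel transform.** -/
theorem k_eq_of_ab {κ κ' : IKer} (h : ∀ u, ab κ u = ab κ' u) (p p' : H3) :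
    κ.k p p' = κ'.k p p' := by
  set δ : ℝ → ℝ := fun t => prof κ t - prof κ' t with hδ
  have hc : Continuous δ := (continuous_prof κ).sub (continuous_prof κ')
  have hi : Integrable (prof κ) :=
    (continuous_prof κ).integrable_of_hasCompactSupport (hasCompactSupport_prof κ)
  have hi' : Integrable (prof κ') :=
    (continuous_prof κ').integrable_of_hasCompactSupport (hasCompactSupport_prof κ')
  have h1 : ∀ s, 1 ≤ s → ∫ t in Ioi s, δ t = 0 := by
    intro s hs
    have h2 := h (Real.arcosh s)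
    rw [ab, ab, abelT, abelT, Real.cosh_arcosh hs] at h2
    have h3 : ∫ t in Ioi s, prof κ t = ∫ t in Ioi s, prof κ' t := by
      have : (2 * Real.pi : ℝ) ≠ 0 := by positivity
      exact mul_left_cancel₀ this h2
    rw [integral_sub hi.integrableOn hi'.integrableOn, h3, sub_self]
  have hid : Integrable δ := hi.sub hi'
  have h2 : ∀ s, 1 < s → δ s = 0 := by
    intro s hs
    have h3 : HasDerivAt (fun x => ∫ t in (0 : ℝ)..x, δ t) (δ s) s :=
      intervalIntegral.integral_hasDerivAt_right hid.intervalIntegrable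
        (hc.stronglyMeasurableAtFilter _ _) hc.continuousAt
    have h4 : (fun x => ∫ t in (0 : ℝ)..x, δ t) =ᶠ[𝓝 s] fun _ => ∫ t in Ioi (0 : ℝ), δ t := by
      filter_upwards [Ioi_mem_nhds hs] with x hx
      have h5 := integral_Ioi_eq hid x
      rw [h1 x (le_of_lt hx)] at h5
      linarith
    have h6 := h3.congr_of_eventuallyEq h4.symm
    exact h6.unique (hasDerivAt_const s _)
  have h3 : ∀ s, 1 ≤ s → δ s = 0 := by
    have hcl : IsClosed {s | δ s = 0} := isClosed_eq hc continuous_const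
    have h4 : closure (Ioi (1 : ℝ)) ⊆ {s | δ s = 0} :=
      hcl.closure_subset_iff.mpr fun s hs => h2 s hs
    rw [closure_Ioi] at h4
    exact fun s hs => h4 hs
  rw [k_eq_prof κ, k_eq_prof κ']
  exact sub_eq_zero.mp (h3 _ (one_le_cd p p'))

end Fermat.Agent.LT.Kill
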