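import Fermat.Agent.LT.Kill.CT
import Fermat.Agent.LT.Kill.Shift
import Fermat.Agent.LT.Bd.Global

set_option autoImplicit false

/-!
# Recurrences for constant terms of automorphic kernels
-/

namespace Fermat.Agent.LT.Kill

open MeasureTheory Module NumberField Matrix
open Fermat.Agent.LT Fermat.Agent.LT.Sp Fermat.Agent.LT.Bd
open scoped MatrixGroups ContDiff

variable {F : Type*} [Field F] [NumberField F]
variable {D : Type*} [MulAction (GL (Fin 2) F) D] [FinPart F D]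

theorem exists_mul_mem_trans_finset (S : Finset D) : ∃ N : ℕ, N ≠ 0 ∧ ∀ d ∈ S, ∀ a : 𝓞 F,
    (N : F) * a ∈ trans F d := by
  classical
  choose N hN0 hN using fun d : D => exists_mul_mem_trans (F := F) d
  refine ⟨∏ d ∈ S, N d, Finset.prod_ne_zero_iff.mpr fun d _ => hN0 d, fun d hd a => ?_⟩
  obtain ⟨c, hc⟩ := Finset.dvd_prod_of_mem N hd
  have h1 := hN d ((c : 𝓞 F) * a)
  rw [hc]
  convert h1 using 1
  push_cast
  ring

section Hecke

variable [IsTotallyComplex F]

/-- the constant term of a Hecke translate -/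
theorem ct_hecke (T : DKer F D) {Ψ : HF F × D → ℂ} (h : Good Ψ) {Ψ' : HF F × D → ℂ}
    (hΨ' : ∀ p d, Ψ' (p, d) = ∑ᶠ d', T.κ d d' * Ψ (p, d')) (d : D) (u : InfinitePlace F → ℝ) :
    ct Ψ' d u = ∑ᶠ d', T.κ d d' * ct Ψ d' u := by
  classical
  set S := (T.finite d).toFinset with hS
  have hsum : ∀ f : D → ℂ, ∑ᶠ d', T.κ d d' * f d' = ∑ d' ∈ S, T.κ d d' * f d' := by
    intro f
    refine finsum_eq_sum_of_support_subset _ fun d' h1 => ?_
    rw [Set.Finite.coe_toFinset]
    exact fun h2 => h1 (by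
      show T.κ d d' * _ = 0
      rw [h2, zero_mul])
  obtain ⟨N, hN0, hN⟩ := exists_mul_mem_trans_finset (F := F) S
  rw [hsum, ct]
  have h1 : (fun v => Ψ' (trF v (pt u), d)) =
      fun v => ∑ d' ∈ S, T.κ d d' * Ψ (trF v (pt u), d') := by
    funext v
    rw [hΨ', hsum fun d' => Ψ (trF v (pt u), d')]
  rw [h1, Fou.fc_sum hN0 S (fun d' v => T.κ d d' * Ψ (trF v (pt u), d'))
    (fun d' hd' => (h.per (pt u) (hN d' hd')).const_mul _), Finset.mul_sum]
  refine Finset.sum_congr rfl fun d' hd' => ?_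
  rw [Fou.fc_const_mul hN0 (h.per (pt u) (hN d' hd')), ct]
  ring

end Hecke

section Tensor

variable [IsTotallyComplex F] {φ : InfinitePlace F → ℝ → ℝ}

theorem good_tenK (hφ : ∀ w, ContDiff ℝ ∞ (φ w)) (hc : ∀ w, HasCompactSupport (φ w))
    (κ : DKer F D) (x' : HF F × D) : Good fun x => autK (tenK φ κ) x x' := by
  constructor
  · intro g x
    exact autK_smul_left _ (tenK_smul φ κ) (ProjGenLinGroup.mk g) x x'
  · intro p d
    exact continuous_autK_tenK κ hφ hc p d x'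

theorem summable_tenK (hc : ∀ w, HasCompactSupport (φ w)) (κ : DKer F D) (x x' : HF F × D) :
    Summable fun g : PGL(2, F) => tenK φ κ x (g • x') := by
  rw [tenK_eq]
  exact (hasSum_autK (fun _ => hasCompactSupport_prodΦ hc) x x').summable

/-- Hecke kernels -/
theorem autK_tenK_comp (hc : ∀ w, HasCompactSupport (φ w)) (T κ : DKer F D) (p : HF F) (d : D)
    (x' : HF F × D) : autK (tenK φ (T.comp κ)) (p, d) x' =
      ∑ᶠ d', T.κ d d' * autK (tenK φ κ) (p, d') x' := by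
  classical
  have hsum : ∀ f : D → ℂ, ∑ᶠ d', T.κ d d' * f d' =
      ∑ d' ∈ (T.finite d).toFinset, T.κ d d' * f d' := by
    intro f
    refine finsum_eq_sum_of_support_subset _ fun d' h1 => ?_
    rw [Set.Finite.coe_toFinset]
    exact fun h2 => h1 (by
      show T.κ d d' * _ = 0
      rw [h2, zero_mul])
  rw [hsum fun d' => autK (tenK φ κ) (p, d') x']
  have h1 : ∀ g : PGL(2, F), tenK φ (T.comp κ) (p, d) (g • x') =
      ∑ d' ∈ (T.finite d).toFinset, T.κ d d' * tenK φ κ (p, d') (g • x') := by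
    intro g
    show prodΦ φ (cds p (g • x').1) * (T.comp κ).κ d (g • x').2 = _
    rw [DKer.comp_κ_sum, Finset.mul_sum]
    refine Finset.sum_congr rfl fun d' _ => ?_
    show _ = T.κ d d' * (prodΦ φ (cds p (g • x').1) * κ.κ d' (g • x').2)
    ring
  rw [autK]
  simp_rw [h1]
  rw [Summable.tsum_finsetSum fun d' _ => (summable_tenK hc κ (p, d') x').mul_left _]
  refine Finset.sum_congr rfl fun d' _ => ?_
  rw [tsum_mul_left, autK]

/-- the constant term of a pure tensor -/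
theorem ct_tenK (hφ : ∀ w, ContDiff ℝ ∞ (φ w)) (hc : ∀ w, HasCompactSupport (φ w))
    (κ : DKer F D) (x' : HF F × D) {d : D} {N : ℕ} (hN : N ≠ 0)
    (hd : ∀ a : 𝓞 F, (N : F) * a ∈ trans F d) (u : InfinitePlace F → ℝ) :
    ct (fun x => autK (tenK φ κ) x x') d u = cv N hN φ κ x' d u := by
  rw [ct, fc_zero hN ((good_tenK hφ hc κ x').per (pt u) hd),
    mn_tenK κ (fun w => (hφ w).continuous) hc hN (pt u) hd x', ← mul_assoc]
  have h1 : (∏ w, ((Real.exp (u w) : ℝ) : ℂ))⁻¹ * (∏ w, (((pt u w).y : ℝ) : ℂ)) = 1 := by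
    refine inv_mul_cancel₀ ?_
    rw [Finset.prod_ne_zero_iff]
    intro w _
    exact_mod_cast (Real.exp_pos (u w)).ne'
  have h2 : (fun w => Real.log (pt u w).y) = u := by
    funext w
    exact Real.log_exp (u w)
  rw [h1, one_mul, h2]

open Classical in
/-- **Translation of the test function at one place.** -/
theorem ct_shift {φ' : InfinitePlace F → ℝ → ℝ} (hφ : ∀ w, ContDiff ℝ ∞ (φ w))
    (hc : ∀ w, HasCompactSupport (φ w)) (hφ' : ∀ w, ContDiff ℝ ∞ (φ' w))
    (hc' : ∀ w, HasCompactSupport (φ' w)) (j : InfinitePlace F) (L : ℝ)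
    (hj : ∀ u, H3.abelT (φ' j) u = H3.abelT (φ j) (u + L) + H3.abelT (φ j) (u - L))
    (hne : ∀ w, w ≠ j → φ' w = φ w) (κ : DKer F D) (x' : HF F × D) (d : D)
    (u : InfinitePlace F → ℝ) :
    ct (fun x => autK (tenK φ' κ) x x') d u =
      ct (fun x => autK (tenK φ κ) x x') d (u + Pi.single j L) +
        ct (fun x => autK (tenK φ κ) x x') d (u - Pi.single j L) := by
  obtain ⟨N, hN, hd⟩ := exists_mul_mem_trans (F := F) d
  rw [ct_tenK hφ' hc' κ x' hN hd, ct_tenK hφ hc κ x' hN hd, ct_tenK hφ hc κ x' hN hd]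
  have hs : ∀ u : InfinitePlace F → ℝ, Summable
      fun γ : {γ : PGL(2, F) // zet N x'.1 γ ∈ box (0 : Fou.Ix F → ℤ)} => (cov F N hN : ℂ) *
      (κ.κ d ((γ : PGL(2, F)) • x'.2) * ∏ w, (((((γ : PGL(2, F)) • x'.1) w).y *
        H3.abelT (φ w) (u w - Real.log (((γ : PGL(2, F)) • x'.1) w).y) : ℝ) : ℂ)) :=
    fun u => summable_of_hasFiniteSupport
      (finite_cv κ (fun w => (hφ w).continuous) hc hN hd x' u)
  rw [cv, cv, cv, ← (hs _).tsum_add (hs _)]
  refine tsum_congr fun γ => ?_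
  rw [← mul_add, ← mul_add]
  congr 2
  rw [← Finset.mul_prod_erase _ _ (Finset.mem_univ j),
    ← Finset.mul_prod_erase _ _ (Finset.mem_univ j),
    ← Finset.mul_prod_erase _ _ (Finset.mem_univ j)]
  have h1 : ∀ (s : ℝ), ∏ w ∈ Finset.univ.erase j, (((((γ : PGL(2, F)) • x'.1) w).y *
      H3.abelT (φ w) ((u + (Pi.single j s : InfinitePlace F → ℝ)) w -
        Real.log (((γ : PGL(2, F)) • x'.1) w).y) : ℝ) : ℂ) =
      ∏ w ∈ Finset.univ.erase j, (((((γ : PGL(2, F)) • x'.1) w).y *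
      H3.abelT (φ' w) (u w - Real.log (((γ : PGL(2, F)) • x'.1) w).y) : ℝ) : ℂ) := by
    intro s
    refine Finset.prod_congr rfl fun w hw => ?_
    have hw' : w ≠ j := Finset.ne_of_mem_erase hw
    rw [hne w hw', Pi.add_apply, Pi.single_eq_of_ne hw', add_zero]
  have h2 := h1 L
  have h3 := h1 (-L)
  rw [Pi.single_neg, ← sub_eq_add_neg] at h3
  rw [h2, h3, ← add_mul]
  congr 1
  rw [hj, Pi.add_apply, Pi.sub_apply, Pi.single_eq_same]
  rw [show u j - Real.log (((γ : PGL(2, F)) • x'.1) j).y + L =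
    u j + L - Real.log (((γ : PGL(2, F)) • x'.1) j).y by ring,
    show u j - Real.log (((γ : PGL(2, F)) • x'.1) j).y - L =
    u j - L - Real.log (((γ : PGL(2, F)) • x'.1) j).y by ring]
  push_cast
  ring

end Tensor

end Fermat.Agent.LT.Kill
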