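import Fermat.Agent.LT.Kill.CombV
import Fermat.Agent.LT.Fou.Reg

set_option autoImplicit false
set_option linter.unusedSectionVars false

/-!
# Regularity of the eigenvectors of the killing operator, on both sides
-/

namespace Fermat.Agent.LT.Kill

open MeasureTheory Module NumberField Matrix MvPolynomial
open Fermat.Agent.LT Fermat.Agent.LT.Sp Fermat.Agent.LT.Bd Fermat.Agent.LT.Op
open Fermat.Agent.LT.Spec Fermat.Agent.LT.FA
open scoped MatrixGroups ContDiff ENNReal NNReal

section KR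

variable {F D H Q ι J : Type*} [Field F] [NumberField F] [MulAction (GL (Fin 2) F) D]
  [CommGroup H] [MulAction H Q] [Fintype ι] [Fintype J] [DecidableEq ι] [DecidableEq J]
  [FinPart F D] [IsTotallyComplex F]
  [MeasurableSpace D] [DiscreteMeasurableSpace D] [Countable D]
  {wf : HF F × D → ℝ≥0}

/-- the killing operator with smooth kernel -/
noncomputable def killOp (hw : IsWt PGL(2, F) (muY F D) wf) (K : KillRel F D H Q ι)
    (pl : J → InfinitePlace F) (L : J → ℝ) (φ : InfinitePlace F → ℝ → ℝ) (κ : DKer F D) :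
    HA PGL(2, F) (muY F D) →L[ℂ] HA PGL(2, F) (muY F D) :=
  ∑ m : {m // m ∈ (killPoly (kk K J)).support}, killC K J m.1 •
    opK hw (fun w => mkI (φL pl L φ (lst m.1) w)) (killκ K J κ m)

variable (K : KillRel F D H Q ι) (pl : J → InfinitePlace F) (L : J → ℝ)
  {φ : InfinitePlace F → ℝ → ℝ} {A : ℝ} (hφ : ∀ w, Pl A (φ w)) (κ : DKer F D)
  (hwt : ∀ m ∈ (killPoly (kk K J)).support, wt L (lst m) < A)

include hφ hwt in
/-- the kernel of the killing operator -/
theorem kRep_killOp (hw : IsWt PGL(2, F) (muY F D) wf) :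
    KRep (killOp hw K pl L φ κ) (famKer (killΦ K pl L φ) (killκ K J κ)) := by
  have h1 := KRep.sum hw Finset.univ
    (A := fun m : {m // m ∈ (killPoly (kk K J)).support} => killC K J m.1 •
      opK hw (fun w => mkI (φL pl L φ (lst m.1) w)) (killκ K J κ m))
    (k := fun m x y => killC K J m.1 *
      pk (fun w => mkI (φL pl L φ (lst m.1) w)) (killκ K J κ m) x y)
    fun m _ => (kRep_opK hw _ _).smul hw (killC K J m.1)
  refine h1.congr fun x y => ?_
  rw [famKer]
  refine Finset.sum_congr rfl fun m _ => ?_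
  rw [pk_mkI (fun w => (pl_φL pl L hφ _ (hwt m.1 m.2) w).smooth.continuous)
    (fun w => (pl_φL pl L hφ _ (hwt m.1 m.2) w).supp), tenK, killΦ]
  ring

include hφ hwt in
open Classical in
/-- **regularity of the eigenvectors** -/
theorem reg_killOp [SFinite (muY F D)] (hw : IsWt PGL(2, F) (muY F D) wf)
    [IsFiniteMeasure (wtM (muY F D) wf)] (hA : 0 < A)
    (hL : ∀ w, ∑ j, (if pl j = w then L j else 0) = logv K.x w)
    {a : ℂ} (ha : a ≠ 0) {x : HA PGL(2, F) (muY F D)} (hx : killOp hw K pl L φ κ x = a • x)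
    (hR : ∀ (j : InfinitePlace F) (k : ℝ → ℝ) (hk : ContDiff ℝ ∞ k) (hs : HasCompactSupport k),
      opA hw j (H3.kerOf hk.continuous hs) x = (H3.khat k : ℂ) • x) :
    ∃ φ : HF F × D → ℂ, Fou.AutForm φ ∧ Brg.IsRep x φ := by
  obtain ⟨ψ, h1, h2⟩ := Reg.exists_autForm_famKer hw (contDiff_killΦ K pl L hφ hwt)
    (hasCompactSupport_killΦ K pl L hφ hwt) (meanZero_kill K pl L hφ κ hwt hA hL)
    (kRep_killOp K pl L hφ κ hwt hw) ha hx hR
  exact ⟨ψ, h1, ⟨h1.toIsInv, h2⟩⟩

end KR

section Arch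

variable {F D : Type*} [Field F] [NumberField F] [MulAction (GL (Fin 2) F) D]
  [FinPart F D] [IsTotallyComplex F]
  [MeasurableSpace D] [DiscreteMeasurableSpace D] [Countable D]
  {wf : HF F × D → ℝ≥0} [IsFiniteMeasure (wtM (muY F D) wf)]

/-- products of archimedean operators at different places -/
noncomputable def opL (hw : IsWt PGL(2, F) (muY F D) wf) (κ : InfinitePlace F → IKer)
    (l : List (InfinitePlace F)) : HA PGL(2, F) (muY F D) →L[ℂ] HA PGL(2, F) (muY F D) :=
  (l.map fun w => opA hw w (κ w)).prod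

theorem opL_mul_opK [DecidableEq (InfinitePlace F)] (hw : IsWt PGL(2, F) (muY F D) wf)
    (κ κs : InfinitePlace F → IKer) (κf : DKer F D) (l : List (InfinitePlace F)) (hl : l.Nodup) :
    opL hw κ l * opK hw κs κf =
      opK hw (fun w => if w ∈ l then IKer.comp (κ w) (κs w) else κs w) κf := by
  induction l with
  | nil => simp [opL]
  | cons v l ih =>
    rw [List.nodup_cons] at hl
    have h1 : opL hw κ (v :: l) = opA hw v (κ v) * opL hw κ l := by
      rw [opL, List.map_cons, List.prod_cons]; rfl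
    rw [h1, mul_assoc, ih hl.2, opA_mul_opK]
    congr 1
    funext w
    by_cases h : w = v
    · subst h
      rw [Function.update_self, if_neg hl.1, if_pos List.mem_cons_self]
    · rw [Function.update_of_ne h]
      by_cases h2 : w ∈ l
      · rw [if_pos h2, if_pos (List.mem_cons_of_mem _ h2)]
      · rw [if_neg h2, if_neg]
        simp [h, h2]

theorem opL_univ_mul_opK (hw : IsWt PGL(2, F) (muY F D) wf)
    (κ κs : InfinitePlace F → IKer) (κf : DKer F D) :
    opL hw κ Finset.univ.toList * opK hw κs κf =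
      opK hw (fun w => IKer.comp (κ w) (κs w)) κf := by
  classical
  rw [opL_mul_opK hw κ κs κf _ (Finset.nodup_toList _)]
  simp

theorem opL_opK_comm (hw : IsWt PGL(2, F) (muY F D) wf) (κ κs : InfinitePlace F → IKer)
    (κf : DKer F D) (l : List (InfinitePlace F)) :
    opL hw κ l * opK hw κs κf = opK hw κs κf * opL hw κ l := by
  induction l with
  | nil => simp [opL]
  | cons v l ih =>
    have h1 : opL hw κ (v :: l) = opA hw v (κ v) * opL hw κ l := by
      rw [opL, List.map_cons, List.prod_cons]; rfl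
    rw [h1, mul_assoc, ih, ← mul_assoc, opA_opK_comm, mul_assoc]

theorem opL_apply (hw : IsWt PGL(2, F) (muY F D) wf) {κ : InfinitePlace F → IKer}
    {s : InfinitePlace F → ℂ} {x : HA PGL(2, F) (muY F D)} (h : ∀ w, opA hw w (κ w) x = s w • x)
    (l : List (InfinitePlace F)) : opL hw κ l x = (l.map s).prod • x := by
  induction l with
  | nil => simp [opL]
  | cons v l ih =>
    have h1 : opL hw κ (v :: l) = opA hw v (κ v) * opL hw κ l := by
      rw [opL, List.map_cons, List.prod_cons]; rfl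
    rw [h1]
    show opA hw v (κ v) (opL hw κ l x) = _
    rw [ih, map_smul, h, smul_smul, List.map_cons, List.prod_cons, mul_comm]

end Arch

section Sides

variable {S ι : Type*} [Monoid S] [Fintype ι] [DecidableEq ι]
  {F D H Q : Type*} [Field F] [NumberField F] [MulAction (GL (Fin 2) F) D]
  [CommGroup H] [MulAction H Q] [FinPart F D] [IsTotallyComplex F]
  [MeasurableSpace D] [DiscreteMeasurableSpace D] [Countable D]
  {T : ι → S} {A : ℝ} {wf : HF F × D → ℝ≥0}

/-- the operator of the combination on the `E`-side -/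
theorem lcO_comb_eq_E [DecidableEq (InfinitePlace F)] (hw : IsWt PGL(2, F) (muY F D) wf)
    (K : KillRel F D H Q ι) (L : InfinitePlace F → ℝ) (φ : InfinitePlace F → ℝ → ℝ)
    (SF : FSym F D ((InfinitePlace F → IKer) × S))
    (harch : ∀ p, SF.arch p = p.1) (mm : S → DKer F D) (hm : ∀ p, SF.m p = mm p.2)
    (h1 : mm 1 = DKer.one F D) (hmul : ∀ a b, mm (a * b) = (mm a).comp (mm b))
    (hT : ∀ i, mm (T i) = K.T i) :
    lcO (SF.O hw) (comb K.k K.q L φ T) = killOp hw K id L φ (DKer.one F D) := by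
  rw [lcO_comb, killOp]
  refine Finset.sum_congr rfl fun m _ => ?_
  rw [killC_eq K m.1, FSym.O, harch, hm, map_symL mm h1 hmul hT]
  rfl

/-- the operator of the combination on the `k`-side -/
theorem lcO_comb_eq_K [IsFiniteMeasure (wtM (muY F D) wf)]
    (hw : IsWt PGL(2, F) (muY F D) wf) {J : Type*} [Fintype J] [DecidableEq J]
    (K : KillRel F D H Q ι)
    {bw : J → InfinitePlace F} {pl : Fin 3 → InfinitePlace F → J} (he : ∀ v i, bw (pl i v) = v)
    (hinj : Function.Injective fun p : Fin 3 × InfinitePlace F => pl p.1 p.2)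
    (hsurj : ∀ j, ∃ i, pl i (bw j) = j) {L : J → ℝ}
    {φ : J → ℝ → ℝ} (hφ : ∀ j, Pl A (φ j))
    (hwt : ∀ m ∈ (kp K.k J).support, wt L (lst m) < A)
    (SF : FSym F D ((J → IKer) × S))
    (harch : ∀ p, SF.arch p = kk3 pl p.1) (mm : S → DKer F D) (hm : ∀ p, SF.m p = mm p.2)
    (h1 : mm 1 = DKer.one F D) (hmul : ∀ a b, mm (a * b) = (mm a).comp (mm b))
    (hT : ∀ i, mm (T i) = K.T i) :
    lcO (SF.O hw) (comb K.k K.q L φ T) =
      opL hw (fun v => mkI (φ (pl 1 v))) Finset.univ.toList *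
        (opL hw (fun v => mkI (φ (pl 2 v))) Finset.univ.toList *
          killOp hw K bw L (fun v => φ (pl 0 v)) (DKer.one F D)) := by
  rw [lcO_comb, killOp, Finset.mul_sum, Finset.mul_sum]
  refine Finset.sum_congr rfl fun m _ => ?_
  rw [killC_eq K m.1, FSym.O, harch, hm, map_symL mm h1 hmul hT, mul_smul_comm, mul_smul_comm,
    opL_univ_mul_opK, opL_univ_mul_opK]
  congr 1
  refine opK_congr hw fun x y => ?_
  refine pk_congr_arch (fun v p p' => ?_) _ x y
  have e1 := k_comp3_eq (pl := bw) (e := fun v i => pl i v) L he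
    (fun v i i' h => (Prod.ext_iff.1 (hinj (a₁ := (i, v)) (a₂ := (i', v)) h)).1) hsurj hφ
    (lst m.1) (hwt m.1 m.2) v p p'
  refine Eq.trans e1 ?_
  exact comp_assoc_k _ _ _ p p'

theorem opL_killOp_comm [IsFiniteMeasure (wtM (muY F D) wf)]
    (hw : IsWt PGL(2, F) (muY F D) wf) {J : Type*} [Fintype J] [DecidableEq J]
    (K : KillRel F D H Q ι) (bw : J → InfinitePlace F) (L : J → ℝ)
    (φ : InfinitePlace F → ℝ → ℝ) (κ : DKer F D) (ρ : InfinitePlace F → IKer)
    (l : List (InfinitePlace F)) :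
    opL hw ρ l * killOp hw K bw L φ κ = killOp hw K bw L φ κ * opL hw ρ l := by
  rw [killOp, Finset.mul_sum, Finset.sum_mul]
  refine Finset.sum_congr rfl fun m _ => ?_
  rw [mul_smul_comm, smul_mul_assoc, opL_opK_comm]

/-- **regularity of the eigenvectors, on the `E`-side** -/
theorem reg_comb_E [DecidableEq (InfinitePlace F)] [SFinite (muY F D)]
    [IsFiniteMeasure (wtM (muY F D) wf)] (hw : IsWt PGL(2, F) (muY F D) wf)
    (K : KillRel F D H Q ι)
    {L : InfinitePlace F → ℝ} {φ : InfinitePlace F → ℝ → ℝ}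
    (hφ : ∀ w, Pl A (φ w))
    (hwt : ∀ m ∈ (kp K.k (InfinitePlace F)).support, wt L (lst m) < A) (hA : 0 < A)
    (hL : ∀ w, L w = logv K.x w) (SF : FSym F D ((InfinitePlace F → IKer) × S))
    (harch : ∀ p, SF.arch p = p.1) (mm : S → DKer F D) (hm : ∀ p, SF.m p = mm p.2)
    (h1 : mm 1 = DKer.one F D) (hmul : ∀ a b, mm (a * b) = (mm a).comp (mm b))
    (hT : ∀ i, mm (T i) = K.T i)
    {a : ℂ} (ha : a ≠ 0) {x : HA PGL(2, F) (muY F D)}
    (hx : lcO (SF.O hw) (comb K.k K.q L φ T) x = a • x)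
    (hR : ∀ (j : InfinitePlace F) (k : ℝ → ℝ) (hk : ContDiff ℝ ∞ k) (hs : HasCompactSupport k),
      opA hw j (H3.kerOf hk.continuous hs) x = (H3.khat k : ℂ) • x) :
    ∃ φ : HF F × D → ℂ, Fou.AutForm φ ∧ Brg.IsRep x φ := by
  classical
  rw [lcO_comb_eq_E hw K L φ SF harch mm hm h1 hmul hT] at hx
  refine reg_killOp K id L hφ (DKer.one F D) hwt hw hA (fun w => ?_) ha hx hR
  rw [← hL w, Finset.sum_eq_single w]
  · exact if_pos rfl
  · intro j _ hj
    exact if_neg hj
  · intro h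
    exact absurd (Finset.mem_univ w) h

/-- the weights on the `k`-side -/
theorem sum_ite_eq_logv {J : Type*} [Fintype J] {K : KillRel F D H Q ι}
    {bw : J → InfinitePlace F} {pl : Fin 3 → InfinitePlace F → J} (he : ∀ v i, bw (pl i v) = v)
    (hinj : Function.Injective fun p : Fin 3 × InfinitePlace F => pl p.1 p.2)
    (hsurj : ∀ j, ∃ i, pl i (bw j) = j) {L : J → ℝ}
    (hL : ∀ v, ∑ i, L (pl i v) = logv K.x v) (w : InfinitePlace F) :
    (∑ j, open scoped Classical in if bw j = w then L j else 0) = logv K.x w := by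
  classical
  rw [← hL w, ← Finset.sum_filter]
  have : Finset.univ.filter (fun j => bw j = w) = Finset.univ.map ⟨fun i => pl i w,
      fun i i' h => (Prod.ext_iff.1 (hinj (a₁ := (i, w)) (a₂ := (i', w)) h)).1⟩ := by
    ext j
    simp only [Finset.mem_filter, Finset.mem_univ, true_and, Finset.mem_map,
      Function.Embedding.coeFn_mk]
    constructor
    · rintro rfl
      exact hsurj j
    · rintro ⟨i, rfl⟩
      exact he w i
  rw [this, Finset.sum_map]
  rfl

/-- **the smooth killing operator on the `k`-side** -/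
theorem exists_killOp_eigen [IsFiniteMeasure (wtM (muY F D) wf)]
    (hw : IsWt PGL(2, F) (muY F D) wf) {J : Type*} [Fintype J] [DecidableEq J]
    (K : KillRel F D H Q ι)
    {bw : J → InfinitePlace F} {pl : Fin 3 → InfinitePlace F → J} (he : ∀ v i, bw (pl i v) = v)
    (hinj : Function.Injective fun p : Fin 3 × InfinitePlace F => pl p.1 p.2)
    (hsurj : ∀ j, ∃ i, pl i (bw j) = j) {L : J → ℝ}
    {φ : J → ℝ → ℝ} (hφ : ∀ j, Pl A (φ j))
    (hwt : ∀ m ∈ (kp K.k J).support, wt L (lst m) < A)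
    (SF : FSym F D ((J → IKer) × S))
    (harch : ∀ p, SF.arch p = kk3 pl p.1) (mm : S → DKer F D) (hm : ∀ p, SF.m p = mm p.2)
    (h1 : mm 1 = DKer.one F D) (hmul : ∀ a b, mm (a * b) = (mm a).comp (mm b))
    (hT : ∀ i, mm (T i) = K.T i)
    {a : ℂ} (ha : a ≠ 0) {x : HA PGL(2, F) (muY F D)} (hx0 : x ≠ 0)
    (hx : lcO (SF.O hw) (comb K.k K.q L φ T) x = a • x)
    (hR : ∀ (j : InfinitePlace F) (k : ℝ → ℝ) (hk : ContDiff ℝ ∞ k) (hs : HasCompactSupport k),
      opA hw j (H3.kerOf hk.continuous hs) x = (H3.khat k : ℂ) • x) :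
    ∃ a' : ℂ, a' ≠ 0 ∧ killOp hw K bw L (fun v => φ (pl 0 v)) (DKer.one F D) x = a' • x := by
  have hmk : ∀ (v : InfinitePlace F) (j : J), opA hw v (mkI (φ j)) x =
      ((H3.khat (φ j) : ℝ) : ℂ) • x := fun v j => by
    rw [mkI_eq (hφ j).smooth.continuous (hφ j).supp]
    exact hR v _ (hφ j).smooth _
  have e1 := opL_apply hw (κ := fun v => mkI (φ (pl 1 v)))
    (s := fun v => ((H3.khat (φ (pl 1 v)) : ℝ) : ℂ)) (fun v => hmk v _) Finset.univ.toList
  have e2 := opL_apply hw (κ := fun v => mkI (φ (pl 2 v)))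
    (s := fun v => ((H3.khat (φ (pl 2 v)) : ℝ) : ℂ)) (fun v => hmk v _) Finset.univ.toList
  rw [lcO_comb_eq_K hw K he hinj hsurj hφ hwt SF harch mm hm h1 hmul hT, opL_killOp_comm,
    ← mul_assoc, opL_killOp_comm, mul_assoc] at hx
  set b : ℂ := ((Finset.univ.toList.map fun v => ((H3.khat (φ (pl 2 v)) : ℝ) : ℂ)).prod *
    (Finset.univ.toList.map fun v => ((H3.khat (φ (pl 1 v)) : ℝ) : ℂ)).prod) with hb
  have h2 : killOp hw K bw L (fun v => φ (pl 0 v)) (DKer.one F D) (b • x) = a • x := by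
    rw [← hx, hb]
    show _ = killOp hw K bw L (fun v => φ (pl 0 v)) (DKer.one F D)
      (opL hw (fun v => mkI (φ (pl 1 v))) Finset.univ.toList
        (opL hw (fun v => mkI (φ (pl 2 v))) Finset.univ.toList x))
    rw [e2, map_smul (opL hw (fun v => mkI (φ (pl 1 v))) Finset.univ.toList), e1, smul_smul]
  rw [map_smul] at h2
  have hb0 : b ≠ 0 := by
    intro h0
    rw [h0, zero_smul] at h2
    exact hx0 ((smul_eq_zero.1 h2.symm).resolve_left ha)
  refine ⟨b⁻¹ * a, mul_ne_zero (inv_ne_zero hb0) ha, ?_⟩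
  rw [← smul_smul, ← h2, smul_smul, inv_mul_cancel₀ hb0, one_smul]

/-- **regularity of the eigenvectors, on the `k`-side** -/
theorem reg_comb_K [SFinite (muY F D)] [IsFiniteMeasure (wtM (muY F D) wf)]
    (hw : IsWt PGL(2, F) (muY F D) wf) {J : Type*} [Fintype J] [DecidableEq J]
    (K : KillRel F D H Q ι)
    {bw : J → InfinitePlace F} {pl : Fin 3 → InfinitePlace F → J} (he : ∀ v i, bw (pl i v) = v)
    (hinj : Function.Injective fun p : Fin 3 × InfinitePlace F => pl p.1 p.2)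
    (hsurj : ∀ j, ∃ i, pl i (bw j) = j) {L : J → ℝ}
    {φ : J → ℝ → ℝ} (hφ : ∀ j, Pl A (φ j))
    (hwt : ∀ m ∈ (kp K.k J).support, wt L (lst m) < A) (hA : 0 < A)
    (hL : ∀ v, ∑ i, L (pl i v) = logv K.x v)
    (SF : FSym F D ((J → IKer) × S))
    (harch : ∀ p, SF.arch p = kk3 pl p.1) (mm : S → DKer F D) (hm : ∀ p, SF.m p = mm p.2)
    (h1 : mm 1 = DKer.one F D) (hmul : ∀ a b, mm (a * b) = (mm a).comp (mm b))
    (hT : ∀ i, mm (T i) = K.T i)
    {a : ℂ} (ha : a ≠ 0) {x : HA PGL(2, F) (muY F D)} (hx0 : x ≠ 0)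
    (hx : lcO (SF.O hw) (comb K.k K.q L φ T) x = a • x)
    (hR : ∀ (j : InfinitePlace F) (k : ℝ → ℝ) (hk : ContDiff ℝ ∞ k) (hs : HasCompactSupport k),
      opA hw j (H3.kerOf hk.continuous hs) x = (H3.khat k : ℂ) • x) :
    ∃ φ : HF F × D → ℂ, Fou.AutForm φ ∧ Brg.IsRep x φ := by
  obtain ⟨a', ha', h⟩ := exists_killOp_eigen hw K he hinj hsurj hφ hwt SF harch mm hm h1 hmul hT
    ha hx0 hx hR
  exact reg_killOp K bw L (φ := fun v => φ (pl 0 v)) (fun v => hφ (pl 0 v)) (DKer.one F D) hwt hw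
    hA (fun w => sum_ite_eq_logv he hinj hsurj hL w) ha' h hR

/-- **the hypotheses of the exit on the `k`-side** -/
theorem famKer_K (hw : IsWt PGL(2, F) (muY F D) wf) {J : Type*} [Fintype J] [DecidableEq J]
    (K : KillRel F D H Q ι)
    {bw : J → InfinitePlace F} {pl : Fin 3 → InfinitePlace F → J} (he : ∀ v i, bw (pl i v) = v)
    (hinj : Function.Injective fun p : Fin 3 × InfinitePlace F => pl p.1 p.2)
    (hsurj : ∀ j, ∃ i, pl i (bw j) = j) {L : J → ℝ}
    {φ : J → ℝ → ℝ} (hφ : ∀ j, Pl A (φ j))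
    (hwt : ∀ m ∈ (kp K.k J).support, wt L (lst m) < A) (hA : 0 < A)
    (hL : ∀ v, ∑ i, L (pl i v) = logv K.x v) :
    (∀ i, ContDiff ℝ ∞ (killΦ K bw L (fun v => φ (pl 0 v)) i)) ∧
      (∀ i, HasCompactSupport (killΦ K bw L (fun v => φ (pl 0 v)) i)) ∧
      MeanZero F (autK (famKer (killΦ K bw L (fun v => φ (pl 0 v)))
        (killκ K J (DKer.one F D)))) ∧
      KRep (killOp hw K bw L (fun v => φ (pl 0 v)) (DKer.one F D))
        (famKer (killΦ K bw L (fun v => φ (pl 0 v))) (killκ K J (DKer.one F D))) := by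
  have hφ' : ∀ v, Pl A ((fun v => φ (pl 0 v)) v) := fun v => hφ (pl 0 v)
  exact ⟨contDiff_killΦ K bw L hφ' hwt, hasCompactSupport_killΦ K bw L hφ' hwt,
    meanZero_kill K bw L hφ' (DKer.one F D) hwt hA fun w => sum_ite_eq_logv he hinj hsurj hL w,
    kRep_killOp K bw L hφ' (DKer.one F D) hwt hw⟩

end Sides

end Fermat.Agent.LT.Kill
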