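import Fermat.Agent.LT.Kill.RegC
import Fermat.Agent.LT.Kill.CombE
import Fermat.Agent.LT.Brg.Exit
import Fermat.Agent.LT.Spec.MatchB

set_option autoImplicit false
set_option linter.unusedSectionVars false
set_option linter.unusedVariables false

/-!
# Regularity of the eigenvectors of the killing combination for the concrete context
-/

namespace Fermat.Agent.LT.Mp.KillD.Test

open MeasureTheory Module NumberField Matrix MvPolynomial IsDedekindDomain
open Fermat.Agent.LT Fermat.Agent.LT.Sp Fermat.Agent.LT.Bd Fermat.Agent.LT.Op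
open Fermat.Agent.LT.Spec Fermat.Agent.LT.FA Fermat.Agent.LT.Loc Fermat.Agent.LT.Glob
open Fermat.Agent.LT.Kill Fermat.Agent.LT.Mp.Ctx Fermat.Agent.LT.Mp
open scoped MatrixGroups ContDiff ENNReal NNReal

universe u

variable {k E : Type u} [Field k] [NumberField k] [Field E] [NumberField E] [Algebra k E]
  {σ : E ≃ₐ[k] E} {h : Gal3 σ} {b : Bad σ} {K : KillD h b} (t : K.Test)
  {S₀ : Submonoid (b.X h).Sym} {T : Fin 3 → S₀} (hT : ∀ j, (T j).1 = K.sT j)
  [IsTotallyComplex k] [IsTotallyComplex E]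
  [MeasurableSpace (LocFam.D (b.X h).UE)] [DiscreteMeasurableSpace (LocFam.D (b.X h).UE)]
  [Countable (LocFam.D (b.X h).UE)]
  [MeasurableSpace (LocFam.D (b.X h).Uk)] [DiscreteMeasurableSpace (LocFam.D (b.X h).Uk)]
  [Countable (LocFam.D (b.X h).Uk)]
  {wE : HF E × LocFam.D (b.X h).UE → ℝ≥0} {wk : HF k × LocFam.D (b.X h).Uk → ℝ≥0}
  [IsFiniteMeasure (wtM (muY E (LocFam.D (b.X h).UE)) wE)]
  [IsFiniteMeasure (wtM (muY k (LocFam.D (b.X h).Uk)) wk)]

include hT in
/-- **regularity of the eigenvectors, on the `E`-side** -/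
theorem comb_reg_E (hwE : IsWt PGL(2, E) (muY E (LocFam.D (b.X h).UE)) wE)
    (hE : finrank k E = 3) {a : ℂ} (ha : a ≠ 0) {x : HA PGL(2, E) (muY E (LocFam.D (b.X h).UE))}
    (hx : lcO ((symE S₀).O hwE) (t.comb T) x = a • x)
    (hR : ∀ (j : InfinitePlace E) (f : ℝ → ℝ) (hf : ContDiff ℝ ∞ f) (hs : HasCompactSupport f),
      opA hwE j (H3.kerOf hf.continuous hs) x = (H3.khat f : ℂ) • x) :
    ∃ φ : HF E × LocFam.D (b.X h).UE → ℂ, Fou.AutForm φ ∧ Brg.IsRep x φ := by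
  classical
  have e : t.comb T = Kill.comb (K.kE hE).k (K.kE hE).q K.L t.φ T := by
    rw [comb, K.kE_q hE, K.kE_k hE]
  rw [e] at hx
  exact reg_comb_E (T := T) (A := t.R) hwE (K.kE hE) (L := K.L) (φ := t.φ) t.hpl
    (fun m hm => t.hwt m (by
      rw [K.kE_k hE] at hm
      convert hm)) t.hR (fun w => rfl)
    (symE (X := b.X h) S₀) (fun p => rfl) (fun s => (ME s.1).toDKer) (fun p => rfl)
    (by
      show (ME (1 : (b.X h).Sym)).toDKer = _
      rw [ME_one, LocFam.GFun.toDKer_one])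
    (fun x y => by
      show (ME (x.1 * y.1)).toDKer = _
      rw [ME_mul, LocFam.GFun.toDKer_mul])
    (fun i => by rw [hT, K.kE_T hE]) ha hx hR

include hT in
/-- **regularity of the eigenvectors, on the `k`-side** -/
theorem comb_reg_K (hwk : IsWt PGL(2, k) (muY k (LocFam.D (b.X h).Uk)) wk)
    {bw : InfinitePlace E → InfinitePlace k}
    {pl : Fin 3 → InfinitePlace k → InfinitePlace E}
    (hcm : ∀ v i, (pl i v).comap (algebraMap k E) = v) (hbp : ∀ v i, bw (pl i v) = v)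
    (hpl : Function.Injective fun p : Fin 3 × InfinitePlace k => pl p.1 p.2)
    (hbw : ∀ a, ∃ j, pl j (bw a) = a)
    {a : ℂ} (ha : a ≠ 0) {x : HA PGL(2, k) (muY k (LocFam.D (b.X h).Uk))} (hx0 : x ≠ 0)
    (hx : lcO ((symK pl S₀).O hwk) (t.comb T) x = a • x)
    (hR : ∀ (j : InfinitePlace k) (f : ℝ → ℝ) (hf : ContDiff ℝ ∞ f) (hs : HasCompactSupport f),
      opA hwk j (H3.kerOf hf.continuous hs) x = (H3.khat f : ℂ) • x) :
    ∃ φ : HF k × LocFam.D (b.X h).Uk → ℂ, Fou.AutForm φ ∧ Brg.IsRep x φ := by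
  classical
  have e : t.comb T = Kill.comb K.kK.k K.kK.q K.L t.φ T := by
    rw [comb, K.kK_q, K.kK_k]
  rw [e] at hx
  exact reg_comb_K (T := T) (A := t.R) hwk K.kK hbp hpl hbw (L := K.L) (φ := t.φ) t.hpl
    (fun m hm => t.hwt m (by
      rw [K.kK_k] at hm
      convert hm)) t.hR (fun v => by
        rw [Finset.sum_congr rfl fun i _ => L_pl (K := K) (hcm v i), Finset.sum_const,
          Finset.card_univ, Fintype.card_fin, K.kK_x]
        show 3 • Real.log ‖v.embedding (piF K.hπ : k)‖ =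
          Real.log ‖v.embedding ((piF K.hπ ^ 3 : kˣ) : k)‖
        rw [Units.val_pow_eq_pow_val, map_pow, norm_pow, Real.log_pow]
        simp)
    (symK (X := b.X h) pl S₀) (fun p => rfl) (fun s => (MK s.1).toDKer) (fun p => rfl)
    (by
      show (MK (1 : (b.X h).Sym)).toDKer = _
      rw [MK_one, LocFam.GFun.toDKer_one])
    (fun x y => by
      show (MK (x.1 * y.1)).toDKer = _
      rw [MK_mul, LocFam.GFun.toDKer_mul])
    (fun i => by rw [hT, K.kK_T]) ha hx0 hx hR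

/-- **regularity on the `E`-side** for the killing combination `t.A` -/
theorem reg_E (hwE : IsWt PGL(2, E) (muY E (LocFam.D (b.X h).UE)) wE)
    (hE : finrank k E = 3) {a : ℂ} (ha : a ≠ 0) {x : HA PGL(2, E) (muY E (LocFam.D (b.X h).UE))}
    (hx : lcO ((symE (b.v0Data h).pureS).O hwE) t.A x = a • x)
    (hR : ∀ (j : InfinitePlace E) (κ : IKer), opA hwE j κ x = ((κ.ev : ℝ) : ℂ) • x) :
    ∃ φ : HF E × LocFam.D (b.X h).UE → ℂ, Fou.AutForm φ ∧ Brg.IsRep x φ :=
  t.comb_reg_E K.TS_coe hwE hE ha hx fun j f hf hs => by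
    rw [← IKer.ev_kerOf hf.continuous hs]
    exact hR j _

/-- **regularity on the `k`-side**: the hypothesis `hreg` of `Brg.exit_form` for `t.A` -/
theorem reg_K (hwk : IsWt PGL(2, k) (muY k (LocFam.D (b.X h).Uk)) wk)
    {bw : InfinitePlace E → InfinitePlace k}
    {pl : Fin 3 → InfinitePlace k → InfinitePlace E}
    (hcm : ∀ v i, (pl i v).comap (algebraMap k E) = v) (hbp : ∀ v i, bw (pl i v) = v)
    (hpl : Function.Injective fun p : Fin 3 × InfinitePlace k => pl p.1 p.2)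
    (hbw : ∀ a, ∃ j, pl j (bw a) = a) {J : Type*} {s : J → (b.v0Data h).pureS}
    {lam : Idx J (InfinitePlace E × IKer) → ℝ} (hlA : lam .A ≠ 0)
    (hla : ∀ (w : InfinitePlace E) (κ : IKer), lam (.arch (w, κ)) = κ.ev)
    (y : HA PGL(2, k) (muY k (LocFam.D (b.X h).Uk)))
    (hy : y ∈ jointE (TKf pl bw hwk t.A s Prod.fst Prod.snd) lam) (hy0 : y ≠ 0) :
    ∃ φ : HF k × LocFam.D (b.X h).Uk → ℂ, Fou.AutForm φ ∧ Brg.IsRep y φ :=
  t.comb_reg_K K.TS_coe hwk hcm hbp hpl hbw (Complex.ofReal_ne_zero.2 hlA) hy0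
    (mem_jointE.1 hy .A) fun j f hf hs => by
      rw [← IKer.ev_kerOf hf.continuous hs]
      exact Brg.arch_of_mem h b hpl hbw hwk hla hy j _

/-- **regularity on the `k`-side** for the chosen places -/
theorem reg_KB (hwk : IsWt PGL(2, k) (muY k (LocFam.D (b.X h).Uk)) wk)
    {J : Type*} {s : J → (b.v0Data h).pureS}
    {lam : Idx J (InfinitePlace E × IKer) → ℝ} (hlA : lam .A ≠ 0)
    (hla : ∀ (w : InfinitePlace E) (κ : IKer), lam (.arch (w, κ)) = κ.ev)
    (y : HA PGL(2, k) (muY k (LocFam.D (b.X h).Uk)))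
    (hy : y ∈ jointE (TKf (plB σ) (bwM k) hwk t.A s Prod.fst Prod.snd) lam) (hy0 : y ≠ 0) :
    ∃ φ : HF k × LocFam.D (b.X h).Uk → ℂ, Fou.AutForm φ ∧ Brg.IsRep y φ :=
  t.reg_K hwk (fun v i => bwM_plB i v) (fun v i => bwM_plB i v) (plB_injective h) (exists_plB h)
    hlA hla y hy hy0

end Fermat.Agent.LT.Mp.KillD.Test
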