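import Fermat.Agent.LT.Kill.Unf
import Fermat.Agent.LT.Bd.Bounded
import Fermat.Agent.LT.Fou.Coef
import Fermat.Agent.LT.H3.Horo

set_option autoImplicit false

/-!
# Automorphic kernels attached to pure tensors
-/

namespace Fermat.Agent.LT.Kill

open MeasureTheory Module NumberField Matrix
open Fermat.Agent.LT Fermat.Agent.LT.Sp Fermat.Agent.LT.Bd
open scoped MatrixGroups ContDiff

variable {F : Type*} [Field F] [NumberField F]

section Prod

/-- product functions -/
noncomputable def prodΦ (φ : InfinitePlace F → ℝ → ℝ) (c : InfinitePlace F → ℝ) : ℂ :=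
  ∏ w, ((φ w (c w) : ℝ) : ℂ)

theorem contDiff_prodΦ {φ : InfinitePlace F → ℝ → ℝ} (h : ∀ w, ContDiff ℝ ∞ (φ w)) :
    ContDiff ℝ ∞ (prodΦ φ) := by
  unfold prodΦ
  refine contDiff_prod fun w _ => ?_
  exact Complex.ofRealCLM.contDiff.comp ((h w).comp (contDiff_apply ℝ ℝ w))

theorem hasCompactSupport_prodΦ {φ : InfinitePlace F → ℝ → ℝ} (h : ∀ w, HasCompactSupport (φ w)) :
    HasCompactSupport (prodΦ φ) := by
  refine HasCompactSupport.intro (K := Set.univ.pi fun w => tsupport (φ w))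
    (isCompact_univ_pi fun w => (h w).isCompact) fun c hc => ?_
  simp only [Set.mem_pi, Set.mem_univ, true_implies, not_forall] at hc
  obtain ⟨w, hw⟩ := hc
  refine Finset.prod_eq_zero (Finset.mem_univ w) ?_
  rw [image_eq_zero_of_notMem_tsupport hw, Complex.ofReal_zero]

end Prod

variable {D : Type*} [MulAction (GL (Fin 2) F) D]

/-- pure tensors -/
noncomputable def tenK (φ : InfinitePlace F → ℝ → ℝ) (κ : DKer F D) (x x' : HF F × D) : ℂ :=
  prodΦ φ (cds x.1 x'.1) * κ.κ x.2 x'.2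

theorem famKer_unit (Φ : (InfinitePlace F → ℝ) → ℂ) (κ : DKer F D) :
    famKer (fun _ : Unit => Φ) (fun _ => κ) = fun x x' => Φ (cds x.1 x'.1) * κ.κ x.2 x'.2 := by
  funext x x'
  simp [famKer]

theorem tenK_eq (φ : InfinitePlace F → ℝ → ℝ) (κ : DKer F D) :
    tenK φ κ = famKer (fun _ : Unit => prodΦ φ) (fun _ => κ) := by
  rw [famKer_unit]
  rfl

variable [FinPart F D]

theorem tenK_smul (φ : InfinitePlace F → ℝ → ℝ) (κ : DKer F D) (g : PGL(2, F))
    (x x' : HF F × D) : tenK φ κ (g • x) (g • x') = tenK φ κ x x' := by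
  rw [tenK_eq, famKer_smul]

variable {φ : InfinitePlace F → ℝ → ℝ} (κ : DKer F D)

section Per

variable [IsTotallyComplex F]

/-- uniform finiteness of the support -/
theorem exists_support (hc : ∀ w, HasCompactSupport (φ w)) (p : HF F) (d : D) (x' : HF F × D)
    (B : ℝ) : ∃ Ψ : Finset PGL(2, F), ∀ v : InfinitePlace F → ℂ, ‖v‖ ≤ B → ∀ g, g ∉ Ψ →
      tenK φ κ (trF v p, d) (g • x') = 0 := by
  obtain ⟨R, Y, hR1, -, hreg⟩ := exists_region p 0
  obtain ⟨C, -, hC⟩ := exists_support_count (I := Unit) (Φ := fun _ => prodΦ φ) (κ := fun _ => κ)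
    (fun _ => hasCompactSupport_prodΦ hc) hR1 B d
  obtain ⟨Ψ, -, hΨ⟩ := hC p Y hreg x'
  exact ⟨Ψ, fun v hv g hg => hΨ v hv g hg ()⟩

theorem trF_add (v u : InfinitePlace F → ℂ) (p : HF F) : trF (v + u) p = trF v (trF u p) := by
  rw [trF_trF, add_comm]

theorem trF_emb (t : F) (p : HF F) : trF (Fou.emb t) p = nMat t • p :=
  trF_eq_nMat t _ (fun _ => rfl) p

theorem continuous_autK_tenK (hφ : ∀ w, ContDiff ℝ ∞ (φ w)) (hc : ∀ w, HasCompactSupport (φ w))
    (p : HF F) (d : D) (x' : HF F × D) :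
    Continuous fun v : InfinitePlace F → ℂ => autK (tenK φ κ) (trF v p, d) x' := by
  rw [tenK_eq]
  exact continuous_autK (fun _ => contDiff_prodΦ hφ) (fun _ => hasCompactSupport_prodΦ hc) p d x'

/-- periodicity for invariant functions -/
theorem per_of_inv {Ψ : HF F × D → ℂ} (hinv : ∀ (g : PGL(2, F)) x, Ψ (g • x) = Ψ x) {p : HF F}
    {d : D} (hcont : Continuous fun v : InfinitePlace F → ℂ => Ψ (trF v p, d)) {N : ℕ}
    (hN : ∀ a : 𝓞 F, (N : F) * a ∈ trans F d) :
    Fou.Per N fun v : InfinitePlace F → ℂ => Ψ (trF v p, d) := by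
  refine ⟨hcont, fun a v => ?_⟩
  have h1 : ((trF (v + Fou.emb ((N : F) * a)) p, d) : HF F × D) =
      ProjGenLinGroup.mk (nMat ((N : F) * a)) • ((trF v p, d) : HF F × D) := by
    rw [add_comm, trF_add, trF_emb]
    have := mem_trans.mp (hN a)
    exact Prod.ext rfl this.symm
  rw [h1, hinv]

theorem per_tenK (hφ : ∀ w, ContDiff ℝ ∞ (φ w)) (hc : ∀ w, HasCompactSupport (φ w))
    (p : HF F) (d : D) (x' : HF F × D) {N : ℕ} (hN : ∀ a : 𝓞 F, (N : F) * a ∈ trans F d) :
    Fou.Per N fun v : InfinitePlace F → ℂ => autK (tenK φ κ) (trF v p, d) x' :=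
  per_of_inv (Ψ := fun x => autK (tenK φ κ) x x')
    (fun g x => autK_smul_left _ (tenK_smul φ κ) g x x') (continuous_autK_tenK κ hφ hc p d x') hN

end Per

end Fermat.Agent.LT.Kill
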