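import Fermat.Agent.LT.Poisson

set_option autoImplicit false

/-!
# Unfolding of mean values over a unit box
-/

namespace Fermat.Agent.LT.Kill

open MeasureTheory
open Fermat.Agent.LT

variable {d : Type*} [Fintype d] {S : Type*}

/-- the integral part (for the boxes `(k, k+1]`) -/
noncomputable def flr (x : d → ℝ) : d → ℤ := fun i => ⌈x i⌉ - 1

theorem mem_box_flr (x : d → ℝ) (k : d → ℤ) : x ∈ box k ↔ flr x = k := by
  rw [mem_box_iff]
  constructor
  · intro h
    funext i
    simp [flr, h i]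
  · rintro rfl i
    simp [flr]

omit [Fintype d] in
theorem flr_add (x : d → ℝ) (k : d → ℤ) : flr (x + zc k) = flr x + k := by
  funext i
  simp only [flr, zc, Pi.add_apply, Int.ceil_add_intCast]
  ring

/-- representatives for an action of the lattice -/
noncomputable def repEquiv (act : (d → ℤ) → S → S) (h0 : ∀ X, act 0 X = X)
    (hadd : ∀ k l X, act (k + l) X = act k (act l X)) (ζ : S → d → ℝ)
    (hζ : ∀ k X, ζ (act k X) = ζ X + zc k) : {X : S // ζ X ∈ box (0 : d → ℤ)} × (d → ℤ) ≃ S where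
  toFun p := act p.2 p.1
  invFun X := (⟨act (-(flr (ζ X))) X, by
    rw [mem_box_flr, hζ, flr_add, add_neg_cancel]⟩, flr (ζ X))
  left_inv p := by
    obtain ⟨⟨X, hX⟩, k⟩ := p
    rw [mem_box_flr] at hX
    have h1 : flr (ζ (act k X)) = k := by rw [hζ, flr_add, hX, zero_add]
    ext1
    · apply Subtype.ext
      show act (-(flr (ζ (act k X)))) (act k X) = X
      rw [h1, ← hadd, neg_add_cancel, h0]
    · exact h1
  right_inv X := by
    show act (flr (ζ X)) (act (-(flr (ζ X))) X) = X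
    rw [← hadd, add_neg_cancel, h0]

variable (act : (d → ℤ) → S → S) (h0 : ∀ X, act 0 X = X)
  (hadd : ∀ k l X, act (k + l) X = act k (act l X)) (ζ : S → d → ℝ)
  (hζ : ∀ k X, ζ (act k X) = ζ X + zc k) {A : S → (d → ℝ) → ℂ}
  (hA : ∀ k X t, A (act k X) (t + zc k) = A X t) (hi : ∀ X, Integrable (A X))
  {Ψ : Finset S} (hΨ : ∀ X ∉ Ψ, ∀ t ∈ box (0 : d → ℤ), A X t = 0)

include h0 hadd hζ hA hi hΨ

/-- the unfolded sum is finite -/
theorem unfold_finite :
    {X : {X : S // ζ X ∈ box (0 : d → ℤ)} | ∫ t, A X t ≠ 0}.Finite := by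
  classical
  set e := repEquiv act h0 hadd ζ hζ with he
  refine (Ψ.finite_toSet.image fun Y => (e.symm Y).1).subset ?_
  intro X hX
  have h1 := hasSum_box (hi X.1)
  have h2 : ∃ k : d → ℤ, ∫ x in box 0, A X.1 (x + zc k) ≠ 0 := by
    by_contra hcon
    push Not at hcon
    apply hX
    have : (fun k : d → ℤ => ∫ x in box 0, A X.1 (x + zc k)) = fun _ => 0 := funext hcon
    rw [this] at h1
    exact h1.unique hasSum_zero
  obtain ⟨k, hk⟩ := h2
  have h3 : act (-k) X.1 ∈ Ψ := by
    by_contra hcon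
    apply hk
    apply setIntegral_eq_zero_of_forall_eq_zero
    intro t ht
    have h4 := hΨ _ hcon t ht
    have h5 := hA (-k) X.1 (t + zc k)
    have h6 : t + zc k + zc (-k) = t := by
      funext i
      simp [zc]
    rw [h6, h4] at h5
    exact h5.symm
  refine ⟨act (-k) X.1, h3, ?_⟩
  have h7 : e.symm (act (-k) X.1) = (X, -k) := by
    rw [Equiv.symm_apply_eq]
    rfl
  simp only [h7]

/-- **Unfolding.** -/
theorem unfold_box : ∫ t in box (0 : d → ℤ), ∑' X, A X t =
    ∑' X : {X : S // ζ X ∈ box (0 : d → ℤ)}, ∫ t, A X t := by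
  classical
  set e := repEquiv act h0 hadd ζ hζ with he
  have hz : ∀ X ∉ Ψ, ∫ t in box (0 : d → ℤ), A X t = 0 := fun X hX =>
    setIntegral_eq_zero_of_forall_eq_zero fun t ht => hΨ X hX t ht
  have h1 : ∫ t in box (0 : d → ℤ), ∑' X, A X t = ∑' X, ∫ t in box (0 : d → ℤ), A X t := by
    rw [tsum_eq_sum (s := Ψ) fun X hX => hz X hX]
    rw [← integral_finsetSum Ψ fun X _ => (hi X).integrableOn]
    refine setIntegral_congr_fun (measurableSet_box 0) fun t ht => ?_
    exact tsum_eq_sum fun X hX => hΨ X hX t ht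
  have hsum : Summable fun p : {X : S // ζ X ∈ box (0 : d → ℤ)} × (d → ℤ) =>
      ∫ t in box (0 : d → ℤ), A (e p) t := by
    refine summable_of_hasFiniteSupport ?_
    refine (Ψ.finite_toSet.preimage (f := e) e.injective.injOn).subset fun p hp => ?_
    by_contra hcon
    exact hp (hz _ hcon)
  rw [h1, ← e.tsum_eq, hsum.tsum_prod]
  refine tsum_congr fun X => ?_
  have h2 : ∀ k : d → ℤ, ∫ t in box (0 : d → ℤ), A (e (X, k)) t =
      ∫ t in box (0 : d → ℤ), A X.1 (t + zc (-k)) := by
    intro k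
    refine setIntegral_congr_fun (measurableSet_box 0) fun t _ => ?_
    have h3 := hA k X.1 (t + zc (-k))
    have h4 : t + zc (-k) + zc k = t := by
      funext i
      simp [zc]
    rw [h4] at h3
    exact h3
  simp_rw [h2]
  have h5 := (Equiv.neg (d → ℤ)).tsum_eq fun k => ∫ t in box (0 : d → ℤ), A X.1 (t + zc k)
  simp only [Equiv.neg_apply] at h5
  rw [h5]
  exact (hasSum_box (hi X.1)).tsum_eq

end Fermat.Agent.LT.Kill
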